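import Fermat.Agent.Deform.Matrix
import Fermat.Prelude.Def_GaloisRep_StrictOrdinary
import Fermat.Prelude.Def_GaloisRep_Flat

/-!
# Local conditions under base change

The local conditions of deformation problems are stable under base change along surjections.
-/

set_option autoImplicit false

noncomputable section

namespace Fermat.Agent.CFT.Tangent

open IsLocalRing Module
open scoped TensorProduct

variable {A B : Type} [CommRing A] [IsLocalRing A] [CommRing B] [IsLocalRing B]
variable (φ : A →+* B) (hφ : IsLocalHom φ) {ρ : GaloisRepAdic A} {p : ℕ}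

include hφ in
theorem natCast_mem_maximalIdeal_map {a : ℕ} (ha : (a : A) ∈ maximalIdeal A) :
    (a : B) ∈ maximalIdeal B := by
  have := hφ
  rw [← map_natCast φ]
  exact map_nonunit φ _ ha

omit [IsLocalRing A] [IsLocalRing B] in
theorem map_mem_span_natCast {a : A} {m : ℕ} (h : a ∈ Ideal.span {((m : ℕ) : A)}) :
    φ a ∈ Ideal.span {((m : ℕ) : B)} := by
  obtain ⟨c, rfl⟩ := Ideal.mem_span_singleton'.mp h
  exact Ideal.mem_span_singleton'.mpr ⟨φ c, by rw [map_mul, map_natCast]⟩

theorem det_baseChangeAlong (σ : Deform.Gal) :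
    LinearMap.det ((ρ.baseChangeAlong φ hφ).ρ σ) = φ (LinearMap.det (ρ.ρ σ)) := by
  let := φ.toAlgebra
  exact LinearMap.det_baseChange (A := B) (ρ.ρ σ)

theorem charpoly_baseChangeAlong (σ : Deform.Gal) :
    LinearMap.charpoly ((ρ.baseChangeAlong φ hφ).ρ σ) = (LinearMap.charpoly (ρ.ρ σ)).map φ := by
  let := φ.toAlgebra
  exact LinearMap.charpoly_baseChange (ρ.ρ σ) B

/-- Cyclotomic determinant is preserved by base change. -/
theorem DetIsCyclotomic.baseChange (h : ρ.DetIsCyclotomic p) :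
    (ρ.baseChangeAlong φ hφ).DetIsCyclotomic p := by
  refine ⟨natCast_mem_maximalIdeal_map φ hφ h.1, fun n σ a ha => ?_⟩
  have := map_mem_span_natCast φ (h.2 n σ a ha)
  rwa [map_sub, map_natCast, ← det_baseChangeAlong φ hφ] at this

/-- Being unramified at `q` is preserved by base change. -/
theorem IsUnramifiedAt.baseChange {q : ℕ} (h : ρ.IsUnramifiedAt q) :
    (ρ.baseChangeAlong φ hφ).IsUnramifiedAt q := by
  intro P hP σ hσ
  let := φ.toAlgebra
  show (ρ.ρ σ).baseChange B = 1
  rw [h P hP σ hσ, LinearMap.baseChange_one]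

/-- Unipotent inertia at `q` is preserved by base change. -/
theorem IsUnipotentOnInertiaAt.baseChange {q : ℕ} (h : ρ.IsUnipotentOnInertiaAt q) :
    (ρ.baseChangeAlong φ hφ).IsUnipotentOnInertiaAt q := by
  intro P hP σ hσ
  rw [charpoly_baseChangeAlong, h P hP σ hσ]
  simp

/-- Strict ordinarity at `p` is preserved by base change. -/
theorem IsStrictOrdinaryAt.baseChange (h : ρ.IsStrictOrdinaryAt p) :
    (ρ.baseChangeAlong φ hφ).IsStrictOrdinaryAt p := by
  let := φ.toAlgebra
  refine ⟨natCast_mem_maximalIdeal_map φ hφ h.1, fun P hP => ?_⟩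
  obtain ⟨L, ⟨b, hb⟩, hD, hI, hxz⟩ := h.2 P hP
  -- Take the line spanned by the base change of the first basis vector.
  let b' : Basis (Fin 2) B (B ⊗[A] ρ.V) := b.baseChange B
  let L' : Submodule B (B ⊗[A] ρ.V) := B ∙ b' 0
  have hb'0 : b' 0 = (1 : B) ⊗ₜ[A] b 0 := Basis.baseChange_apply _ _ _
  have hsmul : ∀ (a : A) (c : B) (w : ρ.V), c ⊗ₜ[A] (a • w) = φ a • (c ⊗ₜ[A] w) := fun a c w => by
    rw [TensorProduct.tmul_smul]
    exact (algebraMap_smul B a (c ⊗ₜ[A] w)).symm
  have hmem : ∀ (c : B) (w : ρ.V), w ∈ L → c ⊗ₜ[A] w ∈ L' := fun c w hw => by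
    rw [hb] at hw
    obtain ⟨a, rfl⟩ := Submodule.mem_span_singleton.mp hw
    refine Submodule.mem_span_singleton.mpr ⟨φ a * c, ?_⟩
    rw [hb'0, hsmul, mul_smul, TensorProduct.smul_tmul', smul_eq_mul, mul_one]
  have hb0 : b 0 ∈ L := hb ▸ Submodule.mem_span_singleton_self _
  have hD' : ∀ σ ∈ P.decompositionSubgroup ℚ, ∀ v ∈ L', (ρ.ρ σ).baseChange B v ∈ L' := by
    intro σ hσ v hv
    obtain ⟨c, rfl⟩ := Submodule.mem_span_singleton.mp hv
    rw [map_smul, hb'0, LinearMap.baseChange_tmul]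
    exact L'.smul_mem c (hmem 1 _ (hD σ hσ _ hb0))
  have hI' : ∀ σ ∈ P.inertiaSubgroupIn ℚ, ∀ v, (ρ.ρ σ).baseChange B v - v ∈ L' := by
    intro σ hσ v
    induction v using TensorProduct.induction_on with
    | zero => rw [map_zero, sub_zero]; exact zero_mem _
    | tmul c w =>
      rw [LinearMap.baseChange_tmul, ← TensorProduct.tmul_sub]
      exact hmem c _ (hI σ hσ w)
    | add x y hx hy => rw [map_add, add_sub_add_comm]; exact add_mem hx hy
  -- Its characters are the images of the old ones under `φ`.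
  have hxz' : ∀ σ ∈ P.decompositionSubgroup ℚ, ∃ x z : B,
      (∀ w ∈ L', (ρ.ρ σ).baseChange B w = x • w) ∧
      (∀ v, (ρ.ρ σ).baseChange B v - z • v ∈ L') ∧
      ∀ (n a : ℕ), (∀ μ : AlgebraicClosure ℚ, μ ^ p ^ n = 1 → σ μ = μ ^ a) →
        x - (a : B) * z ∈ Ideal.span {((p ^ n : ℕ) : B)} := by
    intro σ hσ
    obtain ⟨x, z, hx, hz, hcyc⟩ := hxz σ hσ
    refine ⟨φ x, φ z, fun w hw => ?_, fun v => ?_, fun n a ha => ?_⟩
    · obtain ⟨c, rfl⟩ := Submodule.mem_span_singleton.mp hw
      rw [map_smul, smul_comm (φ x), hb'0, LinearMap.baseChange_tmul, hx _ hb0, hsmul]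
    · induction v using TensorProduct.induction_on with
      | zero => rw [map_zero, smul_zero, sub_zero]; exact zero_mem _
      | tmul c w =>
        rw [LinearMap.baseChange_tmul, ← hsmul, ← TensorProduct.tmul_sub]
        exact hmem c _ (hz w)
      | add x y hx hy => rw [map_add, smul_add, add_sub_add_comm]; exact add_mem hx hy
    · have := map_mem_span_natCast φ (hcyc n a ha)
      rwa [map_sub, map_mul, map_natCast] at this
  exact ⟨L', ⟨b', rfl⟩, hD', hI', hxz'⟩

/-- Membership in `I • ⊤` is read on coordinates. -/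
theorem mem_ideal_smul_top_iff_repr {R M : Type} [CommRing R] [AddCommGroup M] [Module R M]
    (b : Basis (Fin 2) R M) (I : Ideal R) (x : M) :
    x ∈ I • (⊤ : Submodule R M) ↔ ∀ i, b.repr x i ∈ I := by
  refine ⟨fun hx i => ?_, fun hx => ?_⟩
  · refine Submodule.smul_induction_on (p := fun x => b.repr x i ∈ I) hx ?_ ?_
    · intro r hr n _
      rw [map_smul, Finsupp.smul_apply, smul_eq_mul]
      exact I.mul_mem_right _ hr
    · intro x y hx hy
      rw [map_add, Finsupp.add_apply]
      exact add_mem hx hy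
  · rw [← b.sum_repr x]
    exact Submodule.sum_mem _ fun i _ => Submodule.smul_mem_smul (hx i) Submodule.mem_top

/-- Flatness at `p` is preserved by base change along a surjection. -/
theorem IsFlatAt.baseChange (hsurj : Function.Surjective φ) (h : ρ.IsFlatAt p) :
    (ρ.baseChangeAlong φ hφ).IsFlatAt p := by
  let := φ.toAlgebra
  have := hφ
  refine ⟨?_, fun I hI => ?_⟩
  · have := h.1
    refine Finite.of_surjective (ResidueField.map φ) fun z => ?_
    obtain ⟨b, rfl⟩ := residue_surjective z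
    obtain ⟨a, rfl⟩ := hsurj b
    exact ⟨residue A a, rfl⟩
  have hfin : Finite (A ⧸ I.comap φ) := Finite.of_injective _
    (Ideal.quotientMap_injective (I := I) (f := φ))
  -- Take the group scheme at the level `I ∩ A`; as `φ` is onto, the two finite modules agree.
  obtain ⟨H, instH, instHopf, h1, h2, h3, e, he, heσ⟩ := h.2 (I.comap φ) hfin
  let b := Module.finBasisOfFinrankEq A ρ.V ρ.finrank_eq
  let b' : Basis (Fin 2) B (B ⊗[A] ρ.V) := b.baseChange B
  let N : Submodule B (B ⊗[A] ρ.V) := I • (⊤ : Submodule B (B ⊗[A] ρ.V))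
  let f : ρ.V →+ (B ⊗[A] ρ.V) ⧸ N :=
    N.mkQ.toAddMonoidHom.comp ((TensorProduct.mk A B ρ.V 1).toAddMonoidHom)
  have hf : ∀ v, f v = Submodule.Quotient.mk ((1 : B) ⊗ₜ[A] v) := fun v => rfl
  have hker : ∀ v, f v = 0 ↔ v ∈ I.comap φ • (⊤ : Submodule A ρ.V) := fun v => by
    rw [hf, Submodule.Quotient.mk_eq_zero, mem_ideal_smul_top_iff_repr b',
      mem_ideal_smul_top_iff_repr b]
    refine forall_congr' fun i => ?_
    rw [Basis.baseChange_repr_tmul, Ideal.mem_comap, Algebra.smul_def, mul_one]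
    rfl
  let g : ρ.V ⧸ (I.comap φ • (⊤ : Submodule A ρ.V)) →+ (B ⊗[A] ρ.V) ⧸ N :=
    QuotientAddGroup.lift (I.comap φ • (⊤ : Submodule A ρ.V)).toAddSubgroup f
      fun v hv => (hker v).mpr hv
  have hgmk : ∀ v, g (Submodule.Quotient.mk v) = f v := fun v => rfl
  have hginj : Function.Injective g := by
    refine (injective_iff_map_eq_zero g).mpr fun y hy => ?_
    obtain ⟨v, rfl⟩ := Submodule.Quotient.mk_surjective _ y
    rw [hgmk, hker] at hy
    exact (Submodule.Quotient.mk_eq_zero _).mpr hy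
  have hgsurj : Function.Surjective g := by
    intro y
    obtain ⟨w, rfl⟩ := Submodule.Quotient.mk_surjective _ y
    suffices hw : ∃ v : ρ.V, w = (1 : B) ⊗ₜ[A] v by
      obtain ⟨v, rfl⟩ := hw
      exact ⟨Submodule.Quotient.mk v, rfl⟩
    revert w
    show ∀ w : B ⊗[A] ρ.V, _
    intro w
    induction w using TensorProduct.induction_on with
    | zero => exact ⟨0, (TensorProduct.tmul_zero _ _).symm⟩
    | tmul c v =>
      obtain ⟨a, rfl⟩ := hsurj c
      refine ⟨a • v, ?_⟩
      rw [TensorProduct.tmul_smul, TensorProduct.smul_tmul', Algebra.smul_def, mul_one]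
      rfl
    | add x y hx hy =>
      obtain ⟨v, rfl⟩ := hx
      obtain ⟨v', rfl⟩ := hy
      exact ⟨v + v', (TensorProduct.tmul_add _ _ _).symm⟩
  -- Transport the group scheme along this isomorphism.
  refine ⟨H, instH, instHopf, h1, h2, h3, e.trans (Equiv.ofBijective g ⟨hginj, hgsurj⟩),
    fun u v => ?_, fun σ u v huv => ?_⟩
  · show g (e (u * v)) = g (e u) + g (e v)
    rw [he, map_add]
  · show g (e v) = (ρ.baseChangeAlong φ hφ).levelAction I σ (g (e u))
    rw [heσ σ u v huv]
    obtain ⟨x, hx⟩ := Submodule.Quotient.mk_surjective _ (e u)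
    rw [← hx]
    show g (Submodule.Quotient.mk (ρ.ρ σ x)) =
      Submodule.Quotient.mk (p := N) ((ρ.ρ σ).baseChange B ((1 : B) ⊗ₜ[A] x))
    rw [hgmk, hf, LinearMap.baseChange_tmul]

end Fermat.Agent.CFT.Tangent
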