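import Fermat.Agent.CFT.Tangent.LocalBasic
import Fermat.Agent.CFT.Local.Global

/-!
# Decomposition groups at finite level

Finite levels and the structure of decomposition groups at finite level.
-/

set_option autoImplicit false

noncomputable section

namespace Fermat.Agent.CFT.Tangent

open Fermat.Agent.Deform Fermat.Agent.Arith

/-- Functions on the Galois group that vanish on an open subgroup. It is used for cocycles of
finite level representations, for which it means factoring through a finite extension. -/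
def IsFiniteLevel {M : Type} [Zero M] (b : Gal → M) : Prop :=
  ∃ L : IntermediateField ℚ QBar, FiniteDimensional ℚ L ∧ ∀ σ : Gal, (∀ x ∈ L, σ x = x) → b σ = 0

variable {k : Type} [Field k]

/-- A common normal level for a finite dimensional space of functions and a representation. -/
theorem exists_common_level {r : Gal →* M2 k} (hr : GaloisFactorsThroughFiniteLevel r)
    (V : Submodule k (Gal → M2 k)) [Module.Finite k V] (hV : ∀ b ∈ V, IsFiniteLevel b) :
    ∃ L : IntermediateField ℚ QBar, FiniteDimensional ℚ L ∧ Normal ℚ L ∧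
      ∀ σ : Gal, (∀ x ∈ L, σ x = x) → r σ = 1 ∧ ∀ b ∈ V, b σ = 0 := by
  obtain ⟨L₀, hL₀, h₀⟩ := hr
  let e := Module.finBasis k V
  choose Lb hLb hb using fun i => hV (e i : Gal → M2 k) (e i).2
  let M : IntermediateField ℚ QBar := L₀ ⊔ ⨆ i, Lb i
  refine ⟨IntermediateField.normalClosure ℚ M QBar, inferInstance,
    normalClosure.normal ℚ M QBar, fun σ hσ => ?_⟩
  have hM : ∀ x ∈ M, σ x = x := fun x hx => hσ x (M.le_normalClosure hx)
  refine ⟨h₀ σ fun x hx => hM x (le_sup_left (α := IntermediateField ℚ QBar) hx), fun b hbV => ?_⟩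
  have hz : ∀ i, (e i : Gal → M2 k) σ = 0 := fun i =>
    hb i σ fun x hx => hM x (le_sup_right (α := IntermediateField ℚ QBar)
      (le_iSup (fun j => Lb j) i hx))
  have hsum := congrArg Subtype.val (e.sum_repr ⟨b, hbV⟩)
  rw [Submodule.coe_sum] at hsum
  simp only [Submodule.coe_smul] at hsum
  rw [← hsum]
  simp [Finset.sum_apply, hz]

/-- At finite level a decomposition group is generated by Frobenius and inertia. -/
theorem exists_frobenius_mul_inertia {q : ℕ} [Fact q.Prime] (L : IntermediateField ℚ QBar)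
    [Normal ℚ L] [FiniteDimensional ℚ L] {F : Gal} (hF : (padicPlace q).IsFrobeniusAt F q)
    {σ : Gal} (hσ : σ ∈ (padicPlace q).decompositionSubgroup ℚ) :
    ∃ i : ℕ, ∃ τ ∈ (padicPlace q).inertiaSubgroupIn ℚ, ∀ x ∈ L, σ x = (F ^ i * τ) x := by
  set E := Local.localField q L with hE
  obtain ⟨hstab, -⟩ := isFrobeniusAt_iff_forall_mem.mp hF
  have hcomm : ∀ (g : Gal) (x : L), ((AlgEquiv.restrictNormalHom L g x : L) : QBar) =
      g (x : QBar) :=
    fun g x => AlgEquiv.restrictNormal_commutes g L x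
  obtain ⟨s, hs⟩ := (Local.mem_range_toGlobal_iff q L (AlgEquiv.restrictNormalHom L F)).mpr
    fun x hx => by rw [hcomm]; exact map_mem_of_mem_decomposition hstab hx
  obtain ⟨t, ht⟩ := (Local.mem_range_toGlobal_iff q L (AlgEquiv.restrictNormalHom L σ)).mpr
    fun x hx => by rw [hcomm]; exact map_mem_of_mem_decomposition hσ hx
  have hfrob := Local.resAut_eq_frobenius q L hF hs
  obtain ⟨i, hi⟩ := (FiniteField.bijective_frobeniusAlgEquivOfAlgebraic_pow (ZMod q)
    (Local.ResField E)).2 (Local.resAut E t)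
  have hin : (s ^ (i : ℕ))⁻¹ * t ∈ Local.inertia E := by
    show Local.resAut E _ = 1
    rw [map_mul, map_inv, map_pow, hfrob, inv_mul_eq_one]
    exact hi
  obtain ⟨τ, hτ, hτeq⟩ := Local.exists_inertia_of_mem_inertia q L hin
  refine ⟨i, τ, hτ, fun x hx => ?_⟩
  have h2 : AlgEquiv.restrictNormalHom L σ = AlgEquiv.restrictNormalHom L (F ^ (i : ℕ) * τ) := by
    rw [map_mul, map_pow, hτeq, map_mul, map_inv, map_pow, hs, ht, mul_inv_cancel_left]
  rw [← hcomm σ ⟨x, hx⟩, h2, hcomm]

/-- A cocycle of level `L` takes equal values on elements that agree on `L`. -/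
theorem IsAdCocycle.eq_of_agree {r : Gal →* M2 k} {b : Gal → M2 k} (hb : IsAdCocycle r b)
    {L : IntermediateField ℚ QBar} (hL : ∀ σ : Gal, (∀ x ∈ L, σ x = x) → b σ = 0)
    {σ σ' : Gal} (h : ∀ x ∈ L, σ x = σ' x) : b σ = b σ' :=
  hb.congr (hL _ fun x hx => by
    rw [AlgEquiv.mul_apply, h x hx]
    exact σ'.symm_apply_apply x)

/-- A representation of level `L` takes equal values at automorphisms agreeing on `L`. -/
theorem map_eq_of_agree {r : Gal →* M2 k} {L : IntermediateField ℚ QBar}
    (hL : ∀ σ : Gal, (∀ x ∈ L, σ x = x) → r σ = 1) {σ σ' : Gal} (h : ∀ x ∈ L, σ x = σ' x) :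
    r σ = r σ' := by
  have e := hL (σ'⁻¹ * σ) fun x hx => by
    rw [AlgEquiv.mul_apply, h x hx]; exact σ'.symm_apply_apply x
  calc r σ = r σ' * r (σ'⁻¹ * σ) := by rw [← map_mul, mul_inv_cancel_left]
    _ = r σ' := by rw [e, mul_one]

end Fermat.Agent.CFT.Tangent
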