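import Fermat.Agent.Deform.Bound

/-!
Auxiliary facts on two by two matrices over dual numbers.
-/

set_option autoImplicit false

noncomputable section

namespace Fermat.Agent.CFT.Tangent

open Fermat.Agent.Deform

variable {k : Type} [Field k]

/-- The scalar part of a matrix over the dual numbers. -/
def fstM (M : M2 (DualNumber k)) : M2 k := Matrix.of fun i j => TrivSqZeroExt.fst (M i j)

/-- The infinitesimal part of a matrix over the dual numbers. -/
def sndM (M : M2 (DualNumber k)) : M2 k := Matrix.of fun i j => TrivSqZeroExt.snd (M i j)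

/-- A matrix over the field, seen over the dual numbers. -/
def inlM (M : M2 k) : M2 (DualNumber k) := Matrix.of fun i j => TrivSqZeroExt.inl (M i j)

/-- An infinitesimal matrix. -/
def epsM (M : M2 k) : M2 (DualNumber k) := Matrix.of fun i j => TrivSqZeroExt.inr (M i j)

omit [Field k] in
@[simp] theorem fstM_apply (M : M2 (DualNumber k)) (i j : Fin 2) :
    fstM M i j = TrivSqZeroExt.fst (M i j) := rfl

omit [Field k] in
@[simp] theorem sndM_apply (M : M2 (DualNumber k)) (i j : Fin 2) :
    sndM M i j = TrivSqZeroExt.snd (M i j) := rfl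

omit [Field k] in
/-- A matrix over the dual numbers is determined by its two parts. -/
theorem dualM_ext {M N : M2 (DualNumber k)} (h₁ : fstM M = fstM N) (h₂ : sndM M = sndM N) :
    M = N :=
  Matrix.ext fun i j => TrivSqZeroExt.ext (congr_fun (congr_fun h₁ i) j)
    (congr_fun (congr_fun h₂ i) j)

/-- The scalar part of a constant matrix is the matrix. -/
@[simp] theorem fstM_inlM (M : M2 k) : fstM (inlM M) = M := rfl

/-- A constant matrix has no infinitesimal part. -/
@[simp] theorem sndM_inlM (M : M2 k) : sndM (inlM M) = 0 := rfl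

/-- An infinitesimal matrix has no scalar part. -/
@[simp] theorem fstM_epsM (M : M2 k) : fstM (epsM M) = 0 := rfl

/-- The infinitesimal part of `epsM M` is `M`. -/
@[simp] theorem sndM_epsM (M : M2 k) : sndM (epsM M) = M := rfl

/-- The scalar part is additive. -/
@[simp] theorem fstM_add (M N : M2 (DualNumber k)) : fstM (M + N) = fstM M + fstM N := rfl

/-- The infinitesimal part is additive. -/
@[simp] theorem sndM_add (M N : M2 (DualNumber k)) : sndM (M + N) = sndM M + sndM N := rfl

/-- The scalar part respects subtraction. -/
@[simp] theorem fstM_sub (M N : M2 (DualNumber k)) : fstM (M - N) = fstM M - fstM N := rfl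

/-- The infinitesimal part respects subtraction. -/
@[simp] theorem sndM_sub (M N : M2 (DualNumber k)) : sndM (M - N) = sndM M - sndM N := rfl

/-- The scalar part of `1` is `1`. -/
@[simp] theorem fstM_one : fstM (1 : M2 (DualNumber k)) = 1 := by
  ext i j
  fin_cases i <;> fin_cases j <;> simp

/-- The infinitesimal part of `1` vanishes. -/
@[simp] theorem sndM_one : sndM (1 : M2 (DualNumber k)) = 0 := by
  ext i j
  fin_cases i <;> fin_cases j <;> simp

/-- The scalar part is multiplicative. -/
@[simp] theorem fstM_mul (M N : M2 (DualNumber k)) : fstM (M * N) = fstM M * fstM N := by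
  ext i j
  simp [Matrix.mul_apply, Fin.sum_univ_two]

/-- Product rule for the infinitesimal part. -/
@[simp] theorem sndM_mul (M N : M2 (DualNumber k)) :
    sndM (M * N) = fstM M * sndM N + sndM M * fstM N := by
  ext i j
  simp [Matrix.mul_apply, Fin.sum_univ_two]
  ring

theorem snd_det (M : M2 (DualNumber k)) :
    TrivSqZeroExt.snd M.det = ((fstM M).adjugate * sndM M).trace := by
  simp [Matrix.det_fin_two, Matrix.adjugate_fin_two, Matrix.trace_fin_two, Matrix.vecMul,
    dotProduct, Fin.sum_univ_two]
  ring

theorem adjugate_of_monoidHom {G : Type} [Group G] (r : G →* M2 k) (g : G) :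
    (r g).adjugate = (r g).det • r g⁻¹ := by
  have h : r g * r g⁻¹ = 1 := by rw [← map_mul, mul_inv_cancel, map_one]
  calc (r g).adjugate = (r g).adjugate * (r g * r g⁻¹) := by rw [h, mul_one]
    _ = ((r g).det • 1) * r g⁻¹ := by rw [← mul_assoc, Matrix.adjugate_mul]
    _ = (r g).det • r g⁻¹ := by rw [smul_mul_assoc, one_mul]

end Fermat.Agent.CFT.Tangent
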