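import Fermat.Agent.CFT.Tangent.LocalPlace
import Fermat.Agent.CFT.TWPrimes.Mat
import Fermat.Agent.Mazur.Eisenstein.Tame

/-!
# Local bounds away from `p`

Local bounds for tangent classes: unramified and unipotent conditions.

The bounds are `finrank_le_unramified` and `finrank_le_unipotent`.
-/

set_option autoImplicit false

noncomputable section

namespace Fermat.Agent.CFT.Tangent

open Fermat.Agent.Deform Fermat.Agent.Arith Module
open scoped Pointwise

variable {k : Type} [Field k] {r : Gal →* M2 k}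

/-! ### The unramified bound -/

/-- On the decomposition group, `r` and the cocycles of level `L` unramified at `q` only depend on
a power of Frobenius. -/
theorem exists_agree_frobenius {q : ℕ} [Fact q.Prime] {F : Gal}
    (hF : (padicPlace q).IsFrobeniusAt F q) {V : Submodule k (Gal → M2 k)}
    {L : IntermediateField ℚ QBar} [FiniteDimensional ℚ L] [Normal ℚ L]
    (hL : ∀ σ : Gal, (∀ x ∈ L, σ x = x) → r σ = 1 ∧ ∀ b ∈ V, b σ = 0)
    (hr1 : ∀ τ ∈ (padicPlace q).inertiaSubgroupIn ℚ, r τ = 1)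
    (σ : Gal) (hσ : σ ∈ (padicPlace q).decompositionSubgroup ℚ) :
    ∃ i : ℕ, r σ = r (F ^ i) ∧
      ∀ b, IsAdCocycle r b → (∀ τ : Gal, (∀ x ∈ L, τ x = x) → b τ = 0) →
        (∀ τ ∈ (padicPlace q).inertiaSubgroupIn ℚ, b τ = 0) → b σ = b (F ^ i) := by
  obtain ⟨i, τ, hτ, he⟩ := exists_frobenius_mul_inertia L hF hσ
  refine ⟨i, ?_, fun b hb hbL hbI => ?_⟩
  · rw [map_eq_of_agree (fun τ h => (hL τ h).1) he, map_mul, hr1 τ hτ, mul_one]
  · rw [hb.eq_of_agree hbL he, hb, hbI τ hτ, mul_zero, zero_mul, zero_add]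

/-- The coinvariants of Frobenius on trace zero matrices are at most as large as the invariants. -/
theorem finrank_quotient_range_le_fixedOn {F : Gal} {D : Subgroup Gal}
    (T : LinearMap.ker (Matrix.traceLinearMap (Fin 2) k k) →ₗ[k]
      LinearMap.ker (Matrix.traceLinearMap (Fin 2) k k))
    (hT : ∀ X, (T X : M2 k) = cobdLin r (X : M2 k) F)
    (hagree : ∀ s ∈ D, ∃ i : ℕ, r s = r (F ^ i)) :
    finrank k (LinearMap.ker (Matrix.traceLinearMap (Fin 2) k k) ⧸ LinearMap.range T) ≤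
      finrank k (fixedOn r D) := by
  let sl : Submodule k (M2 k) := LinearMap.ker (Matrix.traceLinearMap (Fin 2) k k)
  have hsl : ∀ X, X ∈ sl ↔ X.trace = 0 := fun X => LinearMap.mem_ker
  have h1 := T.finrank_range_add_finrank_ker
  have h2 := (LinearMap.range T).finrank_quotient_add_finrank
  have h3 : finrank k (LinearMap.ker T) ≤ finrank k (fixedOn r D) := by
    rw [← (Submodule.equivSubtypeMap sl (LinearMap.ker T)).finrank_eq.symm]
    refine Submodule.finrank_mono ?_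
    rintro _ ⟨X, hX, rfl⟩
    have hX' : r F * (X : M2 k) * r F⁻¹ = X :=
      sub_eq_zero.mp ((hT X).symm.trans (congrArg Subtype.val (LinearMap.mem_ker.mp hX)))
    refine ⟨(hsl _).mp X.2, fun s hs => ?_⟩
    obtain ⟨i, hi⟩ := hagree s hs
    have hi' : r s⁻¹ = r (F ^ i)⁻¹ := by
      calc r s⁻¹ = r s⁻¹ * (r (F ^ i) * r (F ^ i)⁻¹) := by rw [map_mul_inv, mul_one]
        _ = r (F ^ i)⁻¹ := by rw [← mul_assoc, ← hi, map_inv_mul, one_mul]
    show r s * (X : M2 k) * r s⁻¹ = X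
    rw [hi, hi']
    clear hi hi'
    induction i with
    | zero => simp
    | succ i ih =>
      calc r (F ^ (i + 1)) * (X : M2 k) * r (F ^ (i + 1))⁻¹
          = r (F ^ i) * (r F * (X : M2 k) * r F⁻¹) * r (F ^ i)⁻¹ := by
            rw [pow_succ, mul_inv_rev, map_mul, map_mul]; simp only [mul_assoc]
        _ = (X : M2 k) := by rw [hX', ih]
  omega

/-- A cocycle unramified at `q` which is a coboundary at Frobenius is one on the decomposition
group. -/
theorem mem_cobdOn_of_eq_at_frobenius {q : ℕ} [Fact q.Prime] {F : Gal}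
    {V : Submodule k (Gal → M2 k)} {L : IntermediateField ℚ QBar}
    (hagree : ∀ σ ∈ (padicPlace q).decompositionSubgroup ℚ, ∃ i : ℕ, r σ = r (F ^ i) ∧
      ∀ b, IsAdCocycle r b → (∀ τ : Gal, (∀ x ∈ L, τ x = x) → b τ = 0) →
        (∀ τ ∈ (padicPlace q).inertiaSubgroupIn ℚ, b τ = 0) → b σ = b (F ^ i))
    (hL : ∀ σ : Gal, (∀ x ∈ L, σ x = x) → r σ = 1 ∧ ∀ b ∈ V, b σ = 0)
    (hr1 : ∀ τ ∈ (padicPlace q).inertiaSubgroupIn ℚ, r τ = 1)
    {b : Gal → M2 k} (hbV : b ∈ V) (hcb : IsAdCocycle r b)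
    (hb0 : ∀ τ ∈ (padicPlace q).inertiaSubgroupIn ℚ, b τ = 0)
    {X : M2 k} (hX : X.trace = 0) (hXF : cobdLin r X F = b F) :
    b ∈ cobdOn r ((padicPlace q).decompositionSubgroup ℚ) := by
  refine ⟨X, hX, fun s hs => ?_⟩
  have hc : IsAdCocycle r (b - cobdLin r X) :=
    hcb.sub (isAdCocycle_cobdLin r _)
  obtain ⟨i, -, hi⟩ := hagree s hs
  have hcob : ∀ σ : Gal, r σ = 1 → cobdLin r X σ = 0 := fun σ hσ => by
    have h := map_mul_inv r σ
    rw [hσ, one_mul] at h
    rw [cobdLin_apply, hσ, h, one_mul, mul_one, sub_self]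
  have h0 := hi _ hc
    (fun τ hτ => by rw [Pi.sub_apply, (hL τ hτ).2 _ hbV, hcob τ (hL τ hτ).1, sub_zero])
    (fun τ hτ => by rw [Pi.sub_apply, hb0 τ hτ, hcob τ (hr1 τ hτ), sub_zero])
  rw [hc.pow_eq_zero (by rw [Pi.sub_apply, hXF, sub_self]), Pi.sub_apply, sub_eq_zero] at h0
  exact h0

/-- The bound at an unramified prime. -/
theorem finrank_le_unramified {q : ℕ} [Fact q.Prime] (hr : GaloisFactorsThroughFiniteLevel r)
    (V : Submodule k (Gal → M2 k)) [Module.Finite k V]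
    (hcoc : ∀ b ∈ V, IsAdCocycle r b) (hlev : ∀ b ∈ V, IsFiniteLevel b)
    (htr : ∀ b ∈ V, ∀ σ, (b σ).trace = 0)
    (hr1 : ∀ τ ∈ (padicPlace q).inertiaSubgroupIn ℚ, r τ = 1)
    (hb0 : ∀ b ∈ V, ∀ τ ∈ (padicPlace q).inertiaSubgroupIn ℚ, b τ = 0) :
    finrank k V ≤ finrank k (V ⊓ cobdOn r ((padicPlace q).decompositionSubgroup ℚ) :
        Submodule k (Gal → M2 k)) +
      finrank k (fixedOn r ((padicPlace q).decompositionSubgroup ℚ)) := by
  set D := (padicPlace q).decompositionSubgroup ℚ with hDdef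
  obtain ⟨F, hF⟩ := exists_isFrobeniusAt (Local.padicPlace_liesOverPrime q) (Fact.out : q.Prime)
  obtain ⟨L, hLf, hLn, hL⟩ := exists_common_level hr V hlev
  let sl : Submodule k (M2 k) := LinearMap.ker (Matrix.traceLinearMap (Fin 2) k k)
  have hsl : ∀ X, X ∈ sl ↔ X.trace = 0 := fun X => LinearMap.mem_ker
  let T : sl →ₗ[k] sl :=
    { toFun := fun X => ⟨cobdLin r (X : M2 k) F, (hsl _).mpr (trace_cobdLin r _ F)⟩
      map_add' := fun X Y => Subtype.ext (congrFun (map_add (cobdLin r) (X : M2 k) Y) F)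
      map_smul' := fun c X => Subtype.ext (congrFun (map_smul (cobdLin r) c (X : M2 k)) F) }
  let Λ : V →ₗ[k] sl ⧸ LinearMap.range T := (LinearMap.range T).mkQ.comp
    (LinearMap.codRestrict sl ((LinearMap.proj F).comp V.subtype)
      fun b => (hsl _).mpr (htr _ b.2 F))
  have hagree := exists_agree_frobenius (V := V) hF hL hr1
  have hW : finrank k (sl ⧸ LinearMap.range T) ≤ finrank k (fixedOn r D) :=
    finrank_quotient_range_le_fixedOn T (fun _ => rfl) fun s hs => (hagree s hs).imp fun _ h => h.1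
  refine (finrank_le_inf_add le_sup_left Λ fun b hb => ?_).trans (Nat.add_le_add_left hW _)
  obtain ⟨X, hX⟩ := (Submodule.Quotient.mk_eq_zero _).mp hb
  exact mem_cobdOn_of_eq_at_frobenius hagree hL hr1 b.2 (hcoc _ b.2) (hb0 _ b.2)
    ((hsl _).mp X.2) (congrArg Subtype.val hX)

/-! ### Unipotent inertia: normalising classes -/

/-- The common kernel of the representation and of a finite-dimensional space of cocycles of finite
level is the group of a finite Galois extension. -/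
private theorem exists_kernel_field (V : Submodule k (Gal → M2 k)) (hcoc : ∀ b ∈ V, IsAdCocycle r b)
    {L : IntermediateField ℚ QBar} [FiniteDimensional ℚ L]
    (hL : ∀ σ : Gal, (∀ x ∈ L, σ x = x) → r σ = 1 ∧ ∀ b ∈ V, b σ = 0) :
    ∃ L' : IntermediateField ℚ QBar, FiniteDimensional ℚ L' ∧ IsGalois ℚ L' ∧
      ∀ σ : Gal, (∀ x ∈ L', σ x = x) ↔ (r σ = 1 ∧ ∀ b ∈ V, b σ = 0) := by
  let K : Subgroup Gal :=
    { carrier := {σ | r σ = 1 ∧ ∀ b ∈ V, b σ = 0}
      one_mem' := ⟨map_one r, fun b hb => (hcoc b hb).one⟩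
      mul_mem' := fun {a c} ha hc => ⟨by rw [map_mul, ha.1, hc.1, one_mul], fun b hb => by
        rw [hcoc b hb, hc.2 b hb, ha.2 b hb]; simp⟩
      inv_mem' := fun {a} ha => by
        have h1 : r a⁻¹ = 1 := by have h := map_inv_mul r a; rwa [ha.1, mul_one] at h
        refine ⟨h1, fun b hb => ?_⟩
        have h := hcoc b hb a⁻¹ a
        rw [inv_mul_cancel, (hcoc b hb).one, ha.2 b hb, mul_zero, zero_mul, zero_add] at h
        exact h.symm }
  have hKn : K.Normal := ⟨fun σ hσ g => by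
    refine ⟨by rw [map_mul, map_mul, hσ.1, mul_one, map_mul_inv], fun b hb => ?_⟩
    have h1 : r (g * σ * g⁻¹) = 1 := by rw [map_mul, map_mul, hσ.1, mul_one, map_mul_inv]
    have h1' : r (g * σ * g⁻¹)⁻¹ = 1 := by
      have h := map_inv_mul r (g * σ * g⁻¹); rwa [h1, mul_one] at h
    rw [(hcoc b hb).conj, hσ.2 b hb, h1, h1', mul_zero, zero_mul, zero_add, one_mul, mul_one,
      sub_self]⟩
  let L' : IntermediateField ℚ QBar := IntermediateField.fixedField K
  have : Normal ℚ QBar := IsAlgClosure.normal ℚ QBar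
  have : IsGalois ℚ QBar := ⟨⟩
  have hKL : L.fixingSubgroup ≤ K := fun σ hσ =>
    hL σ ((IntermediateField.mem_fixingSubgroup_iff L σ).mp hσ)
  have hKopen : IsOpen (K : Set Gal) := Subgroup.isOpen_mono hKL L.fixingSubgroup_isOpen
  have hKclosed : IsClosed (K : Set Gal) := Subgroup.isClosed_of_isOpen K hKopen
  have hfixK : L'.fixingSubgroup = K := InfiniteGalois.fixingSubgroup_fixedField ⟨K, hKclosed⟩
  have hle : L' ≤ L := by
    intro x hx
    rw [← InfiniteGalois.fixedField_fixingSubgroup L, IntermediateField.mem_fixedField_iff]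
    exact fun g hg => (IntermediateField.mem_fixedField_iff K x).mp hx g (hKL hg)
  refine ⟨L', FiniteDimensional.of_injective (IntermediateField.inclusion hle).toLinearMap
      (IntermediateField.inclusion hle).injective,
    (InfiniteGalois.normal_iff_isGalois L').mp (hfixK ▸ hKn),
    fun σ => ⟨fun hσ => ?_, fun hσ x hx => (IntermediateField.mem_fixedField_iff K x).mp hx σ hσ⟩⟩
  have h : σ ∈ K := hfixK ▸ (IntermediateField.mem_fixingSubgroup_iff L' σ).mpr hσ
  exact h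

/-- Over a field of characteristic `p`, the `p * p`-th power of an element acting by a unipotent is
killed by the representation and by every cocycle. -/
private theorem pow_sq_mem_kernel (p : ℕ) [CharP k p] {τ : Gal}
    (hsq : (r τ - 1) * (r τ - 1) = 0) {b : Gal → M2 k} (hb : IsAdCocycle r b) :
    r (τ ^ (p * p)) = 1 ∧ b (τ ^ (p * p)) = 0 := by
  have hrp : r (τ ^ p) = 1 := by
    have h := TWPrimes.pow_one_add hsq p
    rwa [add_sub_cancel, CharP.cast_eq_zero, zero_smul, add_zero, ← map_pow] at h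
  have hrp' : r (τ ^ p)⁻¹ = 1 := by
    have h := map_inv_mul r (τ ^ p); rwa [hrp, mul_one] at h
  refine ⟨by rw [pow_mul, map_pow, hrp, one_pow], ?_⟩
  have hn : ∀ n : ℕ, b ((τ ^ p) ^ n) = (n : k) • b (τ ^ p) := by
    intro n
    induction n with
    | zero => simpa using hb.one
    | succ n ih =>
      rw [pow_succ', hb, hrp, hrp', one_mul, mul_one, ih, Nat.cast_succ, add_smul, one_smul]
  rw [pow_mul, hn, CharP.cast_eq_zero, zero_smul]

/-- At an element acting by a nontrivial unipotent `1 + N`, the coboundaries of trace zero reach all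
of the orthogonal of `N`. -/
private theorem exists_cobd_eq (h2 : (2 : k) ≠ 0) {σ₀ : Gal} {N : M2 k} (hrσ₀ : r σ₀ = 1 + N)
    (hN0 : N ≠ 0) (hNtr : N.trace = 0) {Y : M2 k} (hY : Y.trace = 0)
    (hYN : (Y * N).trace = 0) : ∃ X : M2 k, cobdLin r X σ₀ = Y := by
  let sl : Submodule k (M2 k) := LinearMap.ker (Matrix.traceLinearMap (Fin 2) k k)
  have hsl : ∀ X, X ∈ sl ↔ X.trace = 0 := fun X => LinearMap.mem_ker
  -- The map `X ↦` coboundary at `σ₀` on matrices of trace zero.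
  let T : sl →ₗ[k] sl :=
    { toFun := fun X => ⟨cobdLin r (X : M2 k) σ₀, (hsl _).mpr (trace_cobdLin r _ σ₀)⟩
      map_add' := fun X Y => Subtype.ext (congrFun (map_add (cobdLin r) (X : M2 k) Y) σ₀)
      map_smul' := fun c X => Subtype.ext (congrFun (map_smul (cobdLin r) c (X : M2 k)) σ₀) }
  let φ : sl →ₗ[k] k := (Matrix.traceLinearMap (Fin 2) k k).comp
    ((LinearMap.mulRight k N).comp sl.subtype)
  -- Its kernel is the centraliser of `N`, a line.
  have hker : finrank k (LinearMap.ker T) ≤ 1 := by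
    rw [← (Submodule.equivSubtypeMap sl (LinearMap.ker T)).finrank_eq.symm]
    refine (Submodule.finrank_mono (t := k ∙ N) ?_).trans (finrank_span_singleton hN0).le
    rintro _ ⟨X, hX, rfl⟩
    have hX' : r σ₀ * (X : M2 k) * r σ₀⁻¹ = X :=
      sub_eq_zero.mp (congrArg Subtype.val (LinearMap.mem_ker.mp hX))
    have h := congrArg (fun Z => Z * r σ₀) hX'
    simp only [mul_assoc, map_inv_mul, mul_one] at h
    obtain ⟨c, hc⟩ := TWPrimes.exists_smul_of_commute h2 ((hsl _).mp X.2) hNtr hN0 (by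
      rw [hrσ₀, mul_add, add_mul, mul_one, one_mul] at h
      exact add_left_cancel h.symm)
    exact Submodule.mem_span_singleton.mpr ⟨c, hc.symm⟩
  -- Its image is orthogonal to `N`, hence is all of that plane by counting dimensions.
  have hle : LinearMap.range T ≤ LinearMap.ker φ := by
    rintro _ ⟨X, rfl⟩
    rw [LinearMap.mem_ker]
    show ((r σ₀ * (X : M2 k) * r σ₀⁻¹ - (X : M2 k)) * N).trace = 0
    have e : r σ₀⁻¹ * N = N * r σ₀⁻¹ := by
      have h1 : r σ₀ * N = N * r σ₀ := by rw [hrσ₀]; noncomm_ring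
      calc r σ₀⁻¹ * N = r σ₀⁻¹ * N * (r σ₀ * r σ₀⁻¹) := by rw [map_mul_inv, mul_one]
        _ = r σ₀⁻¹ * (N * r σ₀) * r σ₀⁻¹ := by simp only [mul_assoc]
        _ = N * r σ₀⁻¹ := by rw [← h1, ← mul_assoc, map_inv_mul, one_mul]
    rw [sub_mul, Matrix.trace_sub, mul_assoc, e, ← mul_assoc, mul_assoc (r σ₀) (X : M2 k) N,
      trace_conj_map, sub_self]
  have hφ : LinearMap.ker φ ≠ ⊤ := by
    intro htop
    have hall : ∀ Z : M2 k, (Z * N).trace = 0 := by
      intro Z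
      have hZ : (Z - (Z.trace / 2) • 1) ∈ sl := (hsl _).mpr (by
        rw [Matrix.trace_sub, Matrix.trace_smul, Matrix.trace_one, Fintype.card_fin, smul_eq_mul]
        push_cast; field_simp; ring)
      have h : φ ⟨_, hZ⟩ = 0 := LinearMap.mem_ker.mp (htop ▸ Submodule.mem_top)
      change ((Z - (Z.trace / 2) • (1 : M2 k)) * N).trace = 0 at h
      rwa [sub_mul, Matrix.trace_sub, smul_mul_assoc, one_mul, Matrix.trace_smul, hNtr,
        smul_zero, sub_zero] at h
    refine hN0 (Matrix.ext fun i j => ?_)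
    have h := hall (Matrix.single j i 1)
    rwa [Matrix.trace_single_mul, one_smul] at h
  have heq : LinearMap.range T = LinearMap.ker φ := by
    refine Submodule.eq_of_le_of_finrank_le hle ?_
    have h1 := T.finrank_range_add_finrank_ker
    have h2' := Submodule.finrank_lt hφ
    omega
  have hmem : (⟨Y, (hsl _).mpr hY⟩ : sl) ∈ LinearMap.ker φ := LinearMap.mem_ker.mpr hYN
  rw [← heq] at hmem
  obtain ⟨X, hX⟩ := hmem
  exact ⟨X, congrArg Subtype.val hX⟩

/-- A cocycle through the group of `L'` that vanishes at a Frobenius element and on inertia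
vanishes on the decomposition group. -/
private theorem eq_zero_on_decomposition {q : ℕ} [Fact q.Prime] {L' : IntermediateField ℚ QBar}
    [FiniteDimensional ℚ L'] [IsGalois ℚ L'] {F : Gal}
    (hF : (padicPlace q).IsFrobeniusAt F q) {b : Gal → M2 k} (hc : IsAdCocycle r b)
    (hlev : ∀ σ : Gal, (∀ x ∈ L', σ x = x) → b σ = 0) (hbF : b F = 0)
    (hbI : ∀ τ ∈ (padicPlace q).inertiaSubgroupIn ℚ, b τ = 0) :
    ∀ s ∈ (padicPlace q).decompositionSubgroup ℚ, b s = 0 := by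
  intro s hs
  obtain ⟨i, τ, hτ, he⟩ := exists_frobenius_mul_inertia L' hF hs
  rw [hc.eq_of_agree hlev he, hc, hbI τ hτ, hc.pow_eq_zero hbF]
  simp

/-- If Frobenius fixes `N` and inertia commutes with it, the decomposition group fixes `N`. -/
private theorem conj_eq_of_frobenius {q : ℕ} [Fact q.Prime] {L' : IntermediateField ℚ QBar}
    [FiniteDimensional ℚ L'] [IsGalois ℚ L'] {F : Gal}
    (hF : (padicPlace q).IsFrobeniusAt F q)
    (hrL' : ∀ σ : Gal, (∀ x ∈ L', σ x = x) → r σ = 1) {N : M2 k} (hFN : r F * N * r F⁻¹ = N)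
    (hIN : ∀ τ ∈ (padicPlace q).inertiaSubgroupIn ℚ, r τ * N = N * r τ) :
    ∀ s ∈ (padicPlace q).decompositionSubgroup ℚ, r s * N * r s⁻¹ = N := by
  intro s hs
  obtain ⟨i, τ, hτ, he⟩ := exists_frobenius_mul_inertia L' hF hs
  have hF' : r F * N = N * r F := by
    have h := congrArg (fun Z => Z * r F) hFN
    simp only [mul_assoc, map_inv_mul, mul_one] at h
    exact h
  have hs2 : r s * N = N * r s := by
    rw [map_eq_of_agree hrL' he, map_mul, map_pow]
    exact (Commute.mul_left (Commute.pow_left hF' i) (hIN τ hτ))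
  rw [hs2, mul_assoc, map_mul_inv, mul_one]

/-- If Frobenius scales `N` by `m ≠ 1`, a cocycle killing inertia with value on the line of `N` at
Frobenius is a coboundary on the decomposition group. -/
private theorem exists_cobd_of_scale {q : ℕ} [Fact q.Prime] {L' : IntermediateField ℚ QBar}
    [FiniteDimensional ℚ L'] [IsGalois ℚ L'] {F : Gal}
    (hF : (padicPlace q).IsFrobeniusAt F q)
    (hrL' : ∀ σ : Gal, (∀ x ∈ L', σ x = x) → r σ = 1) {N : M2 k} (hNtr : N.trace = 0)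
    (hIN : ∀ τ ∈ (padicPlace q).inertiaSubgroupIn ℚ, r τ * N = N * r τ)
    {m c : k} (hm1 : m ≠ 1) (hmN : r F * N * r F⁻¹ = m • N) {b : Gal → M2 k}
    (hc : IsAdCocycle r b) (hlev : ∀ σ : Gal, (∀ x ∈ L', σ x = x) → b σ = 0)
    (hbI : ∀ τ ∈ (padicPlace q).inertiaSubgroupIn ℚ, b τ = 0) (hbc : b F = c • N) :
    ∃ X : M2 k, X.trace = 0 ∧
      ∀ s ∈ (padicPlace q).decompositionSubgroup ℚ, b s = cobdLin r X s := by
  set X : M2 k := (c / (m - 1)) • N with hX
  have hXI : ∀ τ ∈ (padicPlace q).inertiaSubgroupIn ℚ, cobdLin r X τ = 0 := by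
    intro τ hτ
    rw [cobdLin_apply, hX, mul_smul_comm, smul_mul_assoc, hIN τ hτ, mul_assoc, map_mul_inv,
      mul_one, sub_self]
  have hXF : cobdLin r X F = b F := by
    rw [cobdLin_apply, hX, mul_smul_comm, smul_mul_assoc, hmN, hbc, smul_smul, ← sub_smul]
    congr 1
    have : m - 1 ≠ 0 := sub_ne_zero.mpr hm1
    field_simp
  have hXlev : ∀ σ : Gal, (∀ x ∈ L', σ x = x) → cobdLin r X σ = 0 := fun σ hσ => by
    have h1 := hrL' σ hσ
    have h1' : r σ⁻¹ = 1 := by have h := map_inv_mul r σ; rwa [h1, mul_one] at h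
    rw [cobdLin_apply, h1, h1', one_mul, mul_one, sub_self]
  refine ⟨X, by rw [hX, Matrix.trace_smul, hNtr, smul_zero], fun s hs => ?_⟩
  have h0 := eq_zero_on_decomposition hF (hc.sub (isAdCocycle_cobdLin r X))
    (fun σ hσ => by rw [Pi.sub_apply, hlev σ hσ, hXlev σ hσ, sub_zero])
    (by rw [Pi.sub_apply, hXF, sub_self])
    (fun τ hτ => by rw [Pi.sub_apply, hbI τ hτ, hXI τ hτ, sub_zero]) s hs
  rw [Pi.sub_apply, sub_eq_zero] at h0
  exact h0

/-- If `r` conjugates `1 + N` to `1 + m N`, then `m ≠ 0` and the conjugate of `N` is `m N`. -/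
private theorem smul_of_conj_eq {N : M2 k} (hN0 : N ≠ 0) {σ₀ : Gal} (hrσ₀ : r σ₀ = 1 + N)
    {s : Gal} {m : k} (e : r (s * σ₀ * s⁻¹) = 1 + m • N) :
    m ≠ 0 ∧ r s * N * r s⁻¹ = m • N := by
  have e' : r s * N * r s⁻¹ = m • N := by
    rw [map_mul, map_mul, hrσ₀, mul_add, mul_one, add_mul, map_mul_inv] at e
    exact add_left_cancel e
  refine ⟨fun h0 => hN0 ?_, e'⟩
  rw [h0, zero_smul] at e'
  calc N = r s⁻¹ * (r s * N * r s⁻¹) * r s := by
        rw [← mul_assoc, ← mul_assoc, map_inv_mul, one_mul, mul_assoc, map_inv_mul, mul_one]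
    _ = 0 := by rw [e', mul_zero, zero_mul]

/-- On `L'` inertia at `q ≠ p` acting by unipotents agrees with the powers of one element. -/
private theorem exists_generator_inertia (p : ℕ) [Fact p.Prime] [CharP k p] {q : ℕ} [Fact q.Prime]
    (hqp : q ≠ p) {V : Submodule k (Gal → M2 k)} (hcoc : ∀ b ∈ V, IsAdCocycle r b)
    (hsq : ∀ τ ∈ (padicPlace q).inertiaSubgroupIn ℚ, (r τ - 1) * (r τ - 1) = 0)
    {L' : IntermediateField ℚ QBar} [FiniteDimensional ℚ L'] [IsGalois ℚ L']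
    (hker : ∀ σ : Gal, (r σ = 1 ∧ ∀ b ∈ V, b σ = 0) → ∀ x ∈ L', σ x = x) :
    ∃ σ₀ ∈ (padicPlace q).inertiaSubgroupIn ℚ, ∀ τ ∈ (padicPlace q).inertiaSubgroupIn ℚ,
      ∃ m : ℕ, ∀ x ∈ L', τ x = (σ₀ ^ m) x := by
  have hp : p.Prime := Fact.out
  have hq : q.Prime := Fact.out
  have hA := Local.padicPlace_liesOverPrime q
  have hpow : ∀ σ ∈ (padicPlace q).inertiaSubgroupIn ℚ, ∃ c : ℕ, ∀ x ∈ L',
      (σ ^ p ^ c) x = x := fun σ hσ => ⟨2, hker _ (by
    rw [sq]
    exact ⟨(pow_sq_mem_kernel p (hsq σ hσ) (hcoc 0 (zero_mem V))).1,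
      fun b hb => (pow_sq_mem_kernel p (hsq σ hσ) (hcoc b hb)).2⟩)⟩
  obtain ⟨π, hπ⟩ := IsAlgClosed.exists_pow_nat_eq (q : QBar) hp.pos
  obtain ⟨σ₀, hσ₀, hσ₀π⟩ := Mazur.Eisenstein.exists_inertia_ne hA hq hp hπ
  exact ⟨σ₀, hσ₀, fun τ hτ =>
    Mazur.Eisenstein.exists_pow_eq hA hq hp (Ne.symm hqp) hπ hσ₀ hσ₀π L' hpow hτ⟩

/-- Modulo coboundaries a class orthogonal to `N` can be normalised to vanish at `σ₀`. -/
private theorem le_normalised_sup_cobdOn (h2 : (2 : k) ≠ 0) {σ₀ : Gal} {N : M2 k}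
    (hrσ₀ : r σ₀ = 1 + N) (hN0 : N ≠ 0) (hNtr : N.trace = 0) (D : Subgroup Gal)
    {V : Submodule k (Gal → M2 k)} (htr : ∀ b ∈ V, (b σ₀).trace = 0)
    (hVN : ∀ b ∈ V, (b σ₀ * r σ₀).trace = 0) :
    V ≤ (V ⊔ LinearMap.range (cobdLin r)) ⊓ LinearMap.ker (LinearMap.proj σ₀) ⊔ cobdOn r D := by
  intro b hb
  have hbσ : (b σ₀ * N).trace = 0 := by
    have h := hVN b hb
    rwa [hrσ₀, mul_add, mul_one, Matrix.trace_add, htr b hb, zero_add] at h
  obtain ⟨X, hX⟩ := exists_cobd_eq h2 hrσ₀ hN0 hNtr (htr b hb) hbσ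
  refine Submodule.mem_sup.mpr ⟨b - cobdLin r X, ⟨sub_mem (Submodule.mem_sup_left hb)
    (Submodule.mem_sup_right (LinearMap.mem_range_self _ X)), ?_⟩, cobdLin r X,
    cobdLin_mem_cobdOn h2 D X, sub_add_cancel _ _⟩
  show b σ₀ - cobdLin r X σ₀ = 0
  rw [hX, sub_self]

/-- A normalised class has trace zero, comes from the group of `L'` and vanishes at `σ₀`. -/
private theorem of_mem_normalised {V : Submodule k (Gal → M2 k)}
    (hcoc : ∀ b ∈ V, IsAdCocycle r b) (htr : ∀ b ∈ V, ∀ σ, (b σ).trace = 0)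
    {L' : IntermediateField ℚ QBar}
    (hker : ∀ σ : Gal, (∀ x ∈ L', σ x = x) ↔ (r σ = 1 ∧ ∀ b ∈ V, b σ = 0)) {σ₀ : Gal}
    {b : Gal → M2 k}
    (hb : b ∈ (V ⊔ LinearMap.range (cobdLin r)) ⊓ LinearMap.ker (LinearMap.proj σ₀)) :
    IsAdCocycle r b ∧ (∀ σ, (b σ).trace = 0) ∧
      (∀ σ : Gal, (∀ x ∈ L', σ x = x) → b σ = 0) ∧ b σ₀ = 0 := by
  obtain ⟨hb, hbσ₀⟩ := hb
  obtain ⟨u, hu, _, ⟨X, rfl⟩, rfl⟩ := Submodule.mem_sup.mp hb
  refine ⟨(hcoc u hu).add (isAdCocycle_cobdLin r X),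
    fun σ => by rw [Pi.add_apply, Matrix.trace_add, htr u hu, trace_cobdLin, add_zero],
    fun σ hσ => ?_, hbσ₀⟩
  have h1 := ((hker σ).mp hσ).1
  have h1' : r σ⁻¹ = 1 := by have h := map_inv_mul r σ; rwa [h1, mul_one] at h
  rw [Pi.add_apply, ((hker σ).mp hσ).2 u hu, cobdLin_apply, h1, h1', one_mul, mul_one, sub_self,
    add_zero]

/-! ### The unipotent bound -/

/-- A trace zero cocycle vanishing at `σ₀` and at a conjugate of it on which `r` is `1 + m N`,
`m ≠ 0`, takes its value at the conjugating element on the line of `N`. -/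
private theorem exists_eq_smul_of_conj (h2 : (2 : k) ≠ 0) {σ₀ s : Gal} {N : M2 k}
    (hN0 : N ≠ 0) (hNtr : N.trace = 0) {m : k} (hm0 : m ≠ 0)
    (e : r (s * σ₀ * s⁻¹) = 1 + m • N) {b : Gal → M2 k} (hc : IsAdCocycle r b)
    (htr : (b s).trace = 0) (hI : b (s * σ₀ * s⁻¹) = 0) (h0 : b σ₀ = 0) :
    ∃ c : k, b s = c • N := by
  have h := hc.conj s σ₀
  rw [hI, h0, mul_zero, zero_mul, zero_add, eq_comm, sub_eq_zero] at h
  have h' : b s * (1 + m • N) = (1 + m • N) * b s := by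
    rw [← e]
    conv_lhs => rw [h]
    rw [mul_assoc, map_inv_mul, mul_one]
  refine TWPrimes.exists_smul_of_commute h2 htr hNtr hN0 ?_
  rw [mul_add, add_mul, mul_one, one_mul, add_left_cancel_iff] at h'
  rw [mul_smul_comm, smul_mul_assoc] at h'
  exact smul_right_injective (M2 k) hm0 h'

/-- The bound for a space of normalised classes: they are determined on the decomposition group by
the value at Frobenius, which lies on the line of `N`. -/
private theorem finrank_le_of_line {q : ℕ} [Fact q.Prime] {L' : IntermediateField ℚ QBar}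
    [FiniteDimensional ℚ L'] [IsGalois ℚ L'] {F : Gal}
    (hF : (padicPlace q).IsFrobeniusAt F q)
    (hrL' : ∀ σ : Gal, (∀ x ∈ L', σ x = x) → r σ = 1) {N : M2 k} (hNtr : N.trace = 0)
    (hIN : ∀ τ ∈ (padicPlace q).inertiaSubgroupIn ℚ, r τ * N = N * r τ)
    {m : k} (hmN : r F * N * r F⁻¹ = m • N)
    {V V₀ : Submodule k (Gal → M2 k)} [Module.Finite k V]
    (hV : V ≤ V₀ ⊔ cobdOn r ((padicPlace q).decompositionSubgroup ℚ))
    (hV₀ : ∀ b ∈ V₀, IsAdCocycle r b ∧ (∀ σ : Gal, (∀ x ∈ L', σ x = x) → b σ = 0) ∧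
      (∀ τ ∈ (padicPlace q).inertiaSubgroupIn ℚ, b τ = 0) ∧ ∃ c : k, b F = c • N) :
    finrank k V ≤ finrank k (V ⊓ cobdOn r ((padicPlace q).decompositionSubgroup ℚ) :
        Submodule k (Gal → M2 k)) +
      finrank k (fixedOn r ((padicPlace q).decompositionSubgroup ℚ)) := by
  by_cases hm1 : m = 1
  · have hfix : N ∈ fixedOn r ((padicPlace q).decompositionSubgroup ℚ) :=
      ⟨hNtr, conj_eq_of_frobenius hF hrL' (by rw [hmN, hm1, one_smul]) hIN⟩
    have hbF : ∀ b : V₀, (b : Gal → M2 k) F ∈ k ∙ N := fun b => by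
      obtain ⟨c, hc⟩ := (hV₀ b b.2).2.2.2
      exact Submodule.mem_span_singleton.mpr ⟨c, hc.symm⟩
    let Λ : V₀ →ₗ[k] (k ∙ N : Submodule k (M2 k)) :=
      LinearMap.codRestrict _ ((LinearMap.proj F).comp V₀.subtype) hbF
    refine (finrank_le_inf_add hV Λ fun b hb => ?_).trans (Nat.add_le_add_left
      (Submodule.finrank_mono ((Submodule.span_singleton_le_iff_mem _ _).mpr hfix)) _)
    obtain ⟨hc, hlev', hI0, -⟩ := hV₀ b b.2
    exact ⟨0, by simp, fun s hs => by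
      rw [eq_zero_on_decomposition hF hc hlev' (congrArg Subtype.val hb) hI0 s hs]; simp⟩
  · let Λ : V₀ →ₗ[k] (⊥ : Submodule k (M2 k)) := 0
    refine (finrank_le_inf_add hV Λ fun b _ => ?_).trans
      (Nat.add_le_add_left (by rw [finrank_bot]; exact Nat.zero_le _) _)
    obtain ⟨hc, hlev', hI0, c, hbc⟩ := hV₀ b b.2
    exact exists_cobd_of_scale hF hrL' hNtr hIN hm1 hmN hc hlev' hI0 hbc

/-- The bound at a prime where inertia acts by nontrivial unipotents. -/
theorem finrank_le_unipotent (p : ℕ) [Fact p.Prime] [CharP k p] (h2 : (2 : k) ≠ 0)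
    {q : ℕ} [Fact q.Prime] (hqp : q ≠ p) (hr : GaloisFactorsThroughFiniteLevel r)
    (V : Submodule k (Gal → M2 k)) [Module.Finite k V]
    (hcoc : ∀ b ∈ V, IsAdCocycle r b) (hlev : ∀ b ∈ V, IsFiniteLevel b)
    (htr : ∀ b ∈ V, ∀ σ, (b σ).trace = 0)
    (hr1 : ∀ τ ∈ (padicPlace q).inertiaSubgroupIn ℚ, (r τ).trace = 2 ∧ (r τ).det = 1)
    (hne : ∃ τ ∈ (padicPlace q).inertiaSubgroupIn ℚ, r τ ≠ 1)
    (hb0 : ∀ b ∈ V, ∀ τ ∈ (padicPlace q).inertiaSubgroupIn ℚ, (b τ * r τ).trace = 0) :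
    finrank k V ≤ finrank k (V ⊓ cobdOn r ((padicPlace q).decompositionSubgroup ℚ) :
        Submodule k (Gal → M2 k)) +
      finrank k (fixedOn r ((padicPlace q).decompositionSubgroup ℚ)) := by
  have hq : q.Prime := Fact.out
  have hA := Local.padicPlace_liesOverPrime q
  set D := (padicPlace q).decompositionSubgroup ℚ with hDdef
  set I := (padicPlace q).inertiaSubgroupIn ℚ with hIdef
  obtain ⟨L, hLf, hLn, hL⟩ := exists_common_level hr V hlev
  obtain ⟨L', hL'fd, hL'gal, hker⟩ := exists_kernel_field V hcoc hL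
  have := hL'fd
  have := hL'gal
  -- unipotents
  have hsq : ∀ τ ∈ I, (r τ - 1) * (r τ - 1) = 0 := fun τ hτ => by
    have h := TWPrimes.mul_self_eq (r τ)
    rw [(hr1 τ hτ).1, (hr1 τ hτ).2] at h
    rw [sub_mul, mul_sub, h, mul_one, one_mul]
    module
  obtain ⟨σ₀, hσ₀, hgen⟩ := exists_generator_inertia p hqp hcoc hsq (L' := L') fun σ h =>
    (hker σ).mpr h
  have hrL' : ∀ σ : Gal, (∀ x ∈ L', σ x = x) → r σ = 1 := fun σ hσ => ((hker σ).mp hσ).1
  set N := r σ₀ - 1 with hNdef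
  have hN : N * N = 0 := hsq σ₀ hσ₀
  have hrpow : ∀ m : ℕ, r (σ₀ ^ m) = 1 + (m : k) • N := fun m => by
    rw [map_pow, ← TWPrimes.pow_one_add hN m, hNdef, add_sub_cancel]
  have hN0 : N ≠ 0 := by
    intro h0
    obtain ⟨τ, hτ, hτne⟩ := hne
    obtain ⟨m, hm⟩ := hgen τ hτ
    exact hτne (by rw [map_eq_of_agree hrL' hm, hrpow, h0, smul_zero, add_zero])
  have hNtr : N.trace = 0 := TWPrimes.trace_eq_zero_of_sq hN
  have hrσ₀ : r σ₀ = 1 + N := by rw [hNdef, add_sub_cancel]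
  -- normalised classes
  set V₀ : Submodule k (Gal → M2 k) :=
    (V ⊔ LinearMap.range (cobdLin r)) ⊓ LinearMap.ker (LinearMap.proj σ₀)
  have hV : V ≤ V₀ ⊔ cobdOn r D :=
    le_normalised_sup_cobdOn h2 hrσ₀ hN0 hNtr D (fun b hb => htr b hb σ₀)
      fun b hb => hb0 b hb σ₀ hσ₀
  have hI0 : ∀ b ∈ V₀, ∀ τ ∈ I, b τ = 0 := by
    intro b hb τ hτ
    obtain ⟨hc, -, hlev', h0⟩ := of_mem_normalised hcoc htr hker hb
    obtain ⟨m, hm⟩ := hgen τ hτ
    rw [hc.eq_of_agree hlev' hm, hc.pow_eq_zero h0]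
  obtain ⟨F, hF⟩ := exists_isFrobeniusAt hA hq
  have hFD : F ∈ D := hF.1
  have hconjI : ∀ s ∈ D, s * σ₀ * s⁻¹ ∈ I := fun s hs => by
    have h := (mem_inertia_smul_iff (g := s)).mpr hσ₀
    rwa [show s • padicPlace q = padicPlace q from hs] at h
  have hscale : ∀ s ∈ D, ∃ m : ℕ, (m : k) ≠ 0 ∧ r s * N * r s⁻¹ = (m : k) • N ∧
      r (s * σ₀ * s⁻¹) = 1 + (m : k) • N := by
    intro s hs
    obtain ⟨m, hm⟩ := hgen _ (hconjI s hs)
    have e := map_eq_of_agree hrL' hm
    rw [hrpow] at e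
    obtain ⟨hm0, e'⟩ := smul_of_conj_eq hN0 hrσ₀ e
    exact ⟨m, hm0, e', e⟩
  have hIN : ∀ τ ∈ I, r τ * N = N * r τ := fun τ hτ => by
    obtain ⟨j, hj⟩ := hgen τ hτ
    rw [map_eq_of_agree hrL' hj, hrpow]
    exact ((Commute.one_left N).add_left ((Commute.refl N).smul_left _))
  obtain ⟨m, hm0, hmN, e⟩ := hscale F hFD
  refine finrank_le_of_line hF hrL' hNtr hIN hmN hV fun b hb => ?_
  obtain ⟨hc, htr', hlev', h0⟩ := of_mem_normalised hcoc htr hker hb
  exact ⟨hc, hlev', hI0 b hb, exists_eq_smul_of_conj h2 hN0 hNtr hm0 e hc (htr' F)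
    (hI0 b hb _ (hconjI F hFD)) h0⟩

end Fermat.Agent.CFT.Tangent
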