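import Fermat.Agent.CFT.Tangent.PowerSeries
import Fermat.Agent.Deform.Bound

/-!
# Relative tangent spaces

The relative tangent space of a coefficient algebra, as derivations into the residue field, and
the power series presentation it gives.
-/

set_option autoImplicit false

noncomputable section

namespace Fermat.Agent.CFT.Tangent

open IsLocalRing Fermat.Agent.Deform

variable {𝒪 : Type} [CommRing 𝒪] [IsLocalRing 𝒪]
variable {R : Type} [CommRing R] [IsLocalRing R] [Algebra 𝒪 R]

/-- Derivations into the residue field of `𝒪` killing the image of `𝒪`. -/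
def tangentDer (h : IsResAlg 𝒪 R) : Submodule (ResidueField 𝒪) (R → ResidueField 𝒪) where
  carrier := {δ | (∀ a b, δ (a + b) = δ a + δ b) ∧
    (∀ a b, δ (a * b) = augment h a * δ b + augment h b * δ a) ∧ ∀ o, δ (algebraMap 𝒪 R o) = 0}
  add_mem' := fun {x y} hx hy => by
    refine ⟨fun a b => ?_, fun a b => ?_, fun o => ?_⟩ <;> simp only [Pi.add_apply]
    · rw [hx.1, hy.1]; ring
    · rw [hx.2.1, hy.2.1]; ring
    · rw [hx.2.2, hy.2.2, add_zero]
  zero_mem' := by simp
  smul_mem' := fun c x hx => by
    refine ⟨fun a b => ?_, fun a b => ?_, fun o => ?_⟩ <;> simp only [Pi.smul_apply, smul_eq_mul]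
    · rw [hx.1]; ring
    · rw [hx.2.1]; ring
    · rw [hx.2.2, mul_zero]

variable (h : IsResAlg 𝒪 R)

/-- Derivations vanish at `0`. -/
theorem tangentDer_zero (δ : tangentDer h) : δ.1 0 = 0 := by
  simpa using δ.2.2.2 0

/-- Derivations vanish at `1`. -/
theorem tangentDer_one (δ : tangentDer h) : δ.1 1 = 0 := by
  simpa using δ.2.2.2 1

/-- The dual number valued algebra homomorphism of a derivation. -/
def tangentHom (δ : tangentDer h) :
    letI := dualAlgebra 𝒪
    R →ₐ[𝒪] DualNumber (ResidueField 𝒪) :=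
  letI := dualAlgebra 𝒪
  { toFun := fun a => (augment h a, δ.1 a)
    map_one' := TrivSqZeroExt.ext (map_one (augment h)) (tangentDer_one h δ)
    map_mul' := fun a b => TrivSqZeroExt.ext (map_mul (augment h) a b) (by
      show δ.1 (a * b) = augment h a • δ.1 b + MulOpposite.op (augment h b) • δ.1 a
      rw [δ.2.2.1]
      simp [mul_comm])
    map_zero' := TrivSqZeroExt.ext (map_zero (augment h)) (tangentDer_zero h δ)
    map_add' := fun a b => TrivSqZeroExt.ext (map_add (augment h) a b) (δ.2.1 a b)
    commutes' := fun o => TrivSqZeroExt.ext (AlgHom.commutes (augment h) o) (δ.2.2.2 o) }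

@[simp]
theorem fst_tangentHom (δ : tangentDer h) (a : R) :
    letI := dualAlgebra 𝒪
    TrivSqZeroExt.fst (tangentHom h δ a) = augment h a := rfl

@[simp]
theorem snd_tangentHom (δ : tangentDer h) (a : R) :
    letI := dualAlgebra 𝒪
    TrivSqZeroExt.snd (tangentHom h δ a) = δ.1 a := rfl

/-- Distinct derivations give distinct homomorphisms to dual numbers. -/
theorem tangentHom_injective : Function.Injective (tangentHom h) := fun δ δ' he =>
  Subtype.ext (funext fun a =>
    letI := dualAlgebra 𝒪
    (snd_tangentHom h δ a).symm.trans ((congrArg TrivSqZeroExt.snd (DFunLike.congr_fun he a)).trans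
      (snd_tangentHom h δ' a)))

/-- The homomorphism to dual numbers of a nonzero derivation is surjective. -/
theorem tangentHom_surjective {δ : tangentDer h} (hδ : δ ≠ 0) :
    letI := dualAlgebra 𝒪
    Function.Surjective (tangentHom h δ) := by
  let := dualAlgebra 𝒪
  obtain ⟨a, ha⟩ : ∃ a, δ.1 a ≠ 0 := by
    by_contra! hne
    exact hδ (Subtype.ext (funext hne))
  intro z
  obtain ⟨c, hc⟩ := residue_surjective (R := 𝒪) (TrivSqZeroExt.snd z / δ.1 a)
  obtain ⟨d, hd⟩ := residue_surjective (R := 𝒪)
    (TrivSqZeroExt.fst z - residue 𝒪 c * augment h a)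
  refine ⟨algebraMap 𝒪 R c * a + algebraMap 𝒪 R d, TrivSqZeroExt.ext ?_ ?_⟩
  · rw [fst_tangentHom, map_add, map_mul, AlgHom.commutes, AlgHom.commutes,
      ResidueField.algebraMap_eq, hd]
    ring
  · rw [snd_tangentHom, δ.2.1, δ.2.2.1, δ.2.2.2, δ.2.2.2, AlgHom.commutes,
      ResidueField.algebraMap_eq, hc, mul_zero, add_zero, add_zero, div_mul_cancel₀ _ ha]

/-- A derivation is determined by its values on generators of the maximal ideal. -/
theorem tangentDer_eq_zero_of_generators {t : Set R} (ht : Ideal.span t = maximalIdeal R)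
    (δ : tangentDer h) (hδ : ∀ a ∈ t, δ.1 a = 0) : δ = 0 := by
  have hm : ∀ a ∈ maximalIdeal R, δ.1 a = 0 := by
    rw [← ht]
    intro a ha
    refine (Submodule.span_induction (p := fun a _ => δ.1 a = 0 ∧ augment h a = 0) ?_ ?_ ?_ ?_ ha).1
    · exact fun x hx => ⟨hδ x hx, (augment_eq_zero_iff h x).mpr (ht ▸ Ideal.subset_span hx)⟩
    · exact ⟨tangentDer_zero h δ, map_zero _⟩
    · exact fun x y _ _ hx hy => ⟨by rw [δ.2.1, hx.1, hy.1, add_zero], by
        rw [map_add, hx.2, hy.2, add_zero]⟩
    · exact fun c x _ hx => ⟨by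
        rw [smul_eq_mul, δ.2.2.1, hx.1, hx.2, mul_zero, zero_mul, add_zero],
        by rw [smul_eq_mul, map_mul, hx.2, mul_zero]⟩
  refine Subtype.ext (funext fun a => ?_)
  obtain ⟨o, ho⟩ := exists_sub_mem h a
  have := δ.2.1 (a - algebraMap 𝒪 R o) (algebraMap 𝒪 R o)
  rw [sub_add_cancel, hm _ ho, δ.2.2.2, add_zero] at this
  exact this

variable [IsNoetherianRing R]

instance finite_tangentDer : Module.Finite (ResidueField 𝒪) (tangentDer h) := by
  obtain ⟨t, ht⟩ := (IsNoetherian.noetherian (maximalIdeal R))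
  let ev : tangentDer h →ₗ[ResidueField 𝒪] (t → ResidueField 𝒪) :=
    { toFun := fun δ a => δ.1 a
      map_add' := fun _ _ => rfl
      map_smul' := fun _ _ => rfl }
  refine Module.Finite.of_injective ev ((injective_iff_map_eq_zero ev).mpr fun δ hδ => ?_)
  exact tangentDer_eq_zero_of_generators h ht δ fun a ha => congr_fun hδ ⟨a, ha⟩

/-- Elements detecting derivations generate the relative cotangent space. -/
theorem maximalIdeal_le_of_detect {S : Set R} (hS : S ⊆ maximalIdeal R)
    (hdet : ∀ δ : tangentDer h, (∀ a ∈ S, δ.1 a = 0) → δ = 0) :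
    maximalIdeal R ≤ Ideal.span S ⊔ (maximalIdeal 𝒪).map (algebraMap 𝒪 R) := by
  have := h.isLocalHom
  set I' := Ideal.span S ⊔ (maximalIdeal 𝒪).map (algebraMap 𝒪 R)
  have hI'le : I' ≤ maximalIdeal R := sup_le (Ideal.span_le.mpr hS)
    (Ideal.map_le_iff_le_comap.mpr fun o ho => map_nonunit (algebraMap 𝒪 R) o ho)
  -- By Nakayama it suffices to work modulo the square of the maximal ideal.
  suffices hle : maximalIdeal R ≤ I' ⊔ maximalIdeal R • maximalIdeal R from
    Submodule.le_of_le_smul_of_le_jacobson_bot (IsNoetherian.noetherian _)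
      (maximalIdeal_le_jacobson _) hle
  set J : Ideal R := I' ⊔ maximalIdeal R • maximalIdeal R
  by_contra hne
  obtain ⟨x, hx, hxJ⟩ := SetLike.not_le_iff_exists.mp hne
  let algk : ResidueField 𝒪 →+* R ⧸ J :=
    Ideal.Quotient.lift (maximalIdeal 𝒪) ((Ideal.Quotient.mk J).comp (algebraMap 𝒪 R))
      fun o ho => Ideal.Quotient.eq_zero_iff_mem.mpr
        (Ideal.mem_sup_left (Ideal.mem_sup_right (Ideal.mem_map_of_mem _ ho)))
  let := algk.toAlgebra
  have halg : ∀ o : 𝒪, algebraMap (ResidueField 𝒪) (R ⧸ J) (residue 𝒪 o) =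
      Ideal.Quotient.mk J (algebraMap 𝒪 R o) := fun o => rfl
  let L : Submodule (ResidueField 𝒪) (R ⧸ J) := Submodule.span _ {1}
  have hxL : Ideal.Quotient.mk J x ∉ L := by
    intro hmem
    obtain ⟨c, hc⟩ := Submodule.mem_span_singleton.mp hmem
    obtain ⟨o, rfl⟩ := residue_surjective (R := 𝒪) c
    rw [Algebra.smul_def, mul_one, halg, Ideal.Quotient.eq] at hc
    have h1 : algebraMap 𝒪 R o ∈ maximalIdeal R := by
      have := add_mem ((sup_le hI'le Ideal.mul_le_left : J ≤ maximalIdeal R) hc) hx
      rwa [sub_add_cancel] at this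
    have h2 : algebraMap 𝒪 R o ∈ J := by
      refine Ideal.mem_sup_left (Ideal.mem_sup_right (Ideal.mem_map_of_mem _ ?_))
      exact fun hu => h1 (hu.map _)
    exact hxJ (by simpa using sub_mem h2 hc)
  -- Otherwise some functional on `R / J` kills `1` but not `x`.
  obtain ⟨f, hfx, hfL⟩ := Submodule.exists_dual_map_eq_bot_of_notMem hxL inferInstance
  have hf1 : f 1 = 0 := by
    have h1 := Submodule.mem_map_of_mem (f := f) (Submodule.mem_span_singleton_self (1 : R ⧸ J))
    rwa [hfL, Submodule.mem_bot] at h1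
  have hmk : ∀ a b, f (Ideal.Quotient.mk J (a * b)) =
      augment h a * f (Ideal.Quotient.mk J b) + augment h b * f (Ideal.Quotient.mk J a) := by
    intro a b
    obtain ⟨o, ho⟩ := exists_sub_mem h a
    obtain ⟨o', ho'⟩ := exists_sub_mem h b
    have e : ∀ {c : R} {u : 𝒪}, c - algebraMap 𝒪 R u ∈ maximalIdeal R →
        augment h c = residue 𝒪 u := fun {c u} hc => by
      have := (augment_eq_zero_iff h _).mpr hc
      rwa [map_sub, AlgHom.commutes, sub_eq_zero] at this
    have h0 : Ideal.Quotient.mk J ((a - algebraMap 𝒪 R o) * (b - algebraMap 𝒪 R o')) = 0 :=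
      Ideal.Quotient.eq_zero_iff_mem.mpr (Ideal.mem_sup_right (Submodule.smul_mem_smul ho ho'))
    have h1 : Ideal.Quotient.mk J (a * b) =
        residue 𝒪 o • Ideal.Quotient.mk J b + residue 𝒪 o' • Ideal.Quotient.mk J a -
          (residue 𝒪 o * residue 𝒪 o') • (1 : R ⧸ J) := by
      simp only [Algebra.smul_def, map_mul, halg, mul_one]
      simp only [map_mul, map_sub] at h0
      linear_combination h0
    rw [h1, map_sub, map_add, map_smul, map_smul, map_smul, hf1, e ho, e ho']
    simp
  -- It is a derivation killing `S`, contradicting detection.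
  let δ : tangentDer h := ⟨fun a => f (Ideal.Quotient.mk J a),
    fun a b => by simp [map_add], hmk, fun o => by
      show f (Ideal.Quotient.mk J (algebraMap 𝒪 R o)) = 0
      rw [← halg, Algebra.algebraMap_eq_smul_one, map_smul, hf1, smul_zero]⟩
  have := hdet δ fun a ha => by
    show f (Ideal.Quotient.mk J a) = 0
    rw [Ideal.Quotient.eq_zero_iff_mem.mpr
      (Ideal.mem_sup_left (Ideal.mem_sup_left (Ideal.subset_span ha))), map_zero]
  exact hfx (congr_fun (congrArg Subtype.val this) x)

/-- A tangent space of dimension at most `r` gives a presentation in `r` variables. -/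
theorem exists_surjective_of_finrank_le [IsAdicComplete (maximalIdeal 𝒪) 𝒪]
    [IsAdicComplete (maximalIdeal R) R] {r : ℕ}
    (hr : Module.finrank (ResidueField 𝒪) (tangentDer h) ≤ r) :
    ∃ γ : MvPowerSeries (Fin r) 𝒪 →ₐ[𝒪] R, Function.Surjective γ := by
  have := h.isLocalHom
  let k := ResidueField 𝒪
  let evl : R → Module.Dual k (tangentDer h) := fun a =>
    { toFun := fun δ => δ.1 a
      map_add' := fun _ _ => rfl
      map_smul' := fun _ _ => rfl }
  obtain ⟨t, htsub, htspan, htli⟩ :=
    exists_linearIndependent k (evl '' (maximalIdeal R : Set R))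
  have htfin : t.Finite := htli.set_finite_of_isNoetherian
  have := htfin.fintype
  have hcard : Fintype.card t ≤ r := by
    refine le_trans ?_ hr
    rw [← Subspace.dual_finrank_eq (K := k) (V := tangentDer h)]
    exact htli.fintype_card_le_finrank
  choose pre hpre hpre' using fun v : t => htsub v.2
  let e := Fintype.equivFin t
  let s : Fin r → R := fun i =>
    if hi : (i : ℕ) < Fintype.card t then pre (e.symm ⟨i, hi⟩) else 0
  have hs : ∀ i, s i ∈ maximalIdeal R := fun i => by
    by_cases hi : (i : ℕ) < Fintype.card t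
    · simp only [s, dif_pos hi]; exact hpre _
    · simp only [s, dif_neg hi]; exact zero_mem _
  refine exists_surjective_mvPowerSeries h.residue_surjective s hs
    (maximalIdeal_le_of_detect h (Set.range_subset_iff.mpr hs) fun δ hδ => ?_)
  refine tangentDer_eq_zero_of_generators h (Ideal.span_eq (maximalIdeal R)) δ fun a ha => ?_
  have h1 : evl a ∈ Submodule.span k t := htspan ▸ Submodule.subset_span ⟨a, ha, rfl⟩
  have h2 : ∀ v ∈ Submodule.span k t, v δ = 0 := fun v hv => by
    refine Submodule.span_induction (p := fun v _ => v δ = 0) ?_ rfl ?_ ?_ hv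
    · intro v hv
      have := hδ (s ⟨e ⟨v, hv⟩, lt_of_lt_of_le (e ⟨v, hv⟩).2 hcard⟩) (Set.mem_range_self _)
      simp only [s, dif_pos (e ⟨v, hv⟩).2, Fin.eta, Equiv.symm_apply_apply] at this
      exact (congrFun (congrArg DFunLike.coe (hpre' ⟨v, hv⟩)) δ).symm.trans this
    · intro x y _ _ hx hy; simp [hx, hy]
    · intro c x _ hx; simp [hx]
  exact h2 _ h1

end Fermat.Agent.CFT.Tangent
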