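import Fermat.Agent.CFT.Tangent.LocalPlace
import Fermat.Agent.CFT.TWPrimes.Mat
import Fermat.Agent.CFT.Flat.Slots

/-!
# The shape of a residual representation at `p`

Either the decomposition group stabilises a line, or tame inertia acts by `diag (l, l ^ p)` through
its quotient of order `p ^ 2 - 1`.

The main theorem is `flat_shape`.
-/

set_option autoImplicit false

noncomputable section

namespace Fermat.Agent.CFT.Tangent

open Fermat.Agent.Deform Fermat.Agent.Arith Fermat.Agent.CFT.Flat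

variable {k : Type} [Field k] {p : ℕ} [hp : Fact p.Prime] [CharP k p] {r : Gal →* M2 k}

/-! ### Matrices -/

section Mat

omit hp [CharP k p] in
/-- A nonzero vector is the first column of an invertible matrix. -/
theorem exists_basis_change {v : Fin 2 → k} (hv : v ≠ 0) :
    ∃ P Pi : M2 k, P * Pi = 1 ∧ Pi * P = 1 ∧ P.mulVec ![1, 0] = v := by
  by_cases h0 : v 0 = 0
  · have h1 : v 1 ≠ 0 := fun h1 => hv (funext fun i => by fin_cases i <;> assumption)
    refine ⟨!![0, 1; v 1, 0], !![0, (v 1)⁻¹; 1, 0], ?_, ?_, ?_⟩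
    · ext i j; fin_cases i <;> fin_cases j <;> simp [h1]
    · ext i j; fin_cases i <;> fin_cases j <;> simp [h1]
    · funext i; fin_cases i <;> simp [h0]
  · refine ⟨!![v 0, 0; v 1, 1], !![(v 0)⁻¹, 0; -(v 1) / v 0, 1], ?_, ?_, ?_⟩
    · ext i j; fin_cases i <;> fin_cases j <;> simp [h0]
      field_simp
      ring
    · ext i j; fin_cases i <;> fin_cases j <;> simp [h0]
    · funext i; fin_cases i <;> simp

omit hp [CharP k p] in
/-- An eigenvector becomes an upper triangular form. -/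
theorem conj_upper {A P Pi : M2 k} (hPi : Pi * P = 1) {v : Fin 2 → k}
    (hP : P.mulVec ![1, 0] = v) {c : k} (hA : A.mulVec v = c • v) :
    (Pi * A * P) 1 0 = 0 ∧ (Pi * A * P) 0 0 = c := by
  have h : (Pi * A * P).mulVec ![1, 0] = ![c, 0] := by
    rw [← Matrix.mulVec_mulVec, hP, ← Matrix.mulVec_mulVec, hA, Matrix.mulVec_smul, ← hP,
      Matrix.mulVec_mulVec, hPi, Matrix.one_mulVec]
    funext i
    fin_cases i <;> simp
  have h0 := congrFun h 0
  have h1 := congrFun h 1
  simp [Matrix.mulVec, dotProduct, Fin.sum_univ_two] at h0 h1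
  exact ⟨h1, h0⟩

omit hp [CharP k p] in
/-- A root of the characteristic polynomial has an eigenvector. -/
theorem exists_eigvec {A : M2 k} {α β : k} (ht : A.trace = α + β) (hd : A.det = α * β) :
    ∃ v : Fin 2 → k, v ≠ 0 ∧ A.mulVec v = α • v := by
  have h : (A - α • (1 : M2 k)).det = 0 := by
    rw [Matrix.trace_fin_two] at ht
    rw [Matrix.det_fin_two] at hd ⊢
    simp
    linear_combination hd - α * ht
  obtain ⟨v, hv, hv'⟩ := Matrix.exists_mulVec_eq_zero_iff.mpr h
  refine ⟨v, hv, ?_⟩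
  rwa [Matrix.sub_mulVec, Matrix.smul_mulVec, Matrix.one_mulVec, sub_eq_zero] at hv'

omit hp [CharP k p] in
/-- Powers of an upper triangular matrix. -/
theorem upper_pow {A : M2 k} (h : A 1 0 = 0) (n : ℕ) :
    (A ^ n) 1 0 = 0 ∧ (A ^ n) 0 0 = A 0 0 ^ n ∧ (A ^ n) 1 1 = A 1 1 ^ n := by
  induction n with
  | zero => simp
  | succ n ih =>
    simp only [pow_succ, Matrix.mul_apply, Fin.sum_univ_two, ih.1, ih.2.1, ih.2.2, h]
    refine ⟨by ring, by ring, by ring⟩

omit hp [CharP k p] in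
/-- The traces of the powers are the power sums of the eigenvalues. -/
theorem trace_pow_eq {A : M2 k} {α β : k} (ht : A.trace = α + β) (hd : A.det = α * β) (n : ℕ) :
    (A ^ n).trace = α ^ n + β ^ n := by
  obtain ⟨v, hv, hAv⟩ := exists_eigvec ht hd
  obtain ⟨P, Pi, hP1, hP2, hP3⟩ := exists_basis_change hv
  obtain ⟨h10, h00⟩ := conj_upper hP2 hP3 hAv
  have hpow : ∀ m : ℕ, Pi * A ^ m * P = (Pi * A * P) ^ m := fun m => by
    induction m with
    | zero => rw [pow_zero, pow_zero, mul_one, hP2]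
    | succ m ih =>
      rw [pow_succ (Pi * A * P), ← ih, pow_succ A, show Pi * A ^ m * P * (Pi * A * P) =
        Pi * A ^ m * (P * Pi) * A * P by simp only [mul_assoc], hP1, mul_one]
      simp only [mul_assoc]
  have htr : ∀ X : M2 k, (Pi * X * P).trace = X.trace := fun X => by
    rw [Matrix.trace_mul_comm, ← mul_assoc, hP1, one_mul]
  have h11 : (Pi * A * P) 1 1 = β := by
    have e := htr A
    rw [Matrix.trace_fin_two, h00, ht] at e
    linear_combination e
  rw [← htr (A ^ n), hpow, Matrix.trace_fin_two, (upper_pow h10 n).2.1, (upper_pow h10 n).2.2, h00,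
    h11]

omit hp in
/-- A matrix with both eigenvalues one and order prime to `p` is trivial. -/
theorem eq_one_of_trace_det {A : M2 k} (ht : A.trace = 2) (hd : A.det = 1) {m : ℕ}
    (hm : ¬ p ∣ m) (hAm : A ^ m = 1) : A = 1 := by
  have hsq : (A - 1) * (A - 1) = 0 := by
    have h := TWPrimes.mul_self_eq A
    rw [ht, hd] at h
    rw [sub_mul, mul_sub, h, mul_one, one_mul]
    module
  have h := TWPrimes.pow_one_add hsq m
  rw [add_sub_cancel, hAm, left_eq_add, smul_eq_zero] at h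
  exact sub_eq_zero.mp (h.resolve_left fun h0 => hm ((CharP.cast_eq_zero_iff k p m).mp h0))

omit hp [CharP k p] in
/-- A vector killed by a nonzero trace zero matrix is killed by every square zero matrix whose
product with it has trace zero. -/
theorem sq_zero_mulVec {N M : M2 k} (hN0 : N ≠ 0) (hM : M * M = 0)
    (htN : N.trace = 0) (hNM : (N * M).trace = 0) {v : Fin 2 → k}
    (hv : v ≠ 0) (hNv : N.mulVec v = 0) : M.mulVec v = 0 := by
  obtain ⟨P, Pi, hP1, hP2, hP3⟩ := exists_basis_change hv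
  have hc : ∀ X Y : M2 k, (Pi * X * P) * (Pi * Y * P) = Pi * (X * Y) * P := fun X Y => by
    rw [show Pi * X * P * (Pi * Y * P) = Pi * X * (P * Pi) * Y * P by simp only [mul_assoc], hP1,
      mul_one]
    simp only [mul_assoc]
  have htr : ∀ X : M2 k, (Pi * X * P).trace = X.trace := fun X => by
    rw [Matrix.trace_mul_comm, ← mul_assoc, hP1, one_mul]
  obtain ⟨n10, n00⟩ := conj_upper hP2 hP3 (c := 0) (by rw [hNv, zero_smul])
  set N' := Pi * N * P with hN'
  set M' := Pi * M * P with hM'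
  have n11 : N' 1 1 = 0 := by
    have e := htr N
    rw [htN, ← hN', Matrix.trace_fin_two, n00, zero_add] at e
    exact e
  have n01 : N' 0 1 ≠ 0 := fun h => hN0 (by
    have e : N' = 0 := by ext i j; fin_cases i <;> fin_cases j <;> assumption
    calc N = P * N' * Pi := by
          rw [hN', show P * (Pi * N * P) * Pi = (P * Pi) * N * (P * Pi) by simp only [mul_assoc],
            hP1, one_mul, mul_one]
      _ = 0 := by rw [e, mul_zero, zero_mul])
  have m10 : M' 1 0 = 0 := by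
    have e := htr (N * M)
    rw [hNM, ← hc, ← hN', ← hM', Matrix.trace_fin_two] at e
    simp [Matrix.mul_apply, Fin.sum_univ_two, n10, n00, n11] at e
    exact e.resolve_left n01
  have m00 : M' 0 0 = 0 := by
    have e := congrFun (congrFun ((hc M M).trans (by rw [hM, mul_zero, zero_mul])) 0) 0
    rw [← hM', Matrix.zero_apply, Matrix.mul_apply, Fin.sum_univ_two, m10, mul_zero, add_zero] at e
    exact mul_self_eq_zero.mp e
  have h : M'.mulVec ![1, 0] = 0 := by
    funext i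
    fin_cases i <;> simp [Matrix.mulVec, dotProduct, Fin.sum_univ_two, m00, m10]
  calc M.mulVec v = (P * M').mulVec ![1, 0] := by
        rw [hM', ← mul_assoc, ← mul_assoc, hP1, one_mul, ← Matrix.mulVec_mulVec, hP3]
    _ = 0 := by rw [← Matrix.mulVec_mulVec, h, Matrix.mulVec_zero]

omit hp [CharP k p] in
/-- The powers of a matrix act on an eigenvector by the powers of the eigenvalue. -/
private theorem mulVec_pow_eigen {A : M2 k} {v : Fin 2 → k} {c : k} (h : A.mulVec v = c • v) :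
    ∀ i : ℕ, (A ^ i).mulVec v = c ^ i • v := fun i => by
  induction i with
  | zero => simp
  | succ i ih => rw [pow_succ, ← Matrix.mulVec_mulVec, h, Matrix.mulVec_smul, ih, smul_smul,
      pow_succ']

/-- A matrix with eigenvalues in `k` and of `p`-power order is unipotent. -/
private theorem unipotent_of_pow_eq_one {A : M2 k} {α β : k} (ht : A.trace = α + β)
    (hd : A.det = α * β) {a : ℕ} (hA : A ^ p ^ a = 1) :
    (A - 1) * (A - 1) = 0 ∧ (A - 1).trace = 0 := by
  have hroot : ∀ x y : k, A.trace = x + y → A.det = x * y → x = 1 := by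
    intro x y hx hy
    obtain ⟨v, hv, hAv⟩ := exists_eigvec hx hy
    have h2 := mulVec_pow_eigen hAv (p ^ a)
    rw [hA, Matrix.one_mulVec] at h2
    have h3 : x ^ p ^ a = 1 := by
      by_contra hne
      exact hv ((smul_eq_zero.mp (show (x ^ p ^ a - 1) • v = 0 by
        rw [sub_smul, one_smul, ← h2, sub_self])).resolve_left (sub_ne_zero.mpr hne))
    have h4 : (x - 1) ^ p ^ a = 0 := by rw [sub_pow_char_pow, h3, one_pow, sub_self]
    exact sub_eq_zero.mp (pow_eq_zero_iff (pow_ne_zero a hp.out.ne_zero) |>.mp h4)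
  have hα := hroot α β ht hd
  have hβ := hroot β α (ht.trans (add_comm _ _)) (hd.trans (mul_comm _ _))
  rw [hα, hβ] at ht hd
  refine ⟨?_, ?_⟩
  · have h := TWPrimes.mul_self_eq A
    rw [ht, hd, mul_one] at h
    rw [sub_mul, mul_sub, h, mul_one, one_mul]
    module
  · rw [Matrix.trace_sub, ht, Matrix.trace_one, Fintype.card_fin]
    norm_num

omit hp [CharP k p] in
/-- For an upper triangular matrix with distinct diagonal entries, or a nonzero nilpotent one, the
eigenvectors for the first diagonal entry form the first coordinate line. -/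
private theorem eq_smul_of_upper {A B P Pi : M2 k} (hP : P * Pi = 1) {v : Fin 2 → k}
    (hPv : P.mulVec ![1, 0] = v) (hB : B = Pi * A * P) {c : k} (h10 : B 1 0 = 0) (h00 : B 0 0 = c)
    (hne : B 1 1 ≠ c ∨ B 0 1 ≠ 0) {x : Fin 2 → k} (hx : A.mulVec x = c • x) :
    ∃ a : k, x = a • v := by
  set y := Pi.mulVec x with hy
  have hBy : B.mulVec y = c • y := by
    rw [hB, hy, Matrix.mulVec_mulVec, mul_assoc, hP, mul_one, ← Matrix.mulVec_mulVec, hx,
      Matrix.mulVec_smul]
  have h0 := congrFun hBy 0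
  have h1 := congrFun hBy 1
  simp [Matrix.mulVec, dotProduct, Fin.sum_univ_two, h10, h00] at h0 h1
  have hy1 : y 1 = 0 := by
    rcases hne with h | h
    · exact h1.resolve_left h
    · exact h0.resolve_left h
  refine ⟨y 0, ?_⟩
  rw [← hPv, ← Matrix.mulVec_smul]
  calc x = P.mulVec y := by rw [hy, Matrix.mulVec_mulVec, hP, Matrix.one_mulVec]
    _ = _ := congrArg P.mulVec (funext fun i => by fin_cases i <;> simp [hy1])

omit hp [CharP k p] in
/-- Unipotent matrices closed under products, not all trivial, fix one common line, which every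
matrix normalising them stabilises. -/
private theorem exists_stable_line {G : Type*} [Monoid G] (f : G →* M2 k) (S : Set G)
    (hS : ∀ a ∈ S, ∀ b ∈ S, a * b ∈ S)
    (huni : ∀ a ∈ S, (f a - 1) * (f a - 1) = 0 ∧ (f a - 1).trace = 0)
    {g₀ : G} (hg₀ : g₀ ∈ S) (hne : f g₀ ≠ 1) :
    ∃ v : Fin 2 → k, v ≠ 0 ∧ ∀ R Ri : M2 k, R * Ri = 1 →
      (∃ h ∈ S, f h = Ri * f g₀ * R) → ∃ c : k, R.mulVec v = c • v := by
  obtain ⟨hN, htN⟩ := huni g₀ hg₀
  -- Let `v` span the image of the nilpotent `N = f g₀ - 1`; then `N v = 0`.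
  set N := f g₀ - 1 with hNdef
  have hN0 : N ≠ 0 := sub_ne_zero.mpr hne
  obtain ⟨w, hw⟩ : ∃ w, N.mulVec w ≠ 0 := by
    by_contra h
    push Not at h
    exact hN0 (Matrix.toLin'.injective (LinearMap.ext fun x => by
      rw [Matrix.toLin'_apply, h x, map_zero, LinearMap.zero_apply]))
  set v := N.mulVec w with hvdef
  have hNv : N.mulVec v = 0 := by rw [hvdef, Matrix.mulVec_mulVec, hN, Matrix.zero_mulVec]
  -- All of `S` fixes `v`, as the traces of products vanish.
  have hfix : ∀ g ∈ S, (f g).mulVec v = v := fun g hg => by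
    obtain ⟨hM, htM⟩ := huni g hg
    have hNM : (N * (f g - 1)).trace = 0 := by
      have e := (huni (g₀ * g) (hS _ hg₀ _ hg)).2
      rw [map_mul, show f g₀ * f g - 1 = N * (f g - 1) + N + (f g - 1) by
        rw [hNdef, sub_mul, mul_sub, mul_one, one_mul]; abel, Matrix.trace_add,
        Matrix.trace_add, htN, htM, add_zero, add_zero] at e
      exact e
    have := sq_zero_mulVec hN0 hM htN hNM hw hNv
    rwa [Matrix.sub_mulVec, Matrix.one_mulVec, sub_eq_zero] at this
  refine ⟨v, hw, fun R Ri hR => ?_⟩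
  rintro ⟨h, hh, he⟩
  -- If `R` conjugates `g₀` into `S` it therefore preserves the line of `v`.
  obtain ⟨P, Pi, hP1, hP2, hP3⟩ := exists_basis_change hw
  obtain ⟨n10, n00⟩ := conj_upper hP2 hP3 (c := 0) (by rw [hNv, zero_smul])
  have n01 : (Pi * N * P) 1 1 ≠ 0 ∨ (Pi * N * P) 0 1 ≠ 0 := by
    by_contra hc
    push Not at hc
    refine hN0 ?_
    calc N = P * (Pi * N * P) * Pi := by
          rw [show P * (Pi * N * P) * Pi = (P * Pi) * N * (P * Pi) by simp only [mul_assoc], hP1,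
            one_mul, mul_one]
      _ = 0 := by
          rw [show Pi * N * P = 0 by
            ext i j; fin_cases i <;> fin_cases j <;>
              first | exact n00 | exact hc.2 | exact n10 | exact hc.1,
            mul_zero, zero_mul]
  refine eq_smul_of_upper hP1 hP3 rfl n10 n00 n01 ?_
  have e := congrArg R.mulVec (hfix h hh)
  rw [he, Matrix.mulVec_mulVec, ← mul_assoc, ← mul_assoc, hR, one_mul, ← Matrix.mulVec_mulVec] at e
  rw [zero_smul, hNdef, Matrix.sub_mulVec, Matrix.one_mulVec, sub_eq_zero]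
  exact e

/-- If `{α, β}` is stable under the `p`-th power map then `α ^ p` is one of them and
`α ^ (p ^ 2 - 1) = 1`. -/
private theorem pow_eigen_cases {α β : k} (hα : α ≠ 0) (ht : (α + β) ^ p = α + β)
    (hd : (α * β) ^ p = α * β) : (α ^ p = α ∨ α ^ p = β) ∧ α ^ e₀ p = 1 := by
  rw [add_pow_char] at ht
  rw [mul_pow] at hd
  have hroot : α ^ p = α ∨ α ^ p = β := by
    have e : (α ^ p - α) * (α ^ p - β) = 0 := by linear_combination (α ^ p) * ht - hd
    exact (mul_eq_zero.mp e).imp sub_eq_zero.mp sub_eq_zero.mp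
  have hsq : α ^ (p * p) = α := by
    rw [pow_mul]
    rcases hroot with h | h
    · rw [h, h]
    · rw [h] at ht ⊢
      linear_combination ht
  refine ⟨hroot, mul_left_cancel₀ hα ?_⟩
  rw [mul_one, ← pow_succ', e₀, Nat.sub_add_cancel (Nat.one_le_pow _ _ hp.out.pos), sq]
  exact hsq

omit hp [CharP k p] in
/-- An upper triangular matrix with distinct diagonal entries is diagonalisable. -/
private theorem exists_diag {A B P Pi : M2 k} (hP1 : P * Pi = 1) (hP2 : Pi * P = 1)
    (hB : B = Pi * A * P) (h10 : B 1 0 = 0) (hne : B 0 0 ≠ B 1 1) :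
    ∃ Q Qi : M2 k, Q * Qi = 1 ∧ Qi * Q = 1 ∧ Qi * A * Q = !![B 0 0, 0; 0, B 1 1] := by
  set y := B 0 1 / (B 1 1 - B 0 0) with hy
  refine ⟨P * !![1, y; 0, 1], !![1, -y; 0, 1] * Pi, ?_, ?_, ?_⟩
  · rw [mul_assoc, ← mul_assoc !![1, y; 0, 1],
      show !![1, y; 0, 1] * !![1, -y; 0, 1] = (1 : M2 k) by
        ext i j; fin_cases i <;> fin_cases j <;> simp, one_mul, hP1]
  · rw [mul_assoc, ← mul_assoc Pi, hP2, one_mul]
    ext i j; fin_cases i <;> fin_cases j <;> simp
  · rw [show !![1, -y; 0, 1] * Pi * A * (P * !![1, y; 0, 1]) =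
      !![1, -y; 0, 1] * B * !![1, y; 0, 1] by rw [hB]; simp only [mul_assoc]]
    have hsub : B 1 1 - B 0 0 ≠ 0 := sub_ne_zero.mpr hne.symm
    rw [Matrix.eta_fin_two B, h10, Matrix.mul_fin_two, Matrix.mul_fin_two]
    ext i j
    fin_cases i <;> fin_cases j <;> simp [hy]
    field_simp
    ring

end Mat

/-! ### Frobenius and tame inertia -/

variable [Finite k] [Algebra (ZMod p) k]

omit [Finite k] [Algebra (ZMod p) k] in
/-- An element that Frobenius conjugates to its `p`-th power has eigenvalues permuted by the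
`p`-th power map. -/
private theorem eigen_of_frob {φ g : Gal} (h : r φ * r g = r g ^ p * r φ) {α β : k}
    (ht : (r g).trace = α + β) (hd : (r g).det = α * β) :
    (α ^ p = α ∨ α ^ p = β) ∧ (α + β) ^ p = α + β ∧ α ^ e₀ p = 1 := by
  have h2 : (r g ^ p).trace = (r g).trace := by
    calc (r g ^ p).trace = (r g ^ p * r φ * r φ⁻¹).trace := by
          rw [mul_assoc, map_mul_inv, mul_one]
      _ = (r g).trace := by rw [← h, trace_conj_map]
  have hd2 : (α * β) ^ p = α * β := by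
    have e := congrArg Matrix.det h
    rw [Matrix.det_mul, Matrix.det_mul, Matrix.det_pow, mul_comm] at e
    rw [← hd]
    exact (mul_right_cancel₀ (det_map_ne_zero r φ) e).symm
  have ht2 : (α + β) ^ p = α + β := by rw [add_pow_char, ← trace_pow_eq ht hd p, h2, ht]
  have hα0 : α ≠ 0 := fun h => det_map_ne_zero r g (by rw [hd, h, zero_mul])
  obtain ⟨hroot, hone⟩ := pow_eigen_cases (p := p) hα0 ht2 hd2
  exact ⟨hroot, ht2, hone⟩

omit [Finite k] [Algebra (ZMod p) k] in
/-- Such an element of order prime to `p` has order dividing `p ^ 2 - 1`. -/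
private theorem pow_e₀_of_frob {φ g : Gal} (h : r φ * r g = r g ^ p * r φ) {α β : k}
    (ht : (r g).trace = α + β) (hd : (r g).det = α * β) {m : ℕ} (hpm : ¬ p ∣ m)
    (hm : r g ^ m = 1) : r g ^ e₀ p = 1 := by
  obtain ⟨-, -, hα⟩ := eigen_of_frob h ht hd
  obtain ⟨-, -, hβ⟩ := eigen_of_frob h (ht.trans (add_comm _ _)) (hd.trans (mul_comm _ _))
  refine eq_one_of_trace_det (p := p) ?_ ?_ hpm (by rw [← pow_mul, mul_comm, pow_mul, hm, one_pow])
  · rw [trace_pow_eq ht hd, hα, hβ]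
    norm_num
  · rw [Matrix.det_pow, hd, mul_pow, hα, hβ, mul_one]

omit [Finite k] [Algebra (ZMod p) k] in
/-- Wild inertia acts trivially if the decomposition group fixes no line. -/
private theorem wild_trivial {φ : Gal} (hφ : φ ∈ decG p) (z : inG p →* QBar)
    (hzroot : ∀ g, ∃ m, 0 < m ∧ ¬ p ∣ m ∧ z g ^ m = 1)
    (hwild : ∀ g : inG p, z g = 1 → ∃ a : ℕ, r (g : Gal) ^ p ^ a = 1)
    (hfr : ∀ g h : inG p, (h : Gal) = φ * g * φ⁻¹ → z h = z g ^ p)
    (hsplit : ∀ σ, ∃ α β : k, (r σ).trace = α + β ∧ (r σ).det = α * β)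
    (hstab : ∀ v : Fin 2 → k, v ≠ 0 → (∃ c : k, (r φ).mulVec v = c • v) →
      (∀ t ∈ inG p, ∃ c : k, (r t).mulVec v = c • v) → False)
    (g : inG p) (hg : z g = 1) : r (g : Gal) = 1 := by
  by_contra hne
  obtain ⟨v, hv, hconj⟩ := exists_stable_line (r.comp (inG p).subtype) {g | z g = 1}
    (fun a ha b hb => show z (a * b) = 1 by rw [map_mul, ha, hb, one_mul])
    (fun g hg => by
      obtain ⟨a, ha⟩ := hwild g hg
      obtain ⟨α, β, ht, hd⟩ := hsplit (g : Gal)
      exact unipotent_of_pow_eq_one (p := p) ht hd ha)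
    hg hne
  have hline : ∀ (s : Gal) (h : inG p), z h = 1 → (h : Gal) = s⁻¹ * g * s →
      ∃ c : k, (r s).mulVec v = c • v := fun s h hh he =>
    hconj (r s) (r s⁻¹) (map_mul_inv r s) ⟨h, hh, by
      show r (h : Gal) = r s⁻¹ * r (g : Gal) * r s
      rw [he, map_mul, map_mul]⟩
  refine hstab v hv ?_ fun t ht => hline t ((⟨t, ht⟩ : inG p)⁻¹ * g * ⟨t, ht⟩) (by
    rw [map_mul, map_mul, hg, mul_one, ← map_mul, inv_mul_cancel, map_one]) rfl
  have hh : φ⁻¹ * (g : Gal) * φ ∈ inG p := conj_mem_inG (p := p) hφ g.2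
  refine hline φ ⟨_, hh⟩ ?_ rfl
  have e := hfr ⟨_, hh⟩ g (by show (g : Gal) = φ * (φ⁻¹ * g * φ) * φ⁻¹; group)
  rw [hg] at e
  obtain ⟨m, -, hpm, hzm⟩ := hzroot ⟨_, hh⟩
  have h1 := pow_gcd_eq_one.mpr ⟨e.symm, hzm⟩
  rwa [((Nat.Prime.coprime_iff_not_dvd hp.out).mpr hpm).gcd_eq_one, pow_one] at h1

omit [Finite k] [Algebra (ZMod p) k] [CharP k p] in
/-- Once wild inertia acts trivially, Frobenius raises inertia to the `p`-th power. -/
private theorem map_frob_mul {φ : Gal} (hφ : φ ∈ decG p) (z : inG p →* QBar)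
    (hfr : ∀ g h : inG p, (h : Gal) = φ * g * φ⁻¹ → z h = z g ^ p)
    (hW : ∀ g : inG p, z g = 1 → r (g : Gal) = 1) (g : inG p) :
    r φ * r (g : Gal) = r (g : Gal) ^ p * r φ := by
  have hh : φ * (g : Gal) * φ⁻¹ ∈ inG p := by
    have := conj_mem_inG (p := p) ((decG p).inv_mem hφ) g.2
    rwa [inv_inv] at this
  have h4 : z ((g ^ p)⁻¹ * ⟨_, hh⟩) = 1 := by
    rw [map_mul, hfr g ⟨_, hh⟩ rfl, ← map_pow, ← map_mul, inv_mul_cancel, map_one]
  have h6 : r (φ * (g : Gal) * φ⁻¹) = r (g : Gal) ^ p := by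
    rw [← mul_one (r (g : Gal) ^ p), ← hW _ h4, ← map_pow, ← map_mul]
    exact congrArg r (mul_inv_cancel_left ((g : Gal) ^ p) _).symm
  rw [← h6, ← map_mul, ← map_mul, inv_mul_cancel_right]

omit [Finite k] [Algebra (ZMod p) k] in
/-- The generator of tame inertia is diagonalisable with eigenvalues `l` and `l ^ p` if it has no
common eigenvector with Frobenius. -/
private theorem exists_diag_generator {φ τ : Gal} (h : r φ * r τ = r τ ^ p * r φ)
    (hexp : r τ ^ e₀ p = 1) {α β a b : k} (ht : (r τ).trace = α + β) (hd : (r τ).det = α * β)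
    (hta : (r φ).trace = a + b) (hda : (r φ).det = a * b)
    (hstab : ∀ v : Fin 2 → k, v ≠ 0 → (∃ c : k, (r φ).mulVec v = c • v) →
      (∃ c : k, (r τ).mulVec v = c • v) → False) :
    ∃ (Q Qi : M2 k) (l : k), Q * Qi = 1 ∧ Qi * Q = 1 ∧ l ^ e₀ p = 1 ∧
      Qi * r τ * Q = !![l, 0; 0, l ^ p] := by
  obtain ⟨hroot, ht2, hl⟩ := eigen_of_frob h ht hd
  have hα0 : α ≠ 0 := fun h => det_map_ne_zero r τ (by rw [hd, h, zero_mul])
  -- the generator is not scalar
  have hns : ∀ c : k, r τ ≠ c • (1 : M2 k) := fun c hc => by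
    obtain ⟨v, hv, hvφ⟩ := exists_eigvec hta hda
    exact hstab v hv ⟨a, hvφ⟩ ⟨c, by rw [hc, Matrix.smul_mulVec, Matrix.one_mulVec]⟩
  have hne : α ≠ β := fun e => by
    refine hns α ?_
    have h := eq_one_of_trace_det (p := p) (A := α⁻¹ • r τ) (m := e₀ p) ?_ ?_ (not_dvd_e₀ p) ?_
    · rw [← h, smul_smul, mul_inv_cancel₀ hα0, one_smul]
    · rw [Matrix.trace_smul, ht, ← e, smul_eq_mul]
      field_simp
      norm_num
    · rw [Matrix.det_smul, hd, ← e, Fintype.card_fin]
      field_simp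
    · rw [smul_pow, inv_pow, hl, inv_one, one_smul, hexp]
  obtain ⟨v, hv, hAv⟩ := exists_eigvec ht hd
  obtain ⟨P, Pi, hP1, hP2, hP3⟩ := exists_basis_change hv
  obtain ⟨h10, h00⟩ := conj_upper hP2 hP3 hAv
  set A := Pi * r τ * P with hA
  have h11 : A 1 1 = β := by
    have e : A.trace = α + β := by rw [hA, Matrix.trace_mul_comm, ← mul_assoc, hP1, one_mul, ht]
    rw [Matrix.trace_fin_two, h00] at e
    linear_combination e
  have heigline : ∀ x : Fin 2 → k, (r τ).mulVec x = α • x → ∃ c : k, x = c • v :=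
    fun x => eq_smul_of_upper hP1 hP3 hA h10 h00 (Or.inl fun e => hne (e.symm.trans h11))
  have hlp : α ^ p ≠ α := fun e => by
    have eβ : β ^ p = β := by
      rw [add_pow_char, e] at ht2
      linear_combination ht2
    have hβ0 : β ≠ 0 := fun h => det_map_ne_zero r τ (by rw [hd, h, mul_zero])
    have h1 : ∀ x : k, x ≠ 0 → x ^ p = x → x ^ (p - 1) = 1 := fun x hx hxp =>
      mul_left_cancel₀ hx (by rw [mul_pow_sub_one hp.out.ne_zero, hxp, mul_one])
    have hfix : r τ ^ (p - 1) = 1 := by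
      refine eq_one_of_trace_det (p := p) (m := p + 1) ?_ ?_ ?_ ?_
      · rw [trace_pow_eq ht hd, h1 α hα0 e, h1 β hβ0 eβ]
        norm_num
      · rw [Matrix.det_pow, hd, mul_pow, h1 α hα0 e, h1 β hβ0 eβ, mul_one]
      · intro h
        exact hp.out.not_dvd_one ((Nat.dvd_add_right dvd_rfl).mp h)
      · rw [← pow_mul, mul_comm, ← e₀_eq, hexp]
    refine hstab v hv (heigline _ ?_) ⟨α, hAv⟩
    rw [← mul_pow_sub_one hp.out.ne_zero (r τ), hfix, mul_one] at h
    rw [Matrix.mulVec_mulVec, ← h, ← Matrix.mulVec_mulVec, hAv, Matrix.mulVec_smul]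
  -- diagonalise
  obtain ⟨Q, Qi, hQ1, hQ2, hQ⟩ := exists_diag hP1 hP2 hA h10 (by rwa [h00, h11])
  exact ⟨Q, Qi, α, hQ1, hQ2, hl, by rw [hQ, h00, h11, hroot.resolve_left hlp]⟩

/-! ### The dichotomy -/

omit [Finite k] [Algebra (ZMod p) k] in
/-- The dichotomy at `p`. -/
theorem flat_shape (hfin : GaloisFactorsThroughFiniteLevel r)
    (hsplit : ∀ σ, ∃ α β : k, (r σ).trace = α + β ∧ (r σ).det = α * β)
    {τ : Gal} (hτ : τ ∈ inG p) (hgen : ∀ g ∈ inG p, ∃ i : ℕ, (τ ^ i)⁻¹ * g ∈ tame p) :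
    (∃ P Pi : M2 k, P * Pi = 1 ∧ Pi * P = 1 ∧ ∀ g ∈ decG p, (Pi * r g * P) 1 0 = 0) ∨
      ∃ (P Pi : M2 k) (l : k), P * Pi = 1 ∧ Pi * P = 1 ∧ (∀ g ∈ tame p, r g = 1) ∧
        l ^ e₀ p = 1 ∧ Pi * r τ * P = !![l, 0; 0, l ^ p] := by
  by_cases hline : ∃ v : Fin 2 → k, v ≠ 0 ∧ ∀ g ∈ decG p, ∃ c : k, (r g).mulVec v = c • v
  · obtain ⟨v, hv, hstab⟩ := hline
    obtain ⟨P, Pi, hP1, hP2, hP3⟩ := exists_basis_change hv
    refine Or.inl ⟨P, Pi, hP1, hP2, fun g hg => ?_⟩
    obtain ⟨c, hc⟩ := hstab g hg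
    exact (conj_upper hP2 hP3 hc).1
  refine Or.inr ?_
  obtain ⟨L₀, hL₀, hL₀'⟩ := hfin
  have := hL₀
  have : Normal ℚ QBar := IsAlgClosure.normal ℚ QBar
  set L := IntermediateField.normalClosure ℚ L₀ QBar
  have : FiniteDimensional ℚ L := inferInstance
  have : Normal ℚ L := normalClosure.normal ℚ L₀ QBar
  have : IsGalois ℚ L := ⟨⟩
  have hnormal : L.fixingSubgroup.Normal := (InfiniteGalois.normal_iff_isGalois L).mpr ‹_›
  have hL : ∀ g : Gal, (∀ x ∈ L, g x = x) → r g = 1 := fun g hg =>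
    hL₀' g fun x hx => hg x (L₀.le_normalClosure hx)
  set H := inG p ⊓ L.fixingSubgroup
  have hH : IsLevel p H := ⟨inf_le_left, L, inferInstance, le_rfl⟩
  have hnorm : ∀ g ∈ inG p, ∀ h ∈ H, g⁻¹ * h * g ∈ H := fun g hg h hh =>
    ⟨(inG p).mul_mem ((inG p).mul_mem ((inG p).inv_mem hg) hh.1) hg, by
      simpa using hnormal.conj_mem h hh.2 g⁻¹⟩
  let χ : inG p →* M2 k := r.comp (inG p).subtype
  have hker : ∀ (h : Gal) (hh : h ∈ H), χ ⟨h, hH.le hh⟩ = 1 := fun h hh =>
    hL h ((IntermediateField.mem_fixingSubgroup_iff L h).mp hh.2)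
  obtain ⟨π, z, -, hzroot, -, -, -, hwild, hfr⟩ := exists_tame_char p hH hnorm
  obtain ⟨φ, hF⟩ := exists_isFrobeniusAt (Local.padicPlace_liesOverPrime p) hp.out
  obtain ⟨hF1, hF2⟩ := isFrobeniusAt_iff_forall_mem.mp hF
  have hφ : φ ∈ decG p := mem_decomposition_iff.mpr hF1
  have hcongr : ∀ x, nrm p x ≤ 1 → nrm p (φ x - x ^ p) < 1 := fun x hx =>
    (mem_nonunits_iff p).mp (hF2 x ((mem_place_iff p).mpr hx))
  -- a line stable under Frobenius and inertia is stable
  have hstab : ∀ v : Fin 2 → k, v ≠ 0 → (∃ c : k, (r φ).mulVec v = c • v) →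
      (∀ t ∈ inG p, ∃ c : k, (r t).mulVec v = c • v) → False := by
    rintro v hv ⟨cφ, hcφ⟩ hin
    refine hline ⟨v, hv, fun g hg => ?_⟩
    obtain ⟨i, t, ht, he⟩ := exists_frobenius_mul_inertia L hF hg
    obtain ⟨ct, hct⟩ := hin t ht
    refine ⟨ct * cφ ^ i, ?_⟩
    rw [map_eq_of_agree hL he, map_mul, map_pow, ← Matrix.mulVec_mulVec, hct, Matrix.mulVec_smul,
      mulVec_pow_eigen hcφ, smul_smul]
  -- wild inertia acts trivially, so inertia acts through the tame quotient
  have hfr' := hfr φ hφ hcongr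
  have hW : ∀ g : inG p, z g = 1 → r (g : Gal) = 1 := wild_trivial hφ z hzroot
    (fun g hg => (hwild g hg).imp fun a ha => (map_pow χ g _).symm.trans (hker _ ha))
    hfr' hsplit hstab
  have hfrob : ∀ g : inG p, r φ * r (g : Gal) = r (g : Gal) ^ p * r φ := map_frob_mul hφ z hfr' hW
  have hexp : ∀ g : inG p, χ g ^ e₀ p = 1 := fun g => by
    obtain ⟨α, β, ht, hd⟩ := hsplit (g : Gal)
    obtain ⟨m, -, hpm, hzm⟩ := hzroot g
    refine pow_e₀_of_frob (hfrob g) ht hd hpm ?_
    rw [← map_pow]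
    exact hW (g ^ m) (by rw [map_pow, hzm])
  have htame : ∀ g ∈ tame p, r g = 1 := fun g hg =>
    eq_one_of_mem_tame p χ hH hnorm hker hexp hg
  -- the generator
  obtain ⟨α, β, ht, hd⟩ := hsplit τ
  obtain ⟨a, b, hta, hda⟩ := hsplit φ
  obtain ⟨Q, Qi, l, hQ1, hQ2, hl, hQ⟩ := exists_diag_generator (hfrob ⟨τ, hτ⟩) (hexp ⟨τ, hτ⟩)
    ht hd hta hda fun v hv hφv ⟨c, hc⟩ => hstab v hv hφv fun t ht' => by
      obtain ⟨i, hi⟩ := hgen t ht'
      refine ⟨c ^ i, ?_⟩
      rw [show r t = r τ ^ i by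
        rw [← mul_one (r τ ^ i), ← htame _ hi, ← map_pow, ← map_mul, mul_inv_cancel_left]]
      exact mulVec_pow_eigen hc i
  exact ⟨Q, Qi, l, hQ1, hQ2, htame, hl, hQ⟩

end Fermat.Agent.CFT.Tangent
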