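import Fermat.Agent.CFT.Tangent.FlatModule
import Fermat.Agent.CFT.Flat.Local
import Fermat.Agent.CFT.Tangent.FlatShape

/-!
# Flat tangent classes satisfy the local bound at `p`

`finrank_le_flat`: flat classes have local defect at most one at `p`. With the coboundaries of
trace-zero matrices they localise to a space of dimension at most `4` at the decomposition group
(`finrank_localise_le`); the coboundaries give `3` minus the fixed matrices of it, so the classes
have dimension at most one plus these, modulo local coboundaries.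
-/

set_option autoImplicit false

noncomputable section

namespace Fermat.Agent.CFT.Tangent

open Fermat.Agent.Deform Fermat.Agent.Arith Fermat.Agent.CFT.Flat Module

variable {k : Type} [Field k] {p : ℕ} [hp : Fact p.Prime] [CharP k p] {r : Gal →* M2 k}

/-! ### Change of basis -/

section Conj

variable {P Pi : M2 k}

omit hp [CharP k p] in
theorem conj_mul_conj (h : P * Pi = 1) (X Y : M2 k) :
    (Pi * X * P) * (Pi * Y * P) = Pi * (X * Y) * P := by
  rw [show Pi * X * P * (Pi * Y * P) = Pi * X * (P * Pi) * Y * P by simp only [mul_assoc], h,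
    mul_one]
  simp only [mul_assoc]

omit hp [CharP k p] in
theorem trace_conj_basis (h : P * Pi = 1) (X : M2 k) : (Pi * X * P).trace = X.trace := by
  rw [Matrix.trace_mul_comm, ← mul_assoc, h, one_mul]

/-- The representation in another basis. -/
def conjR (r : Gal →* M2 k) (P Pi : M2 k) (h : P * Pi = 1) (h' : Pi * P = 1) : Gal →* M2 k where
  toFun g := Pi * r g * P
  map_one' := by rw [map_one, mul_one, h']
  map_mul' g g' := by rw [map_mul, conj_mul_conj h]

omit hp [CharP k p] in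
theorem isAdCocycle_conj (h : P * Pi = 1) (h' : Pi * P = 1) {b : Gal → M2 k}
    (hb : IsAdCocycle r b) : IsAdCocycle (conjR r P Pi h h') fun g => Pi * b g * P := fun g g' => by
  show Pi * b (g * g') * P = Pi * r g * P * (Pi * b g' * P) * (Pi * r g⁻¹ * P) + Pi * b g * P
  rw [conj_mul_conj h, conj_mul_conj h, hb, mul_add, add_mul]

omit hp [CharP k p] in
theorem det_conjR (h : P * Pi = 1) (h' : Pi * P = 1) (g : Gal) :
    (conjR r P Pi h h' g).det = (r g).det := by
  show (Pi * r g * P).det = _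
  rw [Matrix.det_mul, Matrix.det_mul, mul_comm, ← mul_assoc, ← Matrix.det_mul, h, Matrix.det_one,
    one_mul]

end Conj

variable [Finite k] [Algebra (ZMod p) k]

/-! ### Oriented bases and localised classes -/

omit [CharP k p] [Finite k] in
/-- A character on the decomposition group equal to one at the generator is trivial on inertia. -/
theorem entry_eq_one (hfin : GaloisFactorsThroughFiniteLevel r)
    (hup : ∀ g ∈ decG p, r g 1 0 = 0) {τ : Gal} (hτ : τ ∈ inG p)
    (hgen : ∀ g ∈ inG p, ∃ i : ℕ, (τ ^ i)⁻¹ * g ∈ tame p) (j : Fin 2) (hj : r τ j j = 1) :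
    ∀ g ∈ inG p, r g j j = 1 := by
  obtain ⟨L₀, hL₀, hL₀'⟩ := hfin
  set L := IntermediateField.normalClosure ℚ L₀ QBar
  have : Normal ℚ L := normalClosure.normal ℚ L₀ QBar
  have hI : inG p ≤ decG p := inG_le_decG p
  have hmul : ∀ g ∈ decG p, ∀ h ∈ decG p, r (g * h) j j = r g j j * r h j j := fun g hg h hh => by
    fin_cases j <;> simp [map_mul, Matrix.mul_apply, Fin.sum_univ_two, hup g hg, hup h hh]
  obtain ⟨htame, -⟩ := char_tame (χ := fun g => r g j j) hmul (by simp) L fun g hg _ => by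
    rw [hL₀' g fun x hx => (IntermediateField.mem_fixingSubgroup_iff _ _).mp hg x
      (L₀.le_normalClosure hx), Matrix.one_apply_eq]
  have hpow : ∀ i : ℕ, r (τ ^ i) j j = 1 := fun i => by
    induction i with
    | zero => simp
    | succ i ih => rw [pow_succ, hmul _ (hI (pow_mem hτ i)) _ (hI hτ), ih, hj, one_mul]
  intro g hg
  obtain ⟨i, hi⟩ := hgen g hg
  rw [← mul_inv_cancel_left (τ ^ i) g, hmul _ (hI (pow_mem hτ i))
    _ (hI (mul_mem (inv_mem (pow_mem hτ i)) hg)), hpow, htame _ hi, one_mul]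

/-- An upper triangular basis in which inertia is not `(1, *; 0, -1)`, given one flat class. -/
theorem exists_oriented (hp2 : p ≠ 2) (hfin : GaloisFactorsThroughFiniteLevel r)
    {b₀ : Gal → M2 k} (hb₀ : IsAdCocycle r b₀) (O : FiniteFlat.GalOrder p (TanMod hb₀))
    {τ : Gal} (hτ : τ ∈ inG p) (hgen : ∀ g ∈ inG p, ∃ i : ℕ, (τ ^ i)⁻¹ * g ∈ tame p)
    {P Pi : M2 k} (hP : P * Pi = 1) (hP' : Pi * P = 1)
    (hup : ∀ g ∈ decG p, (Pi * r g * P) 1 0 = 0) :
    ∃ (Q Qi : M2 k), Q * Qi = 1 ∧ Qi * Q = 1 ∧ (∀ g ∈ decG p, (Qi * r g * Q) 1 0 = 0) ∧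
      ¬ ((Qi * r τ * Q) 0 0 = 1 ∧ (Qi * r τ * Q) 1 1 = -1) := by
  have h2 : (2 : k) ≠ 0 := fun h =>
    hp2 ((Nat.prime_dvd_prime_iff_eq hp.out Nat.prime_two).mp
      ((CharP.cast_eq_zero_iff k p 2).mp (by simpa using h)))
  by_cases hor : (Pi * r τ * P) 0 0 = 1 ∧ (Pi * r τ * P) 1 1 = -1
  swap
  · exact ⟨P, Pi, hP, hP', hup, hor⟩
  obtain ⟨O'⟩ := exists_galOrder_conj hb₀ (isAdCocycle_conj hP hP' hb₀) P Pi hP'
    (fun g => by show P * (Pi * r g * P) = _; rw [← mul_assoc, ← mul_assoc, hP, one_mul])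
    (fun g => by show P * (Pi * b₀ g * P) = _; rw [← mul_assoc, ← mul_assoc, hP, one_mul]) O
  have hfin' : GaloisFactorsThroughFiniteLevel (conjR r P Pi hP hP') := by
    obtain ⟨L₀, hL₀, h⟩ := hfin
    exact ⟨L₀, hL₀, fun σ hσ => by show Pi * r σ * P = 1; rw [h σ hσ, mul_one, hP']⟩
  obtain ⟨s, hs⟩ := exists_swap _ hp2 O' hup hτ hor.2
    (entry_eq_one hfin' hup hτ hgen 0 hor.1)
  refine ⟨P * !![s, 1; 1, 0], !![0, 1; 1, -s] * Pi, ?_, ?_, fun g hg => ?_, ?_⟩
  · rw [mul_assoc, ← mul_assoc !![s, 1; 1, 0], show !![s, 1; 1, 0] * !![0, 1; 1, -s] = (1 : M2 k) by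
      ext i j; fin_cases i <;> fin_cases j <;> simp, one_mul, hP]
  · rw [mul_assoc, ← mul_assoc Pi, hP', one_mul]
    ext i j; fin_cases i <;> fin_cases j <;> simp
  · rw [show !![0, 1; 1, -s] * Pi * r g * (P * !![s, 1; 1, 0]) =
      !![0, 1; 1, -s] * (Pi * r g * P) * !![s, 1; 1, 0] by simp only [mul_assoc]]
    have h := hs g hg
    change (Pi * r g * P) 0 0 * s + (Pi * r g * P) 0 1 = s * (Pi * r g * P) 1 1 at h
    rw [Matrix.eta_fin_two (Pi * r g * P), hup g hg, Matrix.mul_fin_two, Matrix.mul_fin_two]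
    simp
    linear_combination h
  · rw [show !![0, 1; 1, -s] * Pi * r τ * (P * !![s, 1; 1, 0]) =
      !![0, 1; 1, -s] * (Pi * r τ * P) * !![s, 1; 1, 0] by simp only [mul_assoc],
      Matrix.eta_fin_two (Pi * r τ * P), hup τ (inG_le_decG p hτ), hor.1, hor.2,
      Matrix.mul_fin_two, Matrix.mul_fin_two]
    simp
    exact fun h _ => h2 (by linear_combination -h)

/-- Functions on the decomposition group in another basis. -/
def localise (p : ℕ) [Fact p.Prime] (P Pi : M2 k) : (Gal → M2 k) →ₗ[k] (Gal → M2 k) where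
  toFun c g := open scoped Classical in if g ∈ decG p then Pi * c g * P else 0
  map_add' c c' := funext fun g => by
    simp only [_root_.Pi.add_apply]
    split_ifs
    · rw [mul_add, add_mul]
    · rw [add_zero]
  map_smul' a c := funext fun g => by
    simp only [_root_.Pi.smul_apply, RingHom.id_apply]
    split_ifs
    · rw [mul_smul_comm, smul_mul_assoc]
    · rw [smul_zero]

omit [CharP k p] [Finite k] [Algebra (ZMod p) k] in
/-- On the decomposition group `localise` changes the basis. -/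
theorem localise_mem (P Pi : M2 k) (c : Gal → M2 k) {g : Gal} (hg : g ∈ decG p) :
    localise p P Pi c g = Pi * c g * P := by
  classical
  exact if_pos hg

omit [CharP k p] [Finite k] [Algebra (ZMod p) k] in
/-- Off the decomposition group `localise` is zero. -/
theorem localise_notMem (P Pi : M2 k) (c : Gal → M2 k) {g : Gal} (hg : g ∉ decG p) :
    localise p P Pi c g = 0 := by
  classical
  exact if_neg hg

omit [Algebra (ZMod p) k] in
/-- The localised classes and coboundaries satisfy the ramification bound. -/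
theorem isLocalClass_localise (hfin : GaloisFactorsThroughFiniteLevel r)
    (V : Submodule k (Gal → M2 k)) [Module.Finite k V]
    (hcoc : ∀ b ∈ V, IsAdCocycle r b) (hlev : ∀ b ∈ V, IsFiniteLevel b)
    (htr : ∀ b ∈ V, ∀ σ, (b σ).trace = 0)
    (hb : ∀ b ∈ V, b ≠ 0 → ∃ (ρ : GaloisRepAdic (DualNumber k))
      (B : Basis (Fin 2) (DualNumber k) ρ.V), ρ.IsFlatAt p ∧
        ∀ σ, matOf ρ B σ = (1 + epsM (b σ)) * inlM (r σ))
    {b₀ : Gal → M2 k} (hb₀ : b₀ ∈ V) (hne : b₀ ≠ 0) {P Pi : M2 k} (hP : P * Pi = 1)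
    (hP' : Pi * P = 1) {c : Gal → M2 k}
    (hc : c ∈ (V ⊔ (LinearMap.ker (Matrix.traceLinearMap (Fin 2) k k)).map (cobdLin r)).map
      (localise p P Pi)) : IsLocalClass p (conjR r P Pi hP hP') c := by
  classical
  obtain ⟨L, hLf, hLn, hL⟩ := exists_common_level hfin V hlev
  have hrinv : ∀ {g : Gal}, r g = 1 → r g⁻¹ = 1 := fun {g} h => by
    have := map_inv_mul r g
    rwa [h, mul_one] at this
  have hcobd0 : ∀ {g : Gal}, r g = 1 → ∀ X, cobdLin r X g = 0 := fun {g} h X => by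
    rw [cobdLin_apply, h, hrinv h, one_mul, mul_one, sub_self]
  -- The class is the localised conjugate of a tangent vector plus a coboundary.
  obtain ⟨w, hw, rfl⟩ := hc
  obtain ⟨b, hbV, _, ⟨X, hX, rfl⟩, rfl⟩ := Submodule.mem_sup.mp hw
  have hcc := isAdCocycle_conj hP hP' ((hcoc b hbV).add (isAdCocycle_cobdLin r X))
  refine ⟨fun g hg h hh => ?_, fun g => ?_, fun g hg => localise_notMem P Pi _ hg, ?_, ?_⟩
  · rw [localise_mem P Pi _ (mul_mem hg hh), localise_mem P Pi _ hg, localise_mem P Pi _ hh]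
    exact hcc g h
  · by_cases hg : g ∈ decG p
    · rw [localise_mem P Pi _ hg, trace_conj_basis hP, _root_.Pi.add_apply, Matrix.trace_add,
        htr b hbV, trace_cobdLin, add_zero]
    · rw [localise_notMem P Pi _ hg, Matrix.trace_zero]
  -- Flatness bounds its ramification, through the tangent module of some nonzero `b₁`.
  · obtain ⟨b₁, hb₁, hb₁ne, hkill⟩ : ∃ b₁ ∈ V, b₁ ≠ 0 ∧
        ∀ g : Gal, r g = 1 → b₁ g = 0 → b g = 0 := by
      by_cases hb0 : b = 0
      · exact ⟨b₀, hb₀, hne, fun g _ _ => by rw [hb0]; rfl⟩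
      · exact ⟨b, hbV, hb0, fun g _ h => h⟩
    obtain ⟨ρ, B, hf, hm⟩ := hb b₁ hb₁ hb₁ne
    obtain ⟨O⟩ := exists_galOrder_tanMod (hcoc b₁ hb₁) B hf hm
    refine ⟨fixM p (TanMod (hcoc b₁ hb₁)) ⊓ tame p,
      (isLevel_fixM O).inf (isLevel_fixer _), inf_le_right,
      isBdd_of_galOrder p O (tanMod_kill _), fun g hg => ?_⟩
    obtain ⟨h1, h2⟩ := eq_one_of_fix (hcoc b₁ hb₁) ((mem_fixM p _).mp hg.1).2
    by_cases hgD : g ∈ decG p
    · rw [localise_mem P Pi _ hgD, _root_.Pi.add_apply, hkill g h1 h2, hcobd0 h1,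
        add_zero, mul_zero, zero_mul]
    · exact localise_notMem P Pi _ hgD
  -- It has finite level.
  · refine ⟨L, hLf, hLn, fun g hg hgD => ?_⟩
    obtain ⟨h1, h2⟩ := hL g ((IntermediateField.mem_fixingSubgroup_iff L g).mp hg)
    rw [localise_mem P Pi _ hgD, _root_.Pi.add_apply, h2 b hbV, hcobd0 h1, add_zero,
      mul_zero, zero_mul]

/-- A basis adapted to the restriction to the decomposition group: either upper triangular with
inertia not `(1, *; 0, -1)`, or tamely ramified of level two. -/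
private theorem exists_flat_basis (hp2 : p ≠ 2) (hfin : GaloisFactorsThroughFiniteLevel r)
    (hsplit : ∀ σ, ∃ α β : k, (r σ).trace = α + β ∧ (r σ).det = α * β)
    {b₀ : Gal → M2 k} (hb₀ : IsAdCocycle r b₀) (O₀ : FiniteFlat.GalOrder p (TanMod hb₀))
    {τ : Gal} (hτ : τ ∈ inG p) (hgen : ∀ g ∈ inG p, ∃ i : ℕ, (τ ^ i)⁻¹ * g ∈ tame p) :
    ∃ P Pi : M2 k, ∃ _ : P * Pi = 1, ∃ _ : Pi * P = 1,
      ((∀ g ∈ decG p, (Pi * r g * P) 1 0 = 0) ∧
        ¬ ((Pi * r τ * P) 0 0 = 1 ∧ (Pi * r τ * P) 1 1 = -1)) ∨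
      ((∀ g ∈ tame p, r g = 1) ∧ ∃ l : k, l ^ e₀ p = 1 ∧ Pi * r τ * P = !![l, 0; 0, l ^ p]) := by
  rcases flat_shape hfin hsplit hτ hgen with ⟨P, Pi, h, h', hup⟩ | ⟨P, Pi, l, h, h', ht, hl, hd⟩
  · obtain ⟨Q, Qi, hQ, hQ', hup', hor⟩ := exists_oriented hp2 hfin hb₀ O₀ hτ hgen h h' hup
    exact ⟨Q, Qi, hQ, hQ', Or.inl ⟨hup', hor⟩⟩
  · exact ⟨P, Pi, h, h', Or.inr ⟨ht, l, hl, hd⟩⟩

omit hp [CharP k p] [Finite k] [Algebra (ZMod p) k] in
/-- If both ratios of `a` and `d` equal `a d ≠ 1` and `(a, d) ≠ (1, -1)`, then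
`(a, d) = (-1, 1)`. -/
private theorem eq_neg_one_and_eq_one {a d : k} (ha0 : a ≠ 0) (hd0 : d ≠ 0) (hne : a * d ≠ 1)
    (hor : ¬ (a = 1 ∧ d = -1)) (h1 : a / d = a * d) (h2 : d / a = a * d) : a = -1 ∧ d = 1 := by
  have hd2 : d * d = 1 := by
    rw [div_eq_iff hd0] at h1
    exact mul_left_cancel₀ ha0 (by linear_combination -h1)
  have ha2 : a * a = 1 := by
    rw [div_eq_iff ha0] at h2
    exact mul_left_cancel₀ hd0 (by linear_combination -h2)
  rcases mul_self_eq_one_iff.mp ha2 with h | h <;>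
    rcases mul_self_eq_one_iff.mp hd2 with h' | h'
  · exact absurd (by rw [h, h', one_mul]) hne
  · exact absurd ⟨h, h'⟩ hor
  · exact ⟨h, h'⟩
  · exact absurd (by rw [h, h']; norm_num) hne

omit hp [CharP k p] [Finite k] [Algebra (ZMod p) k] in
/-- In an upper triangular basis the lower entry of a coboundary is a multiple of the ratio of the
diagonal entries minus one. -/
private theorem conj_cobdLin_lower {P Pi : M2 k} (hP : P * Pi = 1) (hP' : Pi * P = 1) {g : Gal}
    (hg : conjR r P Pi hP hP' g 1 0 = 0) (hg' : conjR r P Pi hP hP' g⁻¹ 1 0 = 0) (X : M2 k) :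
    (Pi * cobdLin r X g * P) 1 0 = (Pi * X * P) 1 0 *
      (conjR r P Pi hP hP' g 1 1 / conjR r P Pi hP hP' g 0 0 - 1) := by
  set r' := conjR r P Pi hP hP' with hr'
  have e : Pi * cobdLin r X g * P = r' g * (Pi * X * P) * r' g⁻¹ - Pi * X * P := by
    rw [cobdLin_apply, mul_sub, sub_mul, hr']
    show _ = Pi * r g * P * (Pi * X * P) * (Pi * r g⁻¹ * P) - _
    rw [conj_mul_conj hP, conj_mul_conj hP]
  have hne0 : r' g 0 0 ≠ 0 := fun h0 => by
    have h5 := det_map_ne_zero r' g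
    rw [Matrix.det_fin_two, h0, hg] at h5
    simp at h5
  have hi : r' g⁻¹ 0 0 * r' g 0 0 = 1 := by
    have h5 := congrFun (congrFun (map_inv_mul r' g) 0) 0
    simpa [Matrix.mul_apply, Fin.sum_univ_two, hg] using h5
  rw [e, Matrix.sub_apply, Matrix.mul_apply, Fin.sum_univ_two, Matrix.mul_apply,
    Matrix.mul_apply, Fin.sum_univ_two, Fin.sum_univ_two, hg, hg',
    show r' g⁻¹ 0 0 = (r' g 0 0)⁻¹ from eq_inv_of_mul_eq_one_left hi]
  field_simp
  ring

omit [Algebra (ZMod p) k] in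
/-- When inertia is `(-1, *; 0, 1)`, a flat class plus a coboundary has a lower entry which is a
coboundary. -/
private theorem exists_lower_localise (hp2 : p ≠ 2) {P Pi : M2 k} (hP : P * Pi = 1)
    (hP' : Pi * P = 1) {b : Gal → M2 k} (hb : IsAdCocycle r b)
    (hO : b ≠ 0 → Nonempty (FiniteFlat.GalOrder p (TanMod hb)))
    (hup : ∀ g ∈ decG p, conjR r P Pi hP hP' g 1 0 = 0) {τ : Gal} (hτ : τ ∈ inG p)
    (ha : conjR r P Pi hP hP' τ 0 0 = -1)
    (hquot : ∀ g ∈ inG p, conjR r P Pi hP hP' g 1 1 = 1) (X : M2 k) :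
    ∃ x : k, ∀ g ∈ decG p, localise p P Pi (b + cobdLin r X) g 1 0 =
      x * (1 - conjR r P Pi hP hP' g 1 1 / conjR r P Pi hP hP' g 0 0) := by
  obtain ⟨u, hu⟩ : ∃ u : k, ∀ g ∈ decG p, (Pi * b g * P) 1 0 =
      u * (1 - conjR r P Pi hP hP' g 1 1 / conjR r P Pi hP hP' g 0 0) := by
    by_cases hb0 : b = 0
    · exact ⟨0, fun g _ => by rw [hb0]; simp⟩
    obtain ⟨O⟩ := hO hb0
    obtain ⟨O'⟩ := exists_galOrder_conj _ (isAdCocycle_conj hP hP' hb) P Pi hP'
      (fun g => by show P * (Pi * r g * P) = _; rw [← mul_assoc, ← mul_assoc, hP, one_mul])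
      (fun g => by show P * (Pi * b g * P) = _; rw [← mul_assoc, ← mul_assoc, hP, one_mul]) O
    exact exists_lower_coboundary _ hp2 O' hup hτ ha hquot
  refine ⟨u - (Pi * X * P) 1 0, fun g hg => ?_⟩
  rw [localise_mem P Pi _ hg, _root_.Pi.add_apply, mul_add, add_mul, Matrix.add_apply, hu g hg,
    conj_cobdLin_lower hP hP' (hup g hg) (hup g⁻¹ (inv_mem hg))]
  ring

/-! ### The bounds -/

/-- The local classes at `p` form a space of dimension at most four. -/
theorem finrank_localise_le (hp2 : p ≠ 2) (hfin : GaloisFactorsThroughFiniteLevel r)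
    (hcyc : ∀ (σ : Gal) (n : ℕ), (∀ μ : QBar, μ ^ p = 1 → σ μ = μ ^ n) → (r σ).det = (n : k))
    (hsplit : ∀ σ, ∃ α β : k, (r σ).trace = α + β ∧ (r σ).det = α * β)
    (V : Submodule k (Gal → M2 k)) [Module.Finite k V]
    (hcoc : ∀ b ∈ V, IsAdCocycle r b) (hlev : ∀ b ∈ V, IsFiniteLevel b)
    (htr : ∀ b ∈ V, ∀ σ, (b σ).trace = 0)
    (hb : ∀ b ∈ V, b ≠ 0 → ∃ (ρ : GaloisRepAdic (DualNumber k))
      (B : Basis (Fin 2) (DualNumber k) ρ.V), ρ.IsFlatAt p ∧
        ∀ σ, matOf ρ B σ = (1 + epsM (b σ)) * inlM (r σ))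
    {b₀ : Gal → M2 k} (hb₀ : b₀ ∈ V) (hne : b₀ ≠ 0) :
    ∃ P Pi : M2 k, P * Pi = 1 ∧ Pi * P = 1 ∧
      finrank k ((V ⊔ (LinearMap.ker (Matrix.traceLinearMap (Fin 2) k k)).map (cobdLin r)).map
        (localise p P Pi) : Submodule k (Gal → M2 k)) ≤ 4 := by
  classical
  obtain ⟨τ, hτ, hτprim, hgen⟩ := exists_tame_generator p
  have : IsAlgClosed (Res p) := residueField_isAlgClosed (padicPlace p)
  let : Algebra (ZMod p) (Res p) := ZMod.algebra _ p
  let ι : k →+* Res p := (IsAlgClosed.lift (R := ZMod p) (S := k) (M := Res p)).toRingHom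
  -- By flatness each tangent module has a Galois order, giving a basis ordinary or tame at `p`.
  have horder : ∀ b ∈ V, b ≠ 0 → ∀ hc : IsAdCocycle r b,
      Nonempty (FiniteFlat.GalOrder p (TanMod hc)) := fun b hbV hb0 hc => by
    obtain ⟨ρ, B, hf, hm⟩ := hb b hbV hb0
    exact exists_galOrder_tanMod hc B hf hm
  obtain ⟨O₀⟩ := horder b₀ hb₀ hne (hcoc b₀ hb₀)
  obtain ⟨P, Pi, hP, hP', hcase⟩ := exists_flat_basis hp2 hfin hsplit (hcoc b₀ hb₀) O₀ hτ hgen
  refine ⟨P, Pi, hP, hP', ?_⟩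
  set r' := conjR r P Pi hP hP' with hr'
  have hr'fin : GaloisFactorsThroughFiniteLevel r' := by
    obtain ⟨L₀, hL₀, h⟩ := hfin
    exact ⟨L₀, hL₀, fun σ hσ => by show Pi * r σ * P = 1; rw [h σ hσ, mul_one, hP']⟩
  have hr'cyc : ∀ (σ : Gal) (n : ℕ), (∀ μ : QBar, μ ^ p = 1 → σ μ = μ ^ n) →
      (r' σ).det = (n : k) := fun σ n h => by rw [hr', det_conjR, hcyc σ n h]
  set sl : Submodule k (M2 k) := LinearMap.ker (Matrix.traceLinearMap (Fin 2) k k)
  set U := (V ⊔ sl.map (cobdLin r)).map (localise p P Pi)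
  have : Finite U := Module.finite_of_finite k
  have hW : ∀ c ∈ U.toAddSubgroup, ∃ b ∈ V, ∃ X ∈ sl, c = localise p P Pi (b + cobdLin r X) := by
    rintro _ ⟨w, hw, rfl⟩
    obtain ⟨b, hbV, _, ⟨X, hX, rfl⟩, rfl⟩ := Submodule.mem_sup.mp hw
    exact ⟨b, hbV, X, hX, rfl⟩
  have hlocal : ∀ c ∈ U.toAddSubgroup, IsLocalClass p r' c := fun c hc =>
    isLocalClass_localise hfin V hcoc hlev htr hb hb₀ hne hP hP' hc
  -- Count the local classes in the Borel and in the torus case.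
  have hcard : Nat.card U.toAddSubgroup ≤ Nat.card k ^ 4 := by
    rcases hcase with ⟨hup, hor⟩ | ⟨htame, l, hl, hdiag⟩
    · refine natCard_le_borel hp2 hr'fin hr'cyc hup _ hlocal ι hτ hτprim hgen fun h1 h2 => ?_
      have hup' : ∀ g ∈ decG p, r' g 1 0 = 0 := hup
      have hdet : (r' τ).det = r' τ 0 0 * r' τ 1 1 := by
        rw [Matrix.det_fin_two, hup' τ (inG_le_decG p hτ), mul_zero, sub_zero]
      obtain ⟨ha0, hd0⟩ := mul_ne_zero_iff.mp (hdet ▸ det_map_ne_zero r' τ)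
      rw [hdet] at h1 h2
      have had := eq_neg_one_and_eq_one ha0 hd0
        (hdet ▸ ne_one_of_iota_eq hp2 ι hτprim (iota_det hr'cyc ι hτ)) hor h1 h2
      intro c hc
      obtain ⟨b, hbV, X, -, rfl⟩ := hW c hc
      exact exists_lower_localise hp2 hP hP' (hcoc b hbV) (fun hb0 => horder b hbV hb0 _) hup' hτ
        had.1 (entry_eq_one hr'fin hup' hτ hgen 1 had.2) X
    · refine natCard_le_torus hp2 hr'cyc _ hlocal ι hτ hτprim hgen (fun g hg => ?_) hl hdiag
      show Pi * r g * P = 1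
      rw [htame g hg, mul_one, hP']
  have h1 : Nat.card U = Nat.card k ^ finrank k U := Module.natCard_eq_pow_finrank
  rw [show Nat.card U.toAddSubgroup = Nat.card U from rfl, h1] at hcard
  exact (Nat.pow_le_pow_iff_right Finite.one_lt_card).mp hcard

omit [Algebra (ZMod p) k] in
/-- The bound at `p` for flat classes: trace zero cocycles with flat lifts have dimension at most
that of the local coboundaries among them, plus that of the local invariants, plus one. -/
theorem finrank_le_flat (hp2 : p ≠ 2) (hfin : GaloisFactorsThroughFiniteLevel r)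
    (hcyc : ∀ (σ : Gal) (n : ℕ), (∀ μ : QBar, μ ^ p = 1 → σ μ = μ ^ n) → (r σ).det = (n : k))
    (hsplit : ∀ σ, ∃ α β : k, (r σ).trace = α + β ∧ (r σ).det = α * β)
    (V : Submodule k (Gal → M2 k)) [Module.Finite k V]
    (hcoc : ∀ b ∈ V, IsAdCocycle r b) (hlev : ∀ b ∈ V, IsFiniteLevel b)
    (htr : ∀ b ∈ V, ∀ σ, (b σ).trace = 0)
    (hb : ∀ b ∈ V, b ≠ 0 → ∃ (ρ : GaloisRepAdic (DualNumber k))
      (B : Basis (Fin 2) (DualNumber k) ρ.V), ρ.IsFlatAt p ∧
        ∀ σ, matOf ρ B σ = (1 + epsM (b σ)) * inlM (r σ)) :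
    finrank k V ≤ finrank k (V ⊓ cobdOn r ((padicPlace p).decompositionSubgroup ℚ) :
        Submodule k (Gal → M2 k)) +
      finrank k (fixedOn r ((padicPlace p).decompositionSubgroup ℚ)) + 1 := by
  let := ZMod.algebra k p
  rcases eq_or_ne V ⊥ with rfl | hV
  · simp [finrank_bot]
  obtain ⟨b₀, hb₀, hne⟩ := Submodule.exists_mem_ne_zero_of_ne_bot hV
  obtain ⟨P, Pi, hP, hP', hU⟩ :=
    finrank_localise_le hp2 hfin hcyc hsplit V hcoc hlev htr hb hb₀ hne
  set sl : Submodule k (M2 k) := LinearMap.ker (Matrix.traceLinearMap (Fin 2) k k)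
  set Φ := localise p P Pi
  have hΦ : ∀ (c c' : Gal → M2 k), Φ c = Φ c' → ∀ g ∈ decG p, c g = c' g := fun c c' h g hg => by
    have e := congrFun h g
    rw [localise_mem P Pi c hg, localise_mem P Pi c' hg] at e
    have e' := congrArg (fun Z => P * Z * Pi) e
    simp only [← mul_assoc, hP, one_mul] at e'
    simpa [mul_assoc, hP] using e'
  -- coboundaries
  set f₀ : sl →ₗ[k] (Gal → M2 k) := Φ.comp ((cobdLin r).comp sl.subtype) with hf₀
  have hker : finrank k (LinearMap.ker f₀) ≤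
      finrank k (fixedOn r ((padicPlace p).decompositionSubgroup ℚ)) := by
    rw [← (Submodule.equivSubtypeMap sl (LinearMap.ker f₀)).finrank_eq.symm]
    refine Submodule.finrank_mono ?_
    rintro _ ⟨X, hX, rfl⟩
    refine ⟨LinearMap.mem_ker.mp X.2, fun s hs => ?_⟩
    have := hΦ (cobdLin r (X : M2 k)) 0 (by rw [map_zero]; exact LinearMap.mem_ker.mp hX) s hs
    exact sub_eq_zero.mp this
  have hsl : finrank k sl = 3 := by
    have h1 := (Matrix.traceLinearMap (Fin 2) k k).finrank_range_add_finrank_ker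
    have hsurj : LinearMap.range (Matrix.traceLinearMap (Fin 2) k k) = ⊤ :=
      LinearMap.range_eq_top.mpr fun c => ⟨!![c, 0; 0, 0], by simp [Matrix.trace_fin_two]⟩
    rw [hsurj, finrank_top, Module.finrank_self, Module.finrank_matrix, Fintype.card_fin,
      Module.finrank_self] at h1
    exact Nat.add_left_cancel (n := 1) h1
  have h3 := f₀.finrank_range_add_finrank_ker
  rw [hsl] at h3
  -- the classes modulo coboundaries
  set U := (V ⊔ sl.map (cobdLin r)).map Φ
  set U₀ := LinearMap.range f₀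
  have hU₀ : U₀ ≤ U := by
    rintro _ ⟨X, rfl⟩
    exact ⟨cobdLin r X, Submodule.mem_sup_right ⟨X, X.2, rfl⟩, rfl⟩
  set π := U₀.mkQ.comp U.subtype
  have hπker : finrank k (LinearMap.ker π) = finrank k U₀ := by
    rw [LinearMap.ker_comp, show LinearMap.ker U₀.mkQ = U₀ from U₀.ker_mkQ]
    exact ((Submodule.equivSubtypeMap U _).trans
      (LinearEquiv.ofEq _ _ (by rw [Submodule.map_comap_subtype, inf_eq_right.mpr hU₀]))).finrank_eq
  have h4 := π.finrank_range_add_finrank_ker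
  set Λ : V →ₗ[k] (Gal → M2 k) ⧸ U₀ := U₀.mkQ.comp (Φ.comp V.subtype)
  have h5 : finrank k (LinearMap.range Λ) ≤ finrank k (LinearMap.range π) := by
    refine Submodule.finrank_mono ?_
    rintro _ ⟨b, rfl⟩
    exact ⟨⟨Φ b, ⟨b, Submodule.mem_sup_left b.2, rfl⟩⟩, rfl⟩
  have h6 : finrank k (LinearMap.ker Λ) ≤
      finrank k (V ⊓ cobdOn r ((padicPlace p).decompositionSubgroup ℚ) :
        Submodule k (Gal → M2 k)) := by
    rw [← (Submodule.equivSubtypeMap V (LinearMap.ker Λ)).finrank_eq.symm]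
    refine Submodule.finrank_mono ?_
    rintro _ ⟨b, hb', rfl⟩
    obtain ⟨X, hX⟩ := (Submodule.Quotient.mk_eq_zero _).mp (LinearMap.mem_ker.mp hb')
    exact ⟨b.2, X, LinearMap.mem_ker.mp X.2, fun s hs =>
      (hΦ (cobdLin r (X : M2 k)) b hX s hs).symm⟩
  have h7 := Λ.finrank_range_add_finrank_ker
  omega

end Fermat.Agent.CFT.Tangent
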