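import Fermat.Agent.CFT.Flat.Coset
import Fermat.Agent.CFT.Tangent.LocalBasic
import Fermat.Agent.CFT.Tangent.Dual
import Fermat.Agent.RT.Glue.FlatDescent

/-!
# The module of a first order deformation and its connected part

The plane over the dual numbers with the action deformed by a class; when it carries a Galois
order and the residual action is `(ω, *; 0, 1)` on inertia, the connected part is a free line,
so the lower left entry of the class is a coboundary.
-/

set_option autoImplicit false

noncomputable section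

namespace Fermat.Agent.CFT.Tangent

open Fermat.Agent.Deform Fermat.Agent.FiniteFlat Fermat.Agent.CFT.Flat Module

variable {k : Type} [Field k] {r : Gal →* M2 k} {b : Gal → M2 k}

/-- The plane over the dual numbers, as pairs (value, infinitesimal part). -/
def TanMod (_hb : IsAdCocycle r b) : Type := (Fin 2 → k) × (Fin 2 → k)

variable (hb : IsAdCocycle r b)

instance : AddCommGroup (TanMod hb) := inferInstanceAs (AddCommGroup ((Fin 2 → k) × (Fin 2 → k)))

instance [Finite k] : Finite (TanMod hb) :=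
  inferInstanceAs (Finite ((Fin 2 → k) × (Fin 2 → k)))

/-- A pair as an element of the module. -/
def TanMod.mk (x y : Fin 2 → k) : TanMod hb := (x, y)

instance : DistribMulAction Gal (TanMod hb) where
  smul σ m := TanMod.mk hb ((r σ).mulVec m.1) ((r σ).mulVec m.2 + (b σ * r σ).mulVec m.1)
  one_smul m := by
    refine Prod.ext ?_ ?_
    · show (r 1).mulVec m.1 = m.1
      rw [map_one, Matrix.one_mulVec]
    · show (r 1).mulVec m.2 + (b 1 * r 1).mulVec m.1 = m.2
      rw [map_one, Matrix.one_mulVec, hb.one, zero_mul, Matrix.zero_mulVec, add_zero]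
  mul_smul σ τ m := by
    refine Prod.ext ?_ ?_
    · show (r (σ * τ)).mulVec m.1 = (r σ).mulVec ((r τ).mulVec m.1)
      rw [map_mul, Matrix.mulVec_mulVec]
    · show (r (σ * τ)).mulVec m.2 + (b (σ * τ) * r (σ * τ)).mulVec m.1 =
        (r σ).mulVec ((r τ).mulVec m.2 + (b τ * r τ).mulVec m.1) +
          (b σ * r σ).mulVec ((r τ).mulVec m.1)
      rw [Matrix.mulVec_add, Matrix.mulVec_mulVec, Matrix.mulVec_mulVec, Matrix.mulVec_mulVec,
        map_mul, add_assoc, ← Matrix.add_mulVec]
      congr 2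
      rw [hb, add_mul, mul_assoc (r σ * b τ), ← mul_assoc (r σ⁻¹), map_inv_mul, one_mul]
      simp only [mul_assoc]
  smul_zero σ := by
    refine Prod.ext ?_ ?_
    · show (r σ).mulVec 0 = 0
      rw [Matrix.mulVec_zero]
    · show (r σ).mulVec 0 + (b σ * r σ).mulVec 0 = 0
      rw [Matrix.mulVec_zero, Matrix.mulVec_zero, add_zero]
  smul_add σ m n := by
    refine Prod.ext ?_ ?_
    · show (r σ).mulVec (m.1 + n.1) = (r σ).mulVec m.1 + (r σ).mulVec n.1
      rw [Matrix.mulVec_add]
    · show (r σ).mulVec (m.2 + n.2) + (b σ * r σ).mulVec (m.1 + n.1) =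
        ((r σ).mulVec m.2 + (b σ * r σ).mulVec m.1) + ((r σ).mulVec n.2 + (b σ * r σ).mulVec n.1)
      rw [Matrix.mulVec_add, Matrix.mulVec_add]
      abel

theorem TanMod.smul_mk (σ : Gal) (x y : Fin 2 → k) :
    σ • TanMod.mk hb x y =
      TanMod.mk hb ((r σ).mulVec x) ((r σ).mulVec y + (b σ * r σ).mulVec x) := rfl

theorem TanMod.mk_sub (x y x' y' : Fin 2 → k) :
    TanMod.mk hb x y - TanMod.mk hb x' y' = TanMod.mk hb (x - x') (y - y') := rfl

theorem tanMod_kill {p : ℕ} [CharP k p] (m : TanMod hb) : p • m = 0 := by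
  have h : ∀ x : Fin 2 → k, p • x = 0 := fun x => by
    rw [← Nat.cast_smul_eq_nsmul k, CharP.cast_eq_zero, zero_smul]
  exact Prod.ext (h _) (h _)

/-- Elements acting trivially have trivial residual matrix and class. -/
theorem eq_one_of_fix {g : Gal} (h : ∀ m : TanMod hb, g • m = m) : r g = 1 ∧ b g = 0 := by
  have h1 : r g = 1 := by
    refine Matrix.toLin'.injective (LinearMap.ext fun x => ?_)
    rw [Matrix.toLin'_apply, Matrix.toLin'_one, LinearMap.id_apply]
    exact congrArg (fun m : TanMod hb => m.1) (h (TanMod.mk hb x 0))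
  refine ⟨h1, Matrix.toLin'.injective (LinearMap.ext fun x => ?_)⟩
  have h2 := congrArg (fun m : TanMod hb => m.2) (h (TanMod.mk hb x 0))
  rw [TanMod.smul_mk] at h2
  change (r g).mulVec 0 + (b g * r g).mulVec x = 0 at h2
  rw [h1, Matrix.mulVec_zero, zero_add, mul_one] at h2
  rw [Matrix.toLin'_apply, map_zero, LinearMap.zero_apply]
  exact h2

variable {p : ℕ} [hp : Fact p.Prime]

omit hp in
/-- A flat first order deformation gives an order on its module. -/
theorem exists_galOrder_tanMod [Finite k] {ρ : GaloisRepAdic (DualNumber k)}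
    (B : Basis (Fin 2) (DualNumber k) ρ.V) (hflat : ρ.IsFlatAt p)
    (hB : ∀ σ, matOf ρ B σ = (1 + epsM (b σ)) * inlM (r σ)) :
    Nonempty (GalOrder p (TanMod hb)) := by
  have : Finite (DualNumber k) := inferInstanceAs (Finite (k × k))
  have : Finite (DualNumber k ⧸ (⊥ : Ideal (DualNumber k))) :=
    Finite.of_surjective _ Ideal.Quotient.mk_surjective
  obtain ⟨H, _, _, _, _, _, e, he, heσ⟩ := hflat.2 ⊥ inferInstance
  let q : (ρ.V ⧸ ((⊥ : Ideal (DualNumber k)) • (⊤ : Submodule (DualNumber k) ρ.V))) ≃+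
      (Fin 2 → DualNumber k) :=
    ((Submodule.quotEquivOfEqBot _ (Submodule.bot_smul _)).trans B.equivFun).toAddEquiv
  let sp : (Fin 2 → DualNumber k) ≃+ TanMod hb :=
    { toFun := fun v => TanMod.mk hb (fun i => TrivSqZeroExt.fst (v i))
        (fun i => TrivSqZeroExt.snd (v i))
      invFun := fun m i => (m.1 i, m.2 i)
      left_inv := fun v => funext fun i => rfl
      right_inv := fun m => rfl
      map_add' := fun v w => rfl }
  refine RT.Glue.nonempty_galOrder_of_hopf (e.trans (q.trans sp).toEquiv)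
    (fun f g => ?_) fun σ f g hfg => ?_
  · show (q.trans sp) (e (f * g)) = (q.trans sp) (e f) + (q.trans sp) (e g)
    rw [he, map_add]
  · show sp (q (e g)) = σ • sp (q (e f))
    rw [heσ σ f g hfg]
    obtain ⟨v, hv⟩ := Submodule.Quotient.mk_surjective _ (e f)
    rw [← hv]
    show sp (B.equivFun (ρ.ρ σ v)) = σ • sp (B.equivFun v)
    have hmv : B.equivFun (ρ.ρ σ v) =
        ((1 + epsM (b σ)) * inlM (r σ)).mulVec (B.equivFun v) := by
      rw [← hB]
      exact (LinearMap.toMatrix_mulVec_repr B B (ρ.ρ σ) v).symm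
    rw [hmv]
    generalize B.equivFun v = w
    show TanMod.mk hb _ _ = σ • TanMod.mk hb _ _
    rw [TanMod.smul_mk]
    congr 1 <;> funext i <;> fin_cases i <;>
      simp [Matrix.mulVec, dotProduct, Fin.sum_univ_two, Matrix.mul_apply, epsM, inlM] <;> ring

omit hp in
/-- Transport of an order under conjugation. -/
theorem exists_galOrder_conj {r' : Gal →* M2 k} {b' : Gal → M2 k} (hb' : IsAdCocycle r' b')
    (P Pi : M2 k) (hPi : Pi * P = 1) (hr : ∀ g, P * r' g = r g * P)
    (hbb : ∀ g, P * b' g = b g * P) (O : GalOrder p (TanMod hb)) :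
    Nonempty (GalOrder p (TanMod hb')) := by
  let i : TanMod hb' →+ TanMod hb :=
    AddMonoidHom.mk' (fun m => TanMod.mk hb (P.mulVec m.1) (P.mulVec m.2)) fun m n =>
      Prod.ext (Matrix.mulVec_add P m.1 n.1) (Matrix.mulVec_add P m.2 n.2)
  have hi : Function.Injective i := fun m n h => by
    have h1 := congrArg (fun z : TanMod hb => Pi.mulVec z.1) h
    have h2 := congrArg (fun z : TanMod hb => Pi.mulVec z.2) h
    change Pi.mulVec (P.mulVec m.1) = Pi.mulVec (P.mulVec n.1) at h1
    change Pi.mulVec (P.mulVec m.2) = Pi.mulVec (P.mulVec n.2) at h2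
    rw [Matrix.mulVec_mulVec, Matrix.mulVec_mulVec, hPi, Matrix.one_mulVec,
      Matrix.one_mulVec] at h1 h2
    exact Prod.ext h1 h2
  refine ⟨O.restrict i hi fun σ m => Prod.ext ?_ ?_⟩
  · show P.mulVec ((r' σ).mulVec m.1) = (r σ).mulVec (P.mulVec m.1)
    rw [Matrix.mulVec_mulVec, Matrix.mulVec_mulVec, hr]
  · show P.mulVec ((r' σ).mulVec m.2 + (b' σ * r' σ).mulVec m.1) =
      (r σ).mulVec (P.mulVec m.2) + (b σ * r σ).mulVec (P.mulVec m.1)
    rw [Matrix.mulVec_add, Matrix.mulVec_mulVec, Matrix.mulVec_mulVec, Matrix.mulVec_mulVec,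
      Matrix.mulVec_mulVec, hr, ← mul_assoc P, hbb, mul_assoc (b σ) P, hr, ← mul_assoc (b σ)]

variable [Finite k] [CharP k p]

/-- The lower left entry of a class on a module with an order is a coboundary, when inertia acts
on the residual line through `-1` at a generator and trivially on the quotient. -/
theorem exists_lower_coboundary (hp2 : p ≠ 2) (O : GalOrder p (TanMod hb))
    (hup : ∀ g ∈ decG p, r g 1 0 = 0) {τ : Gal} (hτ : τ ∈ inG p) (h00 : r τ 0 0 = -1)
    (hquot : ∀ g ∈ inG p, r g 1 1 = 1) :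
    ∃ u : k, ∀ g ∈ decG p, b g 1 0 = u * (1 - r g 1 1 / r g 0 0) := by
  classical
  have := Fintype.ofFinite (TanMod hb)
  have h2 : (2 : k) ≠ 0 := fun h =>
    hp2 ((Nat.prime_dvd_prime_iff_eq hp.out Nat.prime_two).mp
      ((CharP.cast_eq_zero_iff k p 2).mp (by simpa using h)))
  have hkill : ∀ m : TanMod hb, p • m = 0 := tanMod_kill hb
  have hdI : inG p ≤ decG p := inG_le_decG p
  have hrv : ∀ g ∈ decG p, ∀ x : Fin 2 → k,
      (r g).mulVec x = ![r g 0 0 * x 0 + r g 0 1 * x 1, r g 1 1 * x 1] := fun g hg x => by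
    funext i
    fin_cases i <;> simp [Matrix.mulVec, dotProduct, Fin.sum_univ_two, hup g hg]
  -- the infinitesimal copy of the residual line, a submodule stable under inertia
  let lineInf : AddSubgroup (TanMod hb) :=
    { carrier := {m | m.1 = 0 ∧ m.2 1 = 0}
      zero_mem' := ⟨rfl, rfl⟩
      add_mem' := fun {a c} ha hc => ⟨by
        show a.1 + c.1 = 0
        rw [ha.1, hc.1, add_zero], by
        show a.2 1 + c.2 1 = 0
        rw [ha.2, hc.2, add_zero]⟩
      neg_mem' := fun {a} ha => ⟨by
        show -a.1 = 0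
        rw [ha.1, neg_zero], by
        show -(a.2 1) = 0
        rw [ha.2, neg_zero]⟩ }
  -- inertia is trivial on the quotient, so the infinitesimal part of the connected part lies
  -- in that line
  have hconnSnd : ∀ y : Fin 2 → k, TanMod.mk hb 0 y ∈ conn O → y 1 = 0 := fun y hy => by
    refine (mem_of_fixed_coset O hp2 hkill lineInf (fun σ hσ l hl => ⟨?_, ?_⟩) hy
      (fun σ hσ => ⟨?_, ?_⟩) : TanMod.mk hb 0 y ∈ lineInf).2
    · show (r σ).mulVec l.1 = 0
      rw [hl.1, Matrix.mulVec_zero]
    · show ((r σ).mulVec l.2 + (b σ * r σ).mulVec l.1) 1 = 0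
      rw [hl.1, Matrix.mulVec_zero, add_zero, hrv σ (hdI hσ)]
      simp [hl.2]
    · show (r σ).mulVec 0 - 0 = 0
      rw [Matrix.mulVec_zero, sub_zero]
    · show ((r σ).mulVec y + (b σ * r σ).mulVec 0 - y) 1 = 0
      rw [Matrix.mulVec_zero, add_zero, hrv σ (hdI hσ)]
      simp [hquot σ hσ]
  -- applying `τ - 1` to `(-x / 2, 0)` puts a lift of `(x, 0)` in the connected part; `u` is the
  -- slope of its infinitesimal part
  set u : k := (-(2 : k)⁻¹) * (b τ * r τ) 1 0
  set w : k := (-(2 : k)⁻¹) * (b τ * r τ) 0 0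
  have hconnLift : ∀ x : k, TanMod.mk hb ![x, 0] ![x * w, x * u] ∈ conn O := fun x => by
    have h := smul_sub_mem_conn (O := O) hτ (TanMod.mk hb ![-x / 2, 0] 0)
    rw [TanMod.smul_mk, TanMod.mk_sub, Matrix.mulVec_zero, sub_zero, zero_add,
      hrv τ (hdI hτ)] at h
    convert h using 2
    · funext i
      fin_cases i
      · simp [h00]; field_simp; ring
      · simp
    · funext i
      fin_cases i <;>
        simp [u, w, Matrix.mulVec, dotProduct, Fin.sum_univ_two] <;> field_simp
  -- `g` carries the lift of `1` to that of `r g 0 0` up to an element with first part zero,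
  -- whose lower coordinate vanishes: this is the formula for `b g 1 0`
  refine ⟨u, fun g hg => ?_⟩
  have hm := smul_mem_conn (O := O) hg (hconnLift 1)
  rw [TanMod.smul_mk] at hm
  have hdiff := (conn O).sub_mem hm (hconnLift (r g 0 0))
  rw [TanMod.mk_sub] at hdiff
  have hfst : (r g).mulVec ![(1 : k), 0] - ![r g 0 0, 0] = 0 := by
    rw [hrv g hg]
    funext i
    fin_cases i <;> simp
  rw [hfst] at hdiff
  have hentry := hconnSnd _ hdiff
  simp [hrv g hg, Fin.sum_univ_two, Matrix.mul_apply, hup g hg] at hentry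
  have hne : r g 0 0 ≠ 0 := fun h => by
    have h5 := det_map_ne_zero r g
    rw [Matrix.det_fin_two, h, hup g hg] at h5
    simp at h5
  field_simp
  linear_combination hentry

/-- When inertia fixes the line pointwise and acts by `-1` on the quotient, the residual action
splits. -/
theorem exists_swap (hp2 : p ≠ 2) (O : GalOrder p (TanMod hb))
    (hup : ∀ g ∈ decG p, r g 1 0 = 0) {τ : Gal} (hτ : τ ∈ inG p)
    (h11 : r τ 1 1 = -1) (hline : ∀ g ∈ inG p, r g 0 0 = 1) :
    ∃ s : k, ∀ g ∈ decG p, r g 0 0 * s + r g 0 1 = s * r g 1 1 := by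
  classical
  have := Fintype.ofFinite (TanMod hb)
  have h2 : (2 : k) ≠ 0 := fun h =>
    hp2 ((Nat.prime_dvd_prime_iff_eq hp.out Nat.prime_two).mp
      ((CharP.cast_eq_zero_iff k p 2).mp (by simpa using h)))
  have hkill : ∀ m : TanMod hb, p • m = 0 := tanMod_kill hb
  have hdI : inG p ≤ decG p := inG_le_decG p
  have hrv : ∀ g ∈ decG p, ∀ x : Fin 2 → k,
      (r g).mulVec x = ![r g 0 0 * x 0 + r g 0 1 * x 1, r g 1 1 * x 1] := fun g hg x => by
    funext i
    fin_cases i <;> simp [Matrix.mulVec, dotProduct, Fin.sum_univ_two, hup g hg]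
  set s : k := -(r τ 0 1) / 2 with hs
  -- `τ - 1` puts the `-1` eigenline `(s, 1)` of `τ` in the connected part
  have hconnLine : ∀ t : k, TanMod.mk hb 0 ![t * s, t] ∈ conn O := fun t => by
    have h := smul_sub_mem_conn (O := O) hτ (TanMod.mk hb 0 ![0, -t / 2])
    rw [TanMod.smul_mk, TanMod.mk_sub, Matrix.mulVec_zero, Matrix.mulVec_zero, sub_zero,
      add_zero, hrv τ (hdI hτ)] at h
    convert h using 2
    funext i
    fin_cases i
    · simp [hs]; field_simp
    · simp [h11]; field_simp; ring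
  -- the residual line is fixed by inertia, so it meets the connected part in zero
  have hconnZero : ∀ y : k, TanMod.mk hb 0 ![y, 0] ∈ conn O → y = 0 := fun y hy => by
    have h := mem_of_fixed_coset O hp2 hkill (⊥ : AddSubgroup (TanMod hb))
      (fun σ _ l hl => by rw [AddSubgroup.mem_bot.mp hl, smul_zero]; exact zero_mem _) hy
      fun σ hσ => by
        rw [AddSubgroup.mem_bot, TanMod.smul_mk, TanMod.mk_sub, Matrix.mulVec_zero,
          Matrix.mulVec_zero, sub_zero, add_zero, hrv σ (hdI hσ)]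
        refine Prod.ext rfl ?_
        funext i
        fin_cases i <;> simp [TanMod.mk, hline σ hσ] <;> rfl
    exact congrFun (congrArg (fun m : TanMod hb => m.2) (AddSubgroup.mem_bot.mp h)) 0
  -- so `g` maps `(s, 1)` into its own line
  refine ⟨s, fun g hg => ?_⟩
  have hm := smul_mem_conn (O := O) hg (hconnLine 1)
  rw [TanMod.smul_mk] at hm
  have hdiff := (conn O).sub_mem hm (hconnLine (r g 1 1))
  rw [TanMod.mk_sub] at hdiff
  have hsecond : (r g).mulVec ![1 * s, 1] + (b g * r g).mulVec 0 - ![r g 1 1 * s, r g 1 1] =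
      ![r g 0 0 * s + r g 0 1 - s * r g 1 1, 0] := by
    rw [hrv g hg, Matrix.mulVec_zero, add_zero]
    funext i
    fin_cases i <;> simp [mul_comm]
  rw [hsecond, Matrix.mulVec_zero, sub_zero] at hdiff
  exact sub_eq_zero.mp (hconnZero _ hdiff)

end Fermat.Agent.CFT.Tangent
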