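import Fermat.Agent.CFT.Tangent.LocalPlace
import Fermat.Agent.CFT.Local.PowIndex
import Fermat.Agent.Mazur.Eisenstein.CycInertia

/-!
Cocycles of a decomposition group at `p` with values in the cyclotomic character: at most two
classes.
-/

set_option autoImplicit false

noncomputable section

namespace Fermat.Agent.CFT.Tangent

open Fermat.Agent.Deform Fermat.Agent.Arith Module

variable {p : ℕ} [Fact p.Prime] {k : Type} [Field k] [Finite k] [CharP k p]

/-- Scalar coboundaries of a character on a decomposition group. -/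
def scalarCobdOn (a : Gal → k) (D : Subgroup Gal) : Submodule k (Gal → k) where
  carrier := {β | ∃ c : k, ∀ s ∈ D, β s = (a s - 1) * c}
  add_mem' := by
    rintro β γ ⟨c, hc⟩ ⟨c', hc'⟩
    exact ⟨c + c', fun s hs => by rw [Pi.add_apply, hc s hs, hc' s hs]; ring⟩
  zero_mem' := ⟨0, fun s _ => by simp⟩
  smul_mem' := by
    rintro x β ⟨c, hc⟩
    exact ⟨x * c, fun s hs => by rw [Pi.smul_apply, hc s hs, smul_eq_mul]; ring⟩

section Embed

variable (L : IntermediateField ℚ QBar)

/-- `ℚ_p`, inside the completion. -/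
def qpIncl : (⊥ : IntermediateField ℚ_[p] (PadicAlgCl p))ˣ →* (Local.localField p L)ˣ :=
  Units.map (IntermediateField.inclusion
    (bot_le : (⊥ : IntermediateField ℚ_[p] (PadicAlgCl p)) ≤ Local.localField p L)).toMonoidHom

theorem algEquiv_qpIncl (g : Local.localField p L ≃ₐ[ℚ_[p]] Local.localField p L)
    (u : (⊥ : IntermediateField ℚ_[p] (PadicAlgCl p))ˣ) :
    g • qpIncl L u = qpIncl L u := by
  obtain ⟨a, ha⟩ := IntermediateField.mem_bot.mp
    (u : (⊥ : IntermediateField ℚ_[p] (PadicAlgCl p))).2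
  have h : ((qpIncl L u : (Local.localField p L)ˣ) : Local.localField p L) =
      algebraMap ℚ_[p] (Local.localField p L) a := Subtype.ext ha.symm
  refine Units.ext ?_
  show g (qpIncl L u : Local.localField p L) = qpIncl L u
  rw [h, AlgEquiv.commutes]

theorem exists_qpIncl_eq [Normal ℚ L] [FiniteDimensional ℚ L] (x : (Local.localField p L)ˣ)
    (hx : ∀ g : Local.localField p L ≃ₐ[ℚ_[p]] Local.localField p L, g • x = x) :
    ∃ u, qpIncl L u = x := by
  have : IsGalois ℚ_[p] (Local.localField p L) := ⟨⟩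
  obtain ⟨a, ha⟩ := (IsGalois.mem_range_algebraMap_iff_fixed (F := ℚ_[p])
    (x : Local.localField p L)).mpr fun g => congrArg Units.val (hx g)
  have ha0 : algebraMap ℚ_[p] (⊥ : IntermediateField ℚ_[p] (PadicAlgCl p)) a ≠ 0 := by
    intro h0
    rw [map_eq_zero] at h0
    exact x.ne_zero (by rw [← ha, h0, map_zero])
  exact ⟨Units.mk0 _ ha0, Units.ext (Subtype.ext (congrArg Subtype.val ha))⟩

end Embed

/-- `ℚ_p` has no nontrivial `p`-th root of unity, `p` odd: some inertia element of a level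
containing `ζ` inverts `ζ`. -/
private theorem root_unity_bot_eq_one (hp2 : p ≠ 2) (L : IntermediateField ℚ QBar) [Normal ℚ L]
    [FiniteDimensional ℚ L] {ζ : QBar} (hζ : IsPrimitiveRoot ζ p) (hζL : ζ ∈ L) :
    ∀ ξ : (⊥ : IntermediateField ℚ_[p] (PadicAlgCl p)), ξ ^ p = 1 → ξ = 1 := by
  classical
  intro ξ hξ
  have hp : p.Prime := Fact.out
  set E := Local.localField p L
  have hcomm : ∀ (s : Gal) (x : L),
      ((AlgEquiv.restrictNormalHom L s x : L) : QBar) = s (x : QBar) :=
    fun s x => AlgEquiv.restrictNormal_commutes s L x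
  let ζE : E := Local.localEmb p L ⟨ζ, hζL⟩
  have hζE : IsPrimitiveRoot ζE p :=
    IsPrimitiveRoot.map_of_injective (f := Local.localEmb p L)
      (IsPrimitiveRoot.coe_submonoidClass_iff.mp hζ) (Local.localEmb p L).injective
  by_contra hne
  obtain ⟨σ, hσI, hσ⟩ := Mazur.Eisenstein.exists_inertia_inv
    (Local.padicPlace_liesOverPrime p) hp 1
  obtain ⟨s, hs, hsg⟩ := Local.exists_mem_inertia_of_inertia p L hσI
  obtain ⟨b, hb⟩ := IntermediateField.mem_bot.mp ξ.2
  have hξE : (algebraMap ℚ_[p] E b) ^ p = 1 := Subtype.ext (by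
    show (algebraMap ℚ_[p] (PadicAlgCl p) b) ^ p = 1
    rw [hb]; exact congrArg Subtype.val hξ)
  obtain ⟨j, hj, hjb⟩ := hζE.eq_pow_of_pow_eq_one hξE
  have h1 : s (ζE ^ j) = ζE ^ j := by rw [hjb, AlgEquiv.commutes]
  have h2 : s ζE = ζE⁻¹ := by
    rw [← Local.localEmb_toGlobal, hsg, ← map_inv₀]
    congr 1
    refine Subtype.ext ((hcomm σ ⟨ζ, hζL⟩).trans ?_)
    show σ ζ = ((⟨ζ, hζL⟩⁻¹ : L) : QBar)
    rw [hσ ζ (by rw [pow_one, hζ.pow_eq_one])]
    rfl
  rw [map_pow, h2, inv_pow] at h1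
  have h3 : ζE ^ (j + j) = 1 := by
    rw [pow_add]; nth_rewrite 1 [← h1]
    exact inv_mul_cancel₀ (pow_ne_zero _ (hζE.ne_zero hp.ne_zero))
  have h4 : p ∣ j + j := (hζE.pow_eq_one_iff_dvd _).mp h3
  rw [← two_mul] at h4
  rcases hp.dvd_mul.mp h4 with h | h
  · exact hp2 ((Nat.prime_dvd_prime_iff_eq hp Nat.prime_two).mp h)
  · rw [Nat.eq_zero_of_dvd_of_lt h hj, pow_zero] at hjb
    refine hne (Subtype.ext ?_)
    rw [← hb]
    exact congrArg Subtype.val hjb.symm

omit [Finite k] [CharP k p] in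
/-- Units whose `p`-th powers come from congruent elements of `ℚ_p` modulo `p`-th powers differ by
a root of unity and an element of `ℚ_p`. -/
private theorem exists_eq_mul_pow [NeZero p] (L : IntermediateField ℚ QBar)
    {ζE : Local.localField p L} (hζE : IsPrimitiveRoot ζE p)
    {y y' : (Local.localField p L)ˣ} {u u' : (⊥ : IntermediateField ℚ_[p] (PadicAlgCl p))ˣ}
    (hu : qpIncl L u = y ^ p) (hu' : qpIncl L u' = y' ^ p)
    (h : (QuotientGroup.mk u : _ ⧸ (powMonoidHom p).range) = QuotientGroup.mk u') :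
    ∃ (c : ℕ) (w : (⊥ : IntermediateField ℚ_[p] (PadicAlgCl p))ˣ),
      y = y' * (hζE.toRootsOfUnity : (Local.localField p L)ˣ) ^ c * qpIncl L w := by
  obtain ⟨w, hw⟩ := MonoidHom.mem_range.mp (QuotientGroup.eq.mp h)
  rw [powMonoidHom_apply] at hw
  have h1 : (y * qpIncl L w / y') ^ p = 1 := by
    rw [div_pow, mul_pow, ← map_pow, hw, map_mul, map_inv, hu, hu', mul_inv_cancel_left, div_self']
  obtain ⟨c, -, hc⟩ := hζE.eq_pow_of_pow_eq_one
    (ξ := ((y * qpIncl L w / y' : (Local.localField p L)ˣ) : Local.localField p L))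
    (by rw [← Units.val_pow_eq_pow_val, h1, Units.val_one])
  refine ⟨c, w⁻¹, ?_⟩
  have hc' : (hζE.toRootsOfUnity : (Local.localField p L)ˣ) ^ c = y * qpIncl L w / y' :=
    Units.ext (by rw [Units.val_pow_eq_pow_val]; exact hc)
  rw [hc', map_inv, mul_div_cancel, mul_inv_cancel_right]

omit [CharP k p] in
/-- A space mapping to `d` coordinates of a group of order `p ^ 2`, equal values differing inside
`S`, has dimension at most two more than its part in `S`. -/
private theorem finrank_le_add_two {V : Type*} [AddCommGroup V] [Module k V] (Z S : Submodule k V)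
    [Module.Finite k Z] [Algebra (ZMod p) k] {Q : Type*}
    (Θ : Z → (Fin (finrank (ZMod p) k) → Q)) (hQ : Nat.card Q = p ^ 2)
    (hkey : ∀ β β' : Z, Θ β = Θ β' → ((β : V) - (β' : V)) ∈ S) :
    finrank k Z ≤ finrank k (Z ⊓ S : Submodule k V) + 2 := by
  have hp : p.Prime := Fact.out
  let B : Submodule k Z := S.comap Z.subtype
  have : Finite Q := Nat.finite_of_card_ne_zero (by rw [hQ]; exact pow_ne_zero _ hp.ne_zero)
  have hinj : Function.Injective fun x : Z ⧸ B => Θ (Quotient.out x) := fun x x' h => by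
    rw [← Quotient.out_eq x, ← Quotient.out_eq x']
    exact (Submodule.Quotient.eq B).mpr (hkey _ _ h)
  have hcard := Nat.card_le_card_of_injective _ hinj
  rw [Nat.card_fun, Nat.card_fin, hQ, ← pow_mul,
    Module.natCard_eq_pow_finrank (K := k) (V := Z ⧸ B),
    Module.natCard_eq_pow_finrank (K := ZMod p) (V := k), Nat.card_zmod, ← pow_mul] at hcard
  have h5 : finrank k (Z ⧸ B) ≤ 2 := Nat.le_of_mul_le_mul_left
    (((Nat.pow_le_pow_iff_right hp.one_lt).mp hcard).trans_eq (mul_comm _ _)) Module.finrank_pos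
  have h6 := B.finrank_quotient_add_finrank
  have h7 : finrank k B = finrank k (Z ⊓ S : Submodule k V) :=
    ((Submodule.equivSubtypeMap Z _).trans
      (LinearEquiv.ofEq _ _ (Submodule.map_comap_subtype Z _))).finrank_eq
  omega

omit [Fact p.Prime] [Finite k] [CharP k p] in
/-- A cocycle on `D` vanishing on the automorphisms fixing `L` only depends on the restriction
to `L`. -/
private theorem eq_of_restrictNormalHom_eq (L : IntermediateField ℚ QBar) [Normal ℚ L]
    {D : Subgroup Gal} {a β : Gal → k}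
    (hβ : ∀ s ∈ D, ∀ t ∈ D, β (s * t) = a s * β t + β s)
    (hlev : ∀ σ : Gal, (∀ x ∈ L, σ x = x) → β σ = 0) {s s' : Gal}
    (h : AlgEquiv.restrictNormalHom L s = AlgEquiv.restrictNormalHom L s') (hs : s ∈ D)
    (hs' : s' ∈ D) : β s = β s' := by
  have h0 : ∀ x ∈ L, (s'⁻¹ * s) x = x := fun x hx => by
    have hcomm : ∀ t : Gal, ((AlgEquiv.restrictNormalHom L t ⟨x, hx⟩ : L) : QBar) = t x :=
      fun t => AlgEquiv.restrictNormal_commutes t L ⟨x, hx⟩
    rw [AlgEquiv.mul_apply, ← hcomm s, h, hcomm]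
    exact s'.symm_apply_apply x
  calc β s = β (s' * (s'⁻¹ * s)) := by rw [mul_inv_cancel_left]
    _ = β s' := by
      rw [hβ s' hs' _ (mul_mem (inv_mem hs') hs), hlev _ h0, mul_zero, zero_add]

omit [Finite k] [CharP k p] in
/-- Hilbert 90: a cocycle with values in `μ_p` is given by a `p`-th root of an element of
`ℚ_p`. -/
private theorem exists_root_of_cocycle (L : IntermediateField ℚ QBar) [Normal ℚ L]
    [FiniteDimensional ℚ L] {ξ : (Local.localField p L)ˣ} (hξ : ξ ^ p = 1)
    {χ : (Local.localField p L ≃ₐ[ℚ_[p]] Local.localField p L) → ℕ} (hact : ∀ g, g • ξ = ξ ^ χ g)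
    {f : (Local.localField p L ≃ₐ[ℚ_[p]] Local.localField p L) → ZMod p}
    (hf : ∀ g g', f (g * g') = f g + χ g * f g') :
    ∃ (y : (Local.localField p L)ˣ) (u : (⊥ : IntermediateField ℚ_[p] (PadicAlgCl p))ˣ),
      (∀ g : Local.localField p L ≃ₐ[ℚ_[p]] Local.localField p L, g • y / y = ξ ^ (f g).val) ∧
        qpIncl L u = y ^ p := by
  obtain ⟨y, hy⟩ := groupCohomology.isMulCoboundary₁_of_isMulCocycle₁_of_aut_to_units
    (fun g => ξ ^ (f g).val) fun g g' => by
      rw [smul_pow', hact, ← pow_mul, ← pow_add]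
      refine pow_eq_pow_of_modEq ?_ hξ
      rw [← ZMod.natCast_eq_natCast_iff]
      push_cast [ZMod.natCast_zmod_val]
      rw [hf]; ring
  obtain ⟨u, hu⟩ := exists_qpIncl_eq L (y ^ p) fun g => by
    rw [← div_eq_one, smul_pow', ← div_pow, hy, ← pow_mul, mul_comm, pow_mul, hξ, one_pow]
  exact ⟨y, u, hy, hu⟩

omit [Finite k] [CharP k p] in
/-- Elements of `ℚ_p` congruent modulo `p`-th powers give cohomologous cocycles. -/
private theorem exists_sub_eq_of_mk_eq (L : IntermediateField ℚ QBar) {ζE : Local.localField p L}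
    (hζE : IsPrimitiveRoot ζE p) [NeZero p]
    {χ : (Local.localField p L ≃ₐ[ℚ_[p]] Local.localField p L) → ℕ}
    (hact : ∀ g, g • (hζE.toRootsOfUnity : (Local.localField p L)ˣ)
      = (hζE.toRootsOfUnity : (Local.localField p L)ˣ) ^ χ g)
    {f f' : (Local.localField p L ≃ₐ[ℚ_[p]] Local.localField p L) → ZMod p}
    {y y' : (Local.localField p L)ˣ} {u u' : (⊥ : IntermediateField ℚ_[p] (PadicAlgCl p))ˣ}
    (hy : ∀ g : Local.localField p L ≃ₐ[ℚ_[p]] Local.localField p L,
      g • y / y = (hζE.toRootsOfUnity : (Local.localField p L)ˣ) ^ (f g).val)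
    (hy' : ∀ g : Local.localField p L ≃ₐ[ℚ_[p]] Local.localField p L,
      g • y' / y' = (hζE.toRootsOfUnity : (Local.localField p L)ˣ) ^ (f' g).val)
    (hu : qpIncl L u = y ^ p) (hu' : qpIncl L u' = y' ^ p)
    (h : (QuotientGroup.mk u : _ ⧸ (powMonoidHom p).range) = QuotientGroup.mk u') :
    ∃ c : ZMod p, ∀ g, f g - f' g = ((χ g : ZMod p) - 1) * c := by
  obtain ⟨c, w, hc⟩ := exists_eq_mul_pow L hζE hu hu' h
  refine ⟨c, fun g => ?_⟩
  obtain ⟨ξ, hξ⟩ : ∃ ξ, ξ = (hζE.toRootsOfUnity : (Local.localField p L)ˣ) := ⟨_, rfl⟩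
  have hprim : IsPrimitiveRoot ξ p := IsPrimitiveRoot.coe_units_iff.mp (by rw [hξ]; exact hζE)
  simp only [← hξ] at hact hy hy' hc
  have h1 := hy g
  rw [hc, smul_mul', smul_mul', algEquiv_qpIncl, mul_div_mul_right_eq_div, smul_pow', hact,
    ← pow_mul, mul_div_mul_comm, hy' g, div_eq_mul_inv (ξ ^ _) (ξ ^ c), ← mul_assoc,
    mul_inv_eq_iff_eq_mul, ← pow_add, ← pow_add] at h1
  rw [pow_eq_pow_iff_modEq, ← hprim.eq_orderOf, ← ZMod.natCast_eq_natCast_iff] at h1
  push_cast [ZMod.natCast_zmod_val] at h1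
  linear_combination -h1

omit [Finite k] [CharP k p] in
/-- With the roots of unity in the level, `ℚ_p` has `p ^ 2` classes modulo `p`-th powers. -/
private theorem index_range_pow_bot (hp2 : p ≠ 2) (L : IntermediateField ℚ QBar) [Normal ℚ L]
    [FiniteDimensional ℚ L] {ζ : QBar} (hζ : IsPrimitiveRoot ζ p) (hζL : ζ ∈ L) :
    (powMonoidHom p : (⊥ : IntermediateField ℚ_[p] (PadicAlgCl p))ˣ →* _).range.index = p ^ 2 := by
  rw [Local.index_range_pow hp2, Local.card_ker_pow_of_forall, if_pos rfl,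
    IntermediateField.finrank_bot]
  · ring
  · exact root_unity_bot_eq_one hp2 L hζ hζL

omit [Fact p.Prime] [Finite k] [CharP k p] in
/-- The exponent of `σ` at one primitive root gives the value of the cyclotomic character. -/
private theorem apply_eq_natCast_of_root [NeZero p] {a : Gal → k}
    (ha : ∀ (σ : Gal) (n : ℕ), (∀ μ : QBar, μ ^ p = 1 → σ μ = μ ^ n) → a σ = (n : k))
    {ζ : QBar} (hζ : IsPrimitiveRoot ζ p) {σ : Gal} {n : ℕ} (h : σ ζ = ζ ^ n) : a σ = (n : k) :=
  ha σ n fun μ hμ => by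
    obtain ⟨j, -, rfl⟩ := hζ.eq_pow_of_pow_eq_one hμ
    rw [map_pow, h, ← pow_mul, ← pow_mul, mul_comm]

omit [Finite k] [CharP k p] in
/-- Lifts to the decomposition group of the local Galois group, with their action on `ζ`. -/
private theorem exists_lift_exponent [NeZero p] (L : IntermediateField ℚ QBar) [Normal ℚ L]
    [FiniteDimensional ℚ L] {ζ : QBar} (hζ : IsPrimitiveRoot ζ p) (hζL : ζ ∈ L)
    (hζE : IsPrimitiveRoot (Local.localEmb p L ⟨ζ, hζL⟩) p) :
    ∃ (lift : (Local.localField p L ≃ₐ[ℚ_[p]] Local.localField p L) → Gal)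
      (χ : (Local.localField p L ≃ₐ[ℚ_[p]] Local.localField p L) → ℕ), ∀ g,
      lift g ∈ (padicPlace p).decompositionSubgroup ℚ ∧
        AlgEquiv.restrictNormalHom L (lift g) = Local.toGlobal p L g ∧ lift g ζ = ζ ^ χ g ∧
        g • (hζE.toRootsOfUnity : (Local.localField p L)ˣ) =
          (hζE.toRootsOfUnity : (Local.localField p L)ˣ) ^ χ g := by
  choose e he using exists_pow_eq_on_roots p
  let lift : (Local.localField p L ≃ₐ[ℚ_[p]] Local.localField p L) → Gal :=
    fun g => localGaloisToGlobal p (g.liftNormal (PadicAlgCl p))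
  refine ⟨lift, fun g => e (lift g), fun g => ⟨localGaloisToGlobal_mem_decompositionSubgroup p _,
    rfl, he _ ζ hζ.pow_eq_one, Units.ext ?_⟩⟩
  show g (Local.localEmb p L ⟨ζ, hζL⟩) = _
  rw [Units.val_pow_eq_pow_val,
    show ((hζE.toRootsOfUnity : (Local.localField p L)ˣ) : Local.localField p L) =
      Local.localEmb p L ⟨ζ, hζL⟩ from rfl,
    ← Local.localEmb_toGlobal, show Local.toGlobal p L g = AlgEquiv.restrictNormalHom L (lift g)
      from rfl, ← map_pow]
  congr 1
  exact Subtype.ext ((AlgEquiv.restrictNormal_commutes (lift g) L ⟨ζ, hζL⟩).trans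
    (he _ ζ hζ.pow_eq_one))

/-- At most two classes, when the level contains the roots of unity. -/
theorem finrank_kummer_le_of_mem (hp2 : p ≠ 2) (a : Gal → k)
    (ha : ∀ (σ : Gal) (n : ℕ), (∀ μ : QBar, μ ^ p = 1 → σ μ = μ ^ n) → a σ = (n : k))
    (Z : Submodule k (Gal → k)) [Module.Finite k Z]
    (hZ : ∀ β ∈ Z, ∀ s ∈ (padicPlace p).decompositionSubgroup ℚ,
      ∀ t ∈ (padicPlace p).decompositionSubgroup ℚ, β (s * t) = a s * β t + β s)
    (L : IntermediateField ℚ QBar) [Normal ℚ L] [FiniteDimensional ℚ L] {ζ : QBar}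
    (hζ : IsPrimitiveRoot ζ p) (hζL : ζ ∈ L)
    (hlev : ∀ β ∈ Z, ∀ σ : Gal, (∀ x ∈ L, σ x = x) → β σ = 0) :
    finrank k Z ≤ finrank k (Z ⊓ scalarCobdOn a ((padicPlace p).decompositionSubgroup ℚ) :
      Submodule k (Gal → k)) + 2 := by
  classical
  set D := (padicPlace p).decompositionSubgroup ℚ
  -- the root of unity upstairs
  have hζE : IsPrimitiveRoot (Local.localEmb p L ⟨ζ, hζL⟩) p :=
    IsPrimitiveRoot.map_of_injective (f := Local.localEmb p L)
      (IsPrimitiveRoot.coe_submonoidClass_iff.mp hζ) (Local.localEmb p L).injective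
  obtain ⟨lift, χ, hl⟩ := exists_lift_exponent L hζ hζL hζE
  choose hlD hlr hlζ hact using hl
  -- coordinates over the prime field
  let : Algebra (ZMod p) k := ZMod.algebra k p
  let bk := Module.finBasis (ZMod p) k
  set d := finrank (ZMod p) k
  have hcoord : ∀ (n : ℕ) (x : k) (i : Fin d),
      bk.repr ((n : k) * x) i = (n : ZMod p) * bk.repr x i := fun n x i => by
    rw [← map_natCast (algebraMap (ZMod p) k) n, ← Algebra.smul_def, map_smul]
    rfl
  have hroot := fun (β : Z) (i : Fin d) => exists_root_of_cocycle L (Units.ext hζE.pow_eq_one) hact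
    (f := fun g => bk.repr ((β : Gal → k) (lift g)) i) fun g g' => by
      rw [eq_of_restrictNormalHom_eq L (hZ _ β.2) (hlev _ β.2) (s := lift (g * g'))
          (s' := lift g * lift g') (by rw [hlr, map_mul, map_mul, hlr, hlr]) (hlD _)
          (mul_mem (hlD g) (hlD g')),
        hZ _ β.2 _ (hlD g) _ (hlD g'), apply_eq_natCast_of_root ha hζ (hlζ g), map_add,
        Finsupp.add_apply, hcoord, add_comm]
  choose y u hy hu using hroot
  let Qt := (⊥ : IntermediateField ℚ_[p] (PadicAlgCl p))ˣ ⧸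
    (powMonoidHom p : (⊥ : IntermediateField ℚ_[p] (PadicAlgCl p))ˣ →* _).range
  let Θ : Z → (Fin d → Qt) := fun β i => QuotientGroup.mk (u β i)
  -- equal Kummer elements give cohomologous cocycles
  have hkey : ∀ β β' : Z, Θ β = Θ β' → ((β : Gal → k) - (β' : Gal → k)) ∈ scalarCobdOn a D := by
    intro β β' h
    choose c hc using fun i =>
      exists_sub_eq_of_mk_eq L hζE hact (hy β i) (hy β' i) (hu β i) (hu β' i) (congrFun h i)
    refine ⟨∑ i, c i • bk i, fun s hs => ?_⟩
    have hcomm : ∀ (t : Gal) (x : L),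
        ((AlgEquiv.restrictNormalHom L t x : L) : QBar) = t (x : QBar) :=
      fun t x => AlgEquiv.restrictNormal_commutes t L x
    obtain ⟨g, hg⟩ := (Local.mem_range_toGlobal_iff p L (AlgEquiv.restrictNormalHom L s)).mpr
      fun x hx => by
        rw [hcomm]
        exact map_mem_of_mem_decomposition hs hx
    have hsg : AlgEquiv.restrictNormalHom L s = AlgEquiv.restrictNormalHom L (lift g) := by
      rw [hlr, hg]
    have hae : a s = (χ g : k) := apply_eq_natCast_of_root ha hζ <| by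
      rw [← hlζ g, show s ζ = s ((⟨ζ, hζL⟩ : L) : QBar) from rfl, ← hcomm, hsg, hcomm]
    rw [eq_of_restrictNormalHom_eq L (hZ _ (sub_mem β.2 β'.2)) (hlev _ (sub_mem β.2 β'.2)) hsg hs
      (hlD g), hae, Pi.sub_apply]
    apply bk.repr.injective
    ext i
    rw [map_sub, Finsupp.sub_apply, sub_mul, one_mul, map_sub, Finsupp.sub_apply, hcoord,
      map_sum, Finsupp.finsetSum_apply]
    simp only [map_smul, Finsupp.smul_apply, Basis.repr_self, Finsupp.single_apply, smul_eq_mul,
      mul_ite, mul_one, mul_zero, Finset.sum_ite_eq', Finset.mem_univ, if_true]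
    linear_combination hc i g
  exact finrank_le_add_two Z _ Θ (index_range_pow_bot hp2 L hζ hζL) hkey

end Fermat.Agent.CFT.Tangent
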