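import Fermat.Agent.CFT.Tangent.LocalOrdinary
import Fermat.Prelude.Def_GaloisRep_StrictOrdinary

/-!
# The local bound for strictly ordinary classes

`finrank_le_ordinary`: strictly ordinary tangent classes have local defect at most one at `p`. All
their frames share one line (`nonempty_ordFrame`, an inertia element of determinant `-1`), so
`finrank_le_of_line` applies.
-/

set_option autoImplicit false

noncomputable section

namespace Fermat.Agent.CFT.Tangent

open Fermat.Agent.Deform Fermat.Agent.Arith Module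

variable {p : ℕ} [Fact p.Prime] {k : Type} [Field k] [Finite k] [CharP k p] {r : Gal →* M2 k}

/-- The frame attached to a strictly ordinary first order deformation. -/
structure OrdFrame (p : ℕ) [Fact p.Prime] (r : Gal →* M2 k) (b : Gal → M2 k) where
  /-- The frame. -/
  Z : M2 k
  /-- Its inverse. -/
  Zi : M2 k
  /-- The normalising matrix. -/
  X : M2 k
  mul_inv : Z * Zi = 1
  inv_mul : Zi * Z = 1
  upper : ∀ s ∈ (padicPlace p).decompositionSubgroup ℚ, ∃ x z c : k,
    r s * Z = Z * !![x, c; 0, z] ∧ x = (r s).det * z ∧ z * z = 1 ∧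
      Matrix.single (0 : Fin 2) (1 : Fin 2) (1 : k) * Zi * r s⁻¹ = z • (Matrix.single 0 1 1 * Zi)
  inertia : ∀ s ∈ (padicPlace p).inertiaSubgroupIn ℚ, ∃ x c : k,
    r s * Z = Z * !![x, c; 0, 1] ∧ x = (r s).det
  line : ∀ s ∈ (padicPlace p).decompositionSubgroup ℚ, ∃ c : k,
    b s - cobdLin r X s = c • (Z * Matrix.single 0 1 1 * Zi)

omit [Finite k] in
theorem single_mul_upper (x z c : k) :
    Matrix.single (0 : Fin 2) (1 : Fin 2) (1 : k) * !![x, c; 0, z] =
      z • Matrix.single (0 : Fin 2) (1 : Fin 2) (1 : k) := by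
  ext i j
  fin_cases i <;> fin_cases j <;> simp [Matrix.mul_apply, Matrix.single]

omit [Finite k] in
/-- In the ordinary basis an element of the decomposition group is upper triangular with constant
diagonal. -/
private theorem exists_upper_matOf
    (hcyc : ∀ (σ : Gal) (n : ℕ), (∀ μ : QBar, μ ^ p = 1 → σ μ = μ ^ n) → (r σ).det = (n : k))
    (h2 : (2 : k) ≠ 0) {ρ : GaloisRepAdic (DualNumber k)} (hdet : ρ.DetIsCyclotomic p)
    {e : Basis (Fin 2) (DualNumber k) ρ.V} {L : Submodule (DualNumber k) ρ.V}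
    (he0 : e 0 ∈ L) (hL1 : ∀ v ∈ L, e.repr v 1 = 0)
    (hI : ∀ σ ∈ (padicPlace p).inertiaSubgroupIn ℚ, ∀ v : ρ.V, ρ.ρ σ v - v ∈ L)
    (hxz : ∀ σ ∈ (padicPlace p).decompositionSubgroup ℚ, ∃ x z : DualNumber k,
      (∀ w ∈ L, ρ.ρ σ w = x • w) ∧ (∀ v : ρ.V, ρ.ρ σ v - z • v ∈ L) ∧
      ∀ (n a : ℕ), (∀ μ : QBar, μ ^ p ^ n = 1 → σ μ = μ ^ a) →
        x - (a : DualNumber k) * z ∈ Ideal.span {((p ^ n : ℕ) : DualNumber k)})
    {s : Gal}
    (hs : s ∈ (padicPlace p).decompositionSubgroup ℚ) :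
    ∃ (x z : k) (u : DualNumber k),
      matOf ρ e s = !![TrivSqZeroExt.inl x, u; 0, TrivSqZeroExt.inl z] ∧
      x = (r s).det * z ∧ z * z = 1 ∧
      (s ∈ (padicPlace p).inertiaSubgroupIn ℚ → z = 1) := by
  have : NeZero p := ⟨(Fact.out : p.Prime).ne_zero⟩
  have hp0 : ((p ^ 1 : ℕ) : DualNumber k) = 0 := by
    rw [pow_one, ← map_natCast (algebraMap k (DualNumber k)) p, CharP.cast_eq_zero, map_zero]
  obtain ⟨x, z, hx, hz, hcong⟩ := hxz s hs
  obtain ⟨n, hn⟩ := exists_pow_eq_on_roots p s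
  have hn' : ∀ μ : QBar, μ ^ p ^ 1 = 1 → s μ = μ ^ n := by simpa using hn
  -- The congruence at level one gives `x = n z`, and the determinant is `n`.
  have hxn := hcong 1 n hn'
  rw [hp0, Ideal.span_singleton_eq_bot.mpr rfl, Ideal.mem_bot, sub_eq_zero] at hxn
  have hd := hdet.2 1 s n hn'
  rw [hp0, Ideal.span_singleton_eq_bot.mpr rfl, Ideal.mem_bot, sub_eq_zero] at hd
  have hU : matOf ρ e s = !![x, e.repr (ρ.ρ s (e 1)) 0; 0, z] := by
    ext i j : 1
    fin_cases j
    · fin_cases i <;> simp [matOf_apply, hx _ he0]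
    · fin_cases i
      · simp [matOf_apply]
      · have h := hL1 _ (hz (e 1))
        simp only [map_sub, map_smul, Finsupp.sub_apply, Finsupp.smul_apply, Basis.repr_self,
          Finsupp.single_eq_same, smul_eq_mul, mul_one, sub_eq_zero] at h
        simpa [matOf_apply] using h
  have hd' : (matOf ρ e s).det = (n : DualNumber k) := by
    rw [← hd, ← LinearMap.det_toMatrix e]; rfl
  rw [hU, Matrix.det_fin_two_of, mul_zero, sub_zero, hxn] at hd'
  have hn0 : (n : k) ≠ 0 := by rw [← hcyc s n hn]; exact det_map_ne_zero r s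
  have h0 := congrArg TrivSqZeroExt.fst hd'
  rw [TrivSqZeroExt.fst_mul, TrivSqZeroExt.fst_mul, TrivSqZeroExt.fst_natCast] at h0
  -- So `z ^ 2 = 1` and, as `2 ≠ 0`, `z` has no infinitesimal part.
  have hzz : z.fst * z.fst = 1 := mul_left_cancel₀ hn0 (by rw [← mul_assoc, h0, mul_one])
  have h1 := congrArg TrivSqZeroExt.snd hd'
  simp only [TrivSqZeroExt.snd_mul, TrivSqZeroExt.fst_mul, TrivSqZeroExt.fst_natCast,
    TrivSqZeroExt.snd_natCast, smul_eq_mul, MulOpposite.smul_eq_mul_unop,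
    MulOpposite.unop_op] at h1
  have hz1 : z.snd = 0 := by
    have hz0 : z.fst ≠ 0 := fun h => by rw [h, zero_mul] at hzz; exact zero_ne_one hzz
    have : (2 * (n : k) * z.fst) * z.snd = 0 := by linear_combination h1
    exact (mul_eq_zero.mp this).resolve_left (mul_ne_zero (mul_ne_zero h2 hn0) hz0)
  have hzeq : z = TrivSqZeroExt.inl z.fst := TrivSqZeroExt.ext rfl (by simpa using hz1)
  refine ⟨(n : k) * z.fst, z.fst, e.repr (ρ.ρ s (e 1)) 0, ?_, by rw [hcyc s n hn], hzz,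
    fun hsI => ?_⟩
  · rw [hU, hxn]
    conv_lhs => rw [hzeq]
    rw [← TrivSqZeroExt.inl_natCast, ← TrivSqZeroExt.inl_mul]
  -- On inertia the quotient character is trivial.
  · have h := hL1 _ (hI s hsI (e 1))
    rw [map_sub, Finsupp.sub_apply, ← matOf_apply ρ e s 1 1, hU] at h
    simp at h
    rw [sub_eq_zero] at h
    rw [h, TrivSqZeroExt.fst_one]

omit [Fact p.Prime] [CharP k p] [Finite k] in
/-- The reduction of a change to an upper triangular form. -/
private theorem fstM_of_mul_eq {R b : M2 k} {Q : M2 (DualNumber k)} {x z : k} {u : DualNumber k}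
    (h : (1 + epsM b) * inlM R * Q = Q * !![TrivSqZeroExt.inl x, u; 0, TrivSqZeroExt.inl z]) :
    R * fstM Q = fstM Q * !![x, u.fst; 0, z] := by
  replace h := congrArg fstM h
  simp only [fstM_mul, fstM_add, fstM_one, fstM_epsM, fstM_inlM, add_zero, one_mul] at h
  rw [h]
  congr 1
  ext i j
  fin_cases i <;> fin_cases j <;> simp

omit [Fact p.Prime] [CharP k p] [Finite k] in
/-- The tangent part of a change to an upper triangular form. -/
private theorem sndM_of_mul_eq {R b : M2 k} {Q : M2 (DualNumber k)} {x z : k} {u : DualNumber k}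
    (h : (1 + epsM b) * inlM R * Q = Q * !![TrivSqZeroExt.inl x, u; 0, TrivSqZeroExt.inl z]) :
    b * R * fstM Q + R * sndM Q =
      sndM Q * !![x, u.fst; 0, z] + u.snd • (fstM Q * Matrix.single 0 1 1) := by
  replace h := congrArg sndM h
  simp only [sndM_mul, fstM_mul, fstM_add, sndM_add, fstM_one, sndM_one, fstM_epsM, sndM_epsM,
    fstM_inlM, sndM_inlM, add_zero, zero_add, one_mul, mul_zero] at h
  rw [add_comm (b * R * fstM Q), h, add_comm]
  congr 1
  · congr 1
    ext i j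
    fin_cases i <;> fin_cases j <;> simp
  · rw [← mul_smul_comm]
    congr 1
    ext i j
    fin_cases i <;> fin_cases j <;> simp [Matrix.single]

omit [Finite k] in
/-- The frame of a strictly ordinary deformation with cyclotomic determinant. -/
theorem nonempty_ordFrame {b : Gal → M2 k}
    (hcyc : ∀ (σ : Gal) (n : ℕ), (∀ μ : QBar, μ ^ p = 1 → σ μ = μ ^ n) → (r σ).det = (n : k))
    (h2 : (2 : k) ≠ 0) {ρ : GaloisRepAdic (DualNumber k)}
    {B : Basis (Fin 2) (DualNumber k) ρ.V} (hord : ρ.IsStrictOrdinaryAt p)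
    (hdet : ρ.DetIsCyclotomic p)
    (hB : ∀ σ, matOf ρ B σ = (1 + epsM (b σ)) * inlM (r σ)) :
    Nonempty (OrdFrame p r b) := by
  have hA := Local.padicPlace_liesOverPrime p
  obtain ⟨L, ⟨e, he⟩, -, hI, hxz⟩ := hord.2 (padicPlace p) hA
  -- change to a basis `e` starting with a generator of the stable line
  let Q : M2 (DualNumber k) := B.toMatrix e
  let Qi : M2 (DualNumber k) := e.toMatrix B
  have hQ : Q * Qi = 1 := B.toMatrix_mul_toMatrix_flip e
  have hQ' : Qi * Q = 1 := e.toMatrix_mul_toMatrix_flip B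
  have hchange : ∀ σ, matOf ρ B σ * Q = Q * matOf ρ e σ := fun σ =>
    (linearMap_toMatrix_mul_basis_toMatrix e B B (ρ.ρ σ)).trans
      (basis_toMatrix_mul_linearMap_toMatrix e B e (ρ.ρ σ)).symm
  have he0 : e 0 ∈ L := he ▸ Submodule.mem_span_singleton_self _
  have hL1 : ∀ v ∈ L, e.repr v 1 = 0 := fun v hv => by
    rw [he] at hv
    obtain ⟨c, rfl⟩ := Submodule.mem_span_singleton.mp hv
    simp
  have hZ : fstM Q * fstM Qi = 1 := by rw [← fstM_mul, hQ, fstM_one]
  have hZ' : fstM Qi * fstM Q = 1 := by rw [← fstM_mul, hQ', fstM_one]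
  set Z := fstM Q
  set Zi := fstM Qi
  have key : ∀ s ∈ (padicPlace p).decompositionSubgroup ℚ, ∃ (x z : k) (u : DualNumber k),
      matOf ρ e s = !![TrivSqZeroExt.inl x, u; 0, TrivSqZeroExt.inl z] ∧
        x = (r s).det * z ∧ z * z = 1 ∧
        (s ∈ (padicPlace p).inertiaSubgroupIn ℚ → z = 1) :=
    fun s hs => exists_upper_matOf hcyc h2 hdet he0 hL1 hI hxz hs
  -- reading `B → e` on both coefficients gives the frame `Z` and the line
  have hframe : ∀ s ∈ (padicPlace p).decompositionSubgroup ℚ, ∃ (x z c y : k),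
      r s * Z = Z * !![x, c; 0, z] ∧ x = (r s).det * z ∧ z * z = 1 ∧
        (s ∈ (padicPlace p).inertiaSubgroupIn ℚ → z = 1) ∧
        b s * r s * Z + r s * sndM Q = sndM Q * !![x, c; 0, z] + y • (Z * Matrix.single 0 1 1) := by
    intro s hs
    obtain ⟨x, z, u, hU, hx, hz, hzI⟩ := key s hs
    have h := hchange s
    rw [hB, hU] at h
    exact ⟨x, z, u.fst, u.snd, fstM_of_mul_eq h, hx, hz, hzI, sndM_of_mul_eq h⟩
  have hcancel : ∀ (s : Gal) (x z c : k), r s * Z = Z * !![x, c; 0, z] →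
      !![x, c; 0, z] * (Zi * r s⁻¹) = Zi := fun s x z c h => by
    calc !![x, c; 0, z] * (Zi * r s⁻¹) = Zi * (Z * !![x, c; 0, z]) * (Zi * r s⁻¹) := by
          rw [← mul_assoc Zi Z, hZ', one_mul]
      _ = Zi * (r s * (Z * Zi) * r s⁻¹) := by rw [← h]; simp only [mul_assoc]
      _ = Zi := by rw [hZ, mul_one, map_mul_inv, mul_one]
  have hE : ∀ (s : Gal) (x z c : k), r s * Z = Z * !![x, c; 0, z] → z * z = 1 →
      Matrix.single (0 : Fin 2) (1 : Fin 2) (1 : k) * Zi * r s⁻¹ =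
        z • (Matrix.single 0 1 1 * Zi) := fun s x z c h hz => by
    conv_rhs => rw [← hcancel s x z c h, ← mul_assoc _ !![x, c; 0, z], single_mul_upper,
      smul_mul_assoc, smul_smul, hz, one_smul]
    rw [mul_assoc]
  -- assemble, cancelling the triangular matrix
  refine ⟨⟨Z, Zi, -(sndM Q * Zi), hZ, hZ', fun s hs => ?_, fun s hs => ?_, fun s hs => ?_⟩⟩
  · obtain ⟨x, z, c, -, h, hx, hz, -, -⟩ := hframe s hs
    exact ⟨x, z, c, h, hx, hz, hE s x z c h hz⟩
  · obtain ⟨x, z, c, -, h, hx, hz, hzI, -⟩ := hframe s ((Subgroup.map_subtype_le _) hs)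
    rw [hzI hs] at h hx
    exact ⟨x, c, h, by rw [hx, mul_one]⟩
  · obtain ⟨x, z, c, y, h, hx, hz, -, h1⟩ := hframe s hs
    refine ⟨y * z, ?_⟩
    have e : (b s * r s * Z + r s * sndM Q) * (Zi * r s⁻¹) =
        (sndM Q * !![x, c; 0, z] + y • (Z * Matrix.single 0 1 1)) * (Zi * r s⁻¹) := by rw [h1]
    rw [add_mul, add_mul, mul_assoc (sndM Q), hcancel s x z c h, smul_mul_assoc] at e
    have e1 : b s * r s * Z * (Zi * r s⁻¹) = b s := by
      rw [mul_assoc (b s * r s), ← mul_assoc Z, hZ, one_mul, mul_assoc, map_mul_inv, mul_one]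
    have e2 : Z * Matrix.single 0 1 1 * (Zi * r s⁻¹) = z • (Z * Matrix.single 0 1 1 * Zi) := by
      rw [mul_assoc Z, ← mul_assoc (Matrix.single 0 1 1) Zi, hE s x z c h hz, mul_smul_comm,
        mul_assoc Z]
    rw [e1, e2, smul_smul] at e
    rw [cobdLin_apply, ← eq_sub_iff_add_eq.mpr e |>.symm]
    simp only [mul_neg, neg_mul, mul_assoc]
    abel

omit [Finite k] [CharP k p] in
/-- Two frames share the line, as an inertia element of determinant `-1` is triangular in both. -/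
private theorem OrdFrame.zi_mul_z_apply (h2 : (2 : k) ≠ 0) {τ : Gal}
    (hτ : τ ∈ (padicPlace p).inertiaSubgroupIn ℚ) (hdetτ : (r τ).det = -1) {b b' : Gal → M2 k}
    (f : OrdFrame p r b) (f' : OrdFrame p r b') : (f.Zi * f'.Z) 1 0 = 0 := by
  obtain ⟨x, c, h, hx⟩ := f.inertia τ hτ
  obtain ⟨x', c', h', hx'⟩ := f'.inertia τ hτ
  have e : !![x, c; 0, 1] * (f.Zi * f'.Z) = (f.Zi * f'.Z) * !![x', c'; 0, 1] := by
    calc !![x, c; 0, 1] * (f.Zi * f'.Z) = f.Zi * (f.Z * !![x, c; 0, 1]) * (f.Zi * f'.Z) := by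
          rw [← mul_assoc f.Zi f.Z, f.inv_mul, one_mul]
      _ = f.Zi * (r τ * (f.Z * f.Zi) * f'.Z) := by rw [← h]; simp only [mul_assoc]
      _ = (f.Zi * f'.Z) * !![x', c'; 0, 1] := by
        rw [f.mul_inv, mul_one, h', mul_assoc]
  have e10 := congrFun (congrFun e 1) 0
  rw [hx', hdetτ] at e10
  simp [Matrix.mul_apply, Fin.sum_univ_two] at e10
  simp only [Matrix.mul_apply, Fin.sum_univ_two]
  refine (mul_eq_zero.mp (?_ : (2 : k) * _ = 0)).resolve_left h2
  linear_combination e10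

omit [Finite k] [CharP k p] in
/-- In a frame the upper nilpotent and the diagonal directions are independent. -/
private theorem OrdFrame.linearIndependent_pair {b : Gal → M2 k} (fr : OrdFrame p r b) :
    LinearIndependent k ![fr.Z * Matrix.single 0 1 1 * fr.Zi, fr.Z * !![1, 0; 0, -1] * fr.Zi] := by
  set E12 : M2 k := Matrix.single 0 1 1 with hE12
  set Hd : M2 k := !![1, 0; 0, -1] with hHd
  rw [LinearIndependent.pair_iff]
  intro s t hst
  have h := congrArg (fun M => fr.Zi * M * fr.Z) hst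
  simp only [mul_add, add_mul, mul_smul_comm, smul_mul_assoc, mul_zero, zero_mul] at h
  rw [show fr.Zi * (fr.Z * E12 * fr.Zi) * fr.Z = E12 by
      rw [← mul_assoc, ← mul_assoc, fr.inv_mul, one_mul, mul_assoc, fr.inv_mul, mul_one],
    show fr.Zi * (fr.Z * Hd * fr.Zi) * fr.Z = Hd by
      rw [← mul_assoc, ← mul_assoc, fr.inv_mul, one_mul, mul_assoc, fr.inv_mul, mul_one]] at h
  have h00 := congrFun (congrFun h 0) 0
  have h01 := congrFun (congrFun h 0) 1
  simp [hE12, hHd, Matrix.single] at h00 h01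
  exact ⟨h01, h00⟩

/-- The bound at `p` for strictly ordinary classes: cocycles with such lifts have dimension at most
that of the local coboundaries among them, plus that of the local invariants, plus one. -/
theorem finrank_le_ordinary (hp2 : p ≠ 2) (h2 : (2 : k) ≠ 0)
    (hr : GaloisFactorsThroughFiniteLevel r)
    (hcyc : ∀ (σ : Gal) (n : ℕ), (∀ μ : QBar, μ ^ p = 1 → σ μ = μ ^ n) → (r σ).det = (n : k))
    (V : Submodule k (Gal → M2 k)) [Module.Finite k V]
    (hcoc : ∀ b ∈ V, IsAdCocycle r b) (hlev : ∀ b ∈ V, IsFiniteLevel b)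
    (hb : ∀ b ∈ V, b ≠ 0 → ∃ (ρ : GaloisRepAdic (DualNumber k))
      (B : Basis (Fin 2) (DualNumber k) ρ.V), ρ.IsStrictOrdinaryAt p ∧ ρ.DetIsCyclotomic p ∧
        ∀ σ, matOf ρ B σ = (1 + epsM (b σ)) * inlM (r σ)) :
    finrank k V ≤ finrank k (V ⊓ cobdOn r ((padicPlace p).decompositionSubgroup ℚ) :
        Submodule k (Gal → M2 k)) +
      finrank k (fixedOn r ((padicPlace p).decompositionSubgroup ℚ)) + 1 := by
  rcases eq_or_ne V ⊥ with rfl | hV
  · simp [finrank_bot]
  obtain ⟨b₀, hb₀, hb₀ne⟩ := Submodule.exists_mem_ne_zero_of_ne_bot hV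
  obtain ⟨ρ₀, B₀, ho, hd, hm⟩ := hb b₀ hb₀ hb₀ne
  obtain ⟨fr⟩ := nonempty_ordFrame hcyc h2 ho hd hm
  set E12 : M2 k := Matrix.single 0 1 1 with hE12
  set Hd : M2 k := !![1, 0; 0, -1] with hHd
  obtain ⟨τ, hτ, hτζ⟩ := Mazur.Eisenstein.exists_inertia_inv
    (Local.padicPlace_liesOverPrime p) (Fact.out : p.Prime) 1
  have hdetτ : (r τ).det = -1 := by
    have hp : p.Prime := Fact.out
    rw [hcyc τ (p - 1) fun μ hμ => ?_]
    · rw [Nat.cast_sub hp.one_le, CharP.cast_eq_zero, Nat.cast_one, zero_sub]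
    · have hμ0 : μ ≠ 0 := fun h => by rw [h, zero_pow hp.ne_zero] at hμ; exact zero_ne_one hμ
      rw [hτζ μ (by rwa [pow_one]), pow_sub₀ μ hμ0 hp.one_le, hμ, one_mul, pow_one]
  -- two frames share the line
  have htri : ∀ {b b' : Gal → M2 k} (f : OrdFrame p r b) (f' : OrdFrame p r b'),
      (f.Zi * f'.Z) 1 0 = 0 := fun f f' => f.zi_mul_z_apply h2 hτ hdetτ f'
  refine finrank_le_of_line hp2 h2 hr (fun σ => (r σ).det) hcyc V hcoc hlev
    (N := fr.Z * E12 * fr.Zi) (H := fr.Z * Hd * fr.Zi) ?_ ?_ ?_ (fun s hs => ?_) (fun s hs => ?_)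
    fun b hbV => ?_
  · rw [Matrix.trace_mul_comm, ← mul_assoc, fr.inv_mul, one_mul, hHd]
    simp [Matrix.trace_fin_two]
  · rw [Matrix.trace_mul_comm, ← mul_assoc, fr.inv_mul, one_mul, hE12]
    simp [Matrix.trace_fin_two, Matrix.single]
  · exact fr.linearIndependent_pair
  · obtain ⟨x, z, c, h, hx, hz, hE⟩ := fr.upper s hs
    show r s * (fr.Z * E12 * fr.Zi) * r s⁻¹ = (r s).det • (fr.Z * E12 * fr.Zi)
    have e : !![x, c; 0, z] * E12 = x • E12 := by
      ext i j
      fin_cases i <;> fin_cases j <;>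
        simp [hE12, Matrix.mul_apply, Matrix.single]
    calc r s * (fr.Z * E12 * fr.Zi) * r s⁻¹ = r s * fr.Z * (E12 * fr.Zi * r s⁻¹) := by
          simp only [mul_assoc]
      _ = z • (fr.Z * (!![x, c; 0, z] * E12) * fr.Zi) := by
          rw [hE12, hE, h, mul_smul_comm]; simp only [mul_assoc]
      _ = _ := by rw [e, mul_smul_comm, smul_mul_assoc, smul_smul, hx, mul_left_comm, hz, mul_one]
  · obtain ⟨x, z, c, h, hx, hz, hE⟩ := fr.upper s hs
    refine ⟨-(2 * c * z), ?_⟩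
    have e : !![x, c; 0, z] * Hd = Hd * !![x, c; 0, z] - (2 * c) • E12 := by
      ext i j
      fin_cases i <;> fin_cases j <;>
        simp [hE12, hHd, Matrix.mul_apply, Fin.sum_univ_two, Matrix.single]
      ring
    have hcan : !![x, c; 0, z] * (fr.Zi * r s⁻¹) = fr.Zi := by
      calc !![x, c; 0, z] * (fr.Zi * r s⁻¹)
          = fr.Zi * (fr.Z * !![x, c; 0, z]) * (fr.Zi * r s⁻¹) := by
            rw [← mul_assoc fr.Zi fr.Z, fr.inv_mul, one_mul]
        _ = fr.Zi * (r s * (fr.Z * fr.Zi) * r s⁻¹) := by rw [← h]; simp only [mul_assoc]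
        _ = fr.Zi := by rw [fr.mul_inv, mul_one, map_mul_inv, mul_one]
    calc r s * (fr.Z * Hd * fr.Zi) * r s⁻¹ - fr.Z * Hd * fr.Zi
        = r s * fr.Z * Hd * (fr.Zi * r s⁻¹) - fr.Z * Hd * fr.Zi := by simp only [mul_assoc]
      _ = fr.Z * (!![x, c; 0, z] * Hd) * (fr.Zi * r s⁻¹) - fr.Z * Hd * fr.Zi := by
          rw [h]; simp only [mul_assoc]
      _ = -((2 * c) • (fr.Z * (E12 * fr.Zi * r s⁻¹))) := by
          rw [e, mul_sub, sub_mul, mul_smul_comm, smul_mul_assoc, mul_assoc fr.Z (Hd * _),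
            mul_assoc Hd, hcan, mul_assoc fr.Z E12, mul_assoc E12 fr.Zi, mul_assoc fr.Z Hd]
          abel
      _ = _ := by rw [hE12, hE, mul_smul_comm, smul_smul, neg_smul, mul_assoc fr.Z]
  · rcases eq_or_ne b 0 with rfl | hbne
    · exact ⟨0, fun s _ => ⟨0, by simp⟩⟩
    obtain ⟨ρ, B, ho', hd', hm'⟩ := hb b hbV hbne
    obtain ⟨f⟩ := nonempty_ordFrame hcyc h2 ho' hd' hm'
    refine ⟨f.X, fun s hs => ?_⟩
    obtain ⟨c, hc⟩ := f.line s hs
    set T := fr.Zi * f.Z with hT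
    set Ti := f.Zi * fr.Z with hTi
    have e : T * E12 * Ti = (T 0 0 * Ti 1 1) • E12 := by
      have h1 : T 1 0 = 0 := htri fr f
      have h2' : Ti 1 0 = 0 := htri f fr
      ext i j
      fin_cases i <;> fin_cases j <;>
        simp [hE12, Matrix.mul_apply, Fin.sum_univ_two, Matrix.single, h1, h2']
    refine ⟨c * (T 0 0 * Ti 1 1), ?_⟩
    rw [hc, mul_smul, ← smul_mul_assoc (T 0 0 * Ti 1 1), ← mul_smul_comm (T 0 0 * Ti 1 1) fr.Z, ← e,
      hT, hTi]
    congr 1
    calc f.Z * E12 * f.Zi = fr.Z * fr.Zi * f.Z * E12 * f.Zi * (fr.Z * fr.Zi) := by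
          rw [fr.mul_inv, one_mul, mul_one]
      _ = _ := by simp only [mul_assoc]

end Fermat.Agent.CFT.Tangent
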